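/-
Layer D / A6 home model (helper8): LEVEL-CONSTANT COCHAINS.

For a group `G` with a directed family `𝒰` of normal subgroups ("levels") and `A : Rep.{u} k G`,
an inhomogeneous `n`-cochain `f : (Fin n → G) → A` is *level constant* if for some `U ∈ 𝒰`
it is right-`U`-invariant in every variable and takes values in the `U`-invariants of `A`
(i.e. it is inflated from `C^n(G/U, A^U)`).  These form a subcomplex of Mathlib's
`inhomogeneousCochains A`; its cohomology `LC.H 𝒰 A n` is the cohomology of the profinite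
completion of `G` along `𝒰` with coefficients in the discrete module of smooth vectors of `A`.
-/
import Mathlib

set_option autoImplicit false

universe u

namespace Fermat.Agent.CFT.LC

open CategoryTheory groupCohomology

/-- A nonempty, downward directed family of normal subgroups. -/
structure Levels (G : Type u) [Group G] where
  sets : Set (Subgroup G)
  nonempty : sets.Nonempty
  directed : ∀ U ∈ sets, ∀ V ∈ sets, ∃ W ∈ sets, W ≤ U ⊓ V
  normal : ∀ U ∈ sets, U.Normal

variable {k G : Type u} [CommRing k] [Group G]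

/-- All levels have finite index. -/
class Levels.IsFin (𝒰 : Levels G) : Prop where
  finiteIndex : ∀ U ∈ 𝒰.sets, U.FiniteIndex

/-- `𝒱` is coarser than `𝒰`: every level of `𝒱` contains a level of `𝒰`. -/
def Levels.Refines (𝒰 𝒱 : Levels G) : Prop := ∀ V ∈ 𝒱.sets, ∃ U ∈ 𝒰.sets, U ≤ V

/-- Level constancy at a fixed subgroup. -/
def IsLCAt (U : Subgroup G) (A : Rep.{u} k G) {n : ℕ} (f : (Fin n → G) → A) : Prop :=
  (∀ g u : Fin n → G, (∀ i, u i ∈ U) → f (g * u) = f g) ∧ ∀ g, ∀ s ∈ U, A.ρ s (f g) = f g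

/-- Level constancy for a family of levels. -/
def IsLC (𝒰 : Levels G) (A : Rep.{u} k G) {n : ℕ} (f : (Fin n → G) → A) : Prop :=
  ∃ U ∈ 𝒰.sets, IsLCAt U A f

section Part1

variable {A : Rep.{u} k G} {n : ℕ}

lemma IsLCAt.mono {U W : Subgroup G} (h : W ≤ U) {f : (Fin n → G) → A} (hf : IsLCAt U A f) :
    IsLCAt W A f :=
  ⟨fun g u hu => hf.1 g u fun i => h (hu i), fun g s hs => hf.2 g s (h hs)⟩

lemma IsLCAt.zero (U : Subgroup G) : IsLCAt U A (0 : (Fin n → G) → A) :=
  ⟨fun _ _ _ => rfl, fun _ _ _ => by simp⟩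

lemma IsLCAt.add {U : Subgroup G} {f f' : (Fin n → G) → A} (hf : IsLCAt U A f)
    (hf' : IsLCAt U A f') : IsLCAt U A (f + f') :=
  ⟨fun g u hu => by simp only [Pi.add_apply, hf.1 g u hu, hf'.1 g u hu],
    fun g s hs => by simp only [Pi.add_apply, map_add, hf.2 g s hs, hf'.2 g s hs]⟩

lemma IsLCAt.smul {U : Subgroup G} (c : k) {f : (Fin n → G) → A} (hf : IsLCAt U A f) :
    IsLCAt U A (c • f) :=
  ⟨fun g u hu => by simp only [Pi.smul_apply, hf.1 g u hu],
    fun g s hs => by simp only [Pi.smul_apply, map_smul, hf.2 g s hs]⟩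

lemma IsLCAt.neg {U : Subgroup G} {f : (Fin n → G) → A} (hf : IsLCAt U A f) :
    IsLCAt U A (-f) :=
  ⟨fun g u hu => by simp only [Pi.neg_apply, hf.1 g u hu],
    fun g s hs => by simp only [Pi.neg_apply, map_neg, hf.2 g s hs]⟩

lemma IsLCAt.sum {U : Subgroup G} {ι : Type*} (s : Finset ι) {f : ι → (Fin n → G) → A}
    (hf : ∀ i ∈ s, IsLCAt U A (f i)) : IsLCAt U A (∑ i ∈ s, f i) := by
  classical
  induction s using Finset.induction_on with
  | empty => simpa using IsLCAt.zero U
  | insert a s ha ih =>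
    rw [Finset.sum_insert ha]
    exact (hf a (Finset.mem_insert_self a s)).add
      (ih fun i hi => hf i (Finset.mem_insert_of_mem hi))

/-- Contracting `g * u` differs from contracting `g` by a tuple with entries in a normal `U`. -/
lemma contractNth_mul_mem {U : Subgroup G} [U.Normal] (j : Fin (n + 1)) (g u : Fin (n + 1) → G)
    (hu : ∀ i, u i ∈ U) :
    ∃ u' : Fin n → G, (∀ i, u' i ∈ U) ∧
      Fin.contractNth j (· * ·) (g * u) = Fin.contractNth j (· * ·) g * u' := by
  refine ⟨(Fin.contractNth j (· * ·) g)⁻¹ * Fin.contractNth j (· * ·) (g * u), fun i => ?_, ?_⟩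
  · simp only [Pi.mul_apply, Pi.inv_apply]
    rcases lt_trichotomy (i : ℕ) j with h | h | h
    · rw [Fin.contractNth_apply_of_lt _ _ _ _ h, Fin.contractNth_apply_of_lt _ _ _ _ h]
      simpa using hu _
    · rw [Fin.contractNth_apply_of_eq _ _ _ _ h, Fin.contractNth_apply_of_eq _ _ _ _ h]
      simp only [Pi.mul_apply, mul_inv_rev]
      have h1 : (g i.succ)⁻¹ * u (Fin.castSucc i) * g i.succ ∈ U := by
        have := Subgroup.Normal.conj_mem (inferInstance : U.Normal) _ (hu (Fin.castSucc i))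
          (g i.succ)⁻¹
        simpa using this
      have : (g i.succ)⁻¹ * (g (Fin.castSucc i))⁻¹ *
          (g (Fin.castSucc i) * u (Fin.castSucc i) * (g i.succ * u i.succ)) =
          ((g i.succ)⁻¹ * u (Fin.castSucc i) * g i.succ) * u i.succ := by group
      rw [this]
      exact U.mul_mem h1 (hu _)
    · rw [Fin.contractNth_apply_of_gt _ _ _ _ h, Fin.contractNth_apply_of_gt _ _ _ _ h]
      simpa using hu _
  · simp

/-- The inhomogeneous differential preserves level constancy at a normal subgroup. -/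
lemma IsLCAt.d {U : Subgroup G} [U.Normal] {f : (Fin n → G) → A} (hf : IsLCAt U A f) :
    IsLCAt U A ((inhomogeneousCochains.d A n).hom f) := by
  refine ⟨fun g u hu => ?_, fun g s hs => ?_⟩
  · simp only [inhomogeneousCochains.d_hom_apply]
    congr 1
    · have h1 : (fun i : Fin n => (g * u) i.succ) = (fun i => g i.succ) * fun i => u i.succ := rfl
      rw [h1, hf.1 _ _ fun i => hu _, Pi.mul_apply, map_mul, Module.End.mul_apply,
        hf.2 _ _ (hu 0)]
    · refine Finset.sum_congr rfl fun j _ => ?_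
      obtain ⟨u', hu', h⟩ := contractNth_mul_mem j g u hu
      rw [h, hf.1 _ _ hu']
  · simp only [inhomogeneousCochains.d_hom_apply, map_add, map_sum, map_smul]
    congr 1
    · have h1 : (g 0)⁻¹ * s * g 0 ∈ U := by
        have := Subgroup.Normal.conj_mem (inferInstance : U.Normal) _ hs (g 0)⁻¹
        simpa using this
      have h2 : s * g 0 = g 0 * ((g 0)⁻¹ * s * g 0) := by group
      rw [← Module.End.mul_apply, ← map_mul, h2, map_mul, Module.End.mul_apply, hf.2 _ _ h1]
    · exact Finset.sum_congr rfl fun j _ => by rw [hf.2 _ _ hs]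

/-- Level-constant `n`-cochains. -/
def cochains (𝒰 : Levels G) (A : Rep.{u} k G) (n : ℕ) : Submodule k ((Fin n → G) → A) where
  carrier := {f | IsLC 𝒰 A f}
  add_mem' := by
    rintro f f' ⟨U, hU, hf⟩ ⟨V, hV, hf'⟩
    obtain ⟨W, hW, hWUV⟩ := 𝒰.directed U hU V hV
    exact ⟨W, hW, (hf.mono (hWUV.trans inf_le_left)).add (hf'.mono (hWUV.trans inf_le_right))⟩
  zero_mem' := by
    obtain ⟨U, hU⟩ := 𝒰.nonempty
    exact ⟨U, hU, IsLCAt.zero U⟩
  smul_mem' := by
    rintro c f ⟨U, hU, hf⟩
    exact ⟨U, hU, hf.smul c⟩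

variable {𝒰 : Levels G}

lemma mem_cochains_iff {f : (Fin n → G) → A} : f ∈ cochains 𝒰 A n ↔ IsLC 𝒰 A f := Iff.rfl

lemma IsLC.d {f : (Fin n → G) → A} (hf : IsLC 𝒰 A f) :
    IsLC 𝒰 A ((inhomogeneousCochains.d A n).hom f) := by
  obtain ⟨U, hU, hf⟩ := hf
  have := 𝒰.normal U hU
  exact ⟨U, hU, hf.d⟩

lemma cochains_mono {𝒱 : Levels G} (h : 𝒰.Refines 𝒱) (n : ℕ) :
    cochains 𝒱 A n ≤ cochains 𝒰 A n := by
  rintro f ⟨V, hV, hf⟩
  obtain ⟨U, hU, hUV⟩ := h V hV
  exact ⟨U, hU, hf.mono hUV⟩

lemma cochains_eq_of_refines {𝒱 : Levels G} (h : 𝒰.Refines 𝒱) (h' : 𝒱.Refines 𝒰) (n : ℕ) :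
    cochains 𝒰 A n = cochains 𝒱 A n :=
  le_antisymm (cochains_mono h' n) (cochains_mono h n)


end Part1

/-! ### The complex of level-constant cochains -/

section Part2

variable (𝒰 : Levels G) (A : Rep.{u} k G)

/-- The differential restricted to level-constant cochains. -/
def dLC (n : ℕ) : cochains 𝒰 A n →ₗ[k] cochains 𝒰 A (n + 1) :=
  (inhomogeneousCochains.d A n).hom.restrict fun _ hf => IsLC.d hf

@[simp] lemma dLC_coe (n : ℕ) (f : cochains 𝒰 A n) :
    ((dLC 𝒰 A n f : cochains 𝒰 A (n + 1)) : (Fin (n + 1) → G) → A) =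
      (inhomogeneousCochains.d A n).hom f.1 := rfl

lemma dLC_comp_dLC (n : ℕ) : dLC 𝒰 A (n + 1) ∘ₗ dLC 𝒰 A n = 0 := by
  ext f : 1
  apply Subtype.ext
  have h := inhomogeneousCochains.d_comp_d (n := n) (A := A)
  have := congrArg (fun φ => φ.hom f.1) h
  simpa using this

/-- The complex of level-constant cochains, a subcomplex of `inhomogeneousCochains A`. -/
noncomputable abbrev complex : CochainComplex (ModuleCat k) ℕ :=
  CochainComplex.of (fun n => ModuleCat.of k (cochains 𝒰 A n))
    (fun n => ModuleCat.ofHom (dLC 𝒰 A n)) fun n => by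
      rw [← ModuleCat.ofHom_comp, dLC_comp_dLC]; rfl

/-- The inclusion of the level-constant cochains into all inhomogeneous cochains. -/
noncomputable def ι : complex 𝒰 A ⟶ inhomogeneousCochains A where
  f n := ModuleCat.ofHom (cochains 𝒰 A n).subtype
  comm' i j (hij : _ = _) := by
    subst hij
    ext f
    simp [CochainComplex.of_d]

/-- Level-constant cohomology. -/
noncomputable abbrev H (n : ℕ) : ModuleCat k := (complex 𝒰 A).homology n

/-- The comparison map to abstract group cohomology. -/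
noncomputable def toAbstract (n : ℕ) : H 𝒰 A n ⟶ groupCohomology A n :=
  HomologicalComplex.homologyMap (ι 𝒰 A) n

end Part2

end Fermat.Agent.CFT.LC
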