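/-
Elementwise description of the homology of complexes of modules (helper8, Layer D).
-/
import Mathlib

set_option autoImplicit false

universe v u

namespace Fermat.Agent.CFT.LC.Aux

open CategoryTheory

variable {R : Type u} [Ring R]

/-- A cycle of a short complex of modules is a boundary iff its homology class vanishes. -/
lemma shortComplex_homologyπ_eq_zero_iff (S : ShortComplex (ModuleCat.{v} R)) (x : S.cycles) :
    S.homologyπ x = 0 ↔ ∃ y : S.X₁, S.f y = S.iCycles x := by
  have hinj : Function.Injective S.moduleCatHomologyIso.hom :=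
    (ModuleCat.mono_iff_injective _).1 inferInstance
  rw [← map_eq_zero_iff _ hinj, ShortComplex.π_moduleCatCyclesIso_hom_apply]
  obtain ⟨w, hw⟩ : ∃ w : LinearMap.ker S.g.hom, w = S.moduleCatCyclesIso.hom x := ⟨_, rfl⟩
  have hπ : S.moduleCatLeftHomologyData.π (S.moduleCatCyclesIso.hom x) = 0 ↔
      w ∈ LinearMap.range S.moduleCatToCycles := by
    rw [← hw]
    change (LinearMap.range S.moduleCatToCycles).mkQ w = 0 ↔ _
    rw [Submodule.mkQ_apply, Submodule.Quotient.mk_eq_zero]
  rw [hπ]
  have hi : (w : S.X₂) = S.iCycles x := by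
    rw [hw]
    exact S.moduleCatCyclesIso_hom_i_apply x
  constructor
  · rintro ⟨y, hy⟩
    exact ⟨y, by rw [← hi, ← hy]; rfl⟩
  · rintro ⟨y, hy⟩
    exact ⟨y, Subtype.ext (by rw [hi, ← hy]; rfl)⟩

lemma shortComplex_homologyπ_eq_zero_iff_of_f_eq_zero (S : ShortComplex (ModuleCat.{v} R))
    (h0 : S.f = 0) (x : S.cycles) : S.homologyπ x = 0 ↔ x = 0 := by
  rw [shortComplex_homologyπ_eq_zero_iff]
  constructor
  · rintro ⟨y, hy⟩
    apply (ModuleCat.mono_iff_injective S.iCycles).1 inferInstance
    rw [← hy, h0, map_zero]; rfl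
  · rintro rfl
    exact ⟨0, by rw [map_zero, map_zero]⟩

lemma shortComplex_homologyπ_surjective (S : ShortComplex (ModuleCat.{v} R)) :
    Function.Surjective S.homologyπ :=
  (ModuleCat.epi_iff_surjective _).1 inferInstance

lemma shortComplex_iCycles_injective (S : ShortComplex (ModuleCat.{v} R)) :
    Function.Injective S.iCycles :=
  (ModuleCat.mono_iff_injective _).1 inferInstance

/-- Every element of `S.X₂` killed by `S.g` comes from a (unique) cycle. -/
lemma shortComplex_exists_cycle (S : ShortComplex (ModuleCat.{v} R)) (x : S.X₂)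
    (hx : S.g x = 0) : ∃ z : S.cycles, S.iCycles z = x := by
  refine ⟨S.moduleCatCyclesIso.inv ⟨x, hx⟩, ?_⟩
  exact S.moduleCatCyclesIso_inv_iCycles_apply ⟨x, hx⟩

lemma shortComplex_g_iCycles (S : ShortComplex (ModuleCat.{v} R)) (z : S.cycles) :
    S.g (S.iCycles z) = 0 := by
  have := S.iCycles_g
  exact congr($this z)

variable {ι : Type*} {c : ComplexShape ι}

/-- Elementwise criterion for the vanishing of a homology class in a complex of modules. -/
lemma homologyπ_eq_zero_iff (K : HomologicalComplex (ModuleCat.{v} R) c) (i j : ι)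
    (hij : c.Rel i j) (x : K.cycles j) :
    K.homologyπ j x = 0 ↔ ∃ y : K.X i, K.d i j y = K.iCycles j x := by
  obtain rfl := c.prev_eq' hij
  exact shortComplex_homologyπ_eq_zero_iff (K.sc j) x

/-- If `j` has no predecessor, a homology class vanishes iff the cycle does. -/
lemma homologyπ_eq_zero_iff_of_not_rel (K : HomologicalComplex (ModuleCat.{v} R) c) (j : ι)
    (hj : ¬ c.Rel (c.prev j) j) (x : K.cycles j) :
    K.homologyπ j x = 0 ↔ x = 0 :=
  shortComplex_homologyπ_eq_zero_iff_of_f_eq_zero (K.sc j) (K.shape _ _ hj) x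

lemma homologyπ_surjective (K : HomologicalComplex (ModuleCat.{v} R) c) (j : ι) :
    Function.Surjective (K.homologyπ j) :=
  shortComplex_homologyπ_surjective (K.sc j)

lemma iCycles_injective (K : HomologicalComplex (ModuleCat.{v} R) c) (j : ι) :
    Function.Injective (K.iCycles j) :=
  shortComplex_iCycles_injective (K.sc j)

lemma exists_cycle (K : HomologicalComplex (ModuleCat.{v} R) c) (j l : ι) (hjl : c.next j = l)
    (x : K.X j) (hx : K.d j l x = 0) : ∃ z : K.cycles j, K.iCycles j z = x := by
  subst hjl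
  exact shortComplex_exists_cycle (K.sc j) x hx

lemma d_iCycles (K : HomologicalComplex (ModuleCat.{v} R) c) (j l : ι) (z : K.cycles j) :
    K.d j l (K.iCycles j z) = 0 := by
  have := K.iCycles_d j l
  exact congr($this z)

end Fermat.Agent.CFT.LC.Aux
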