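/-
Level-constant cohomology: elementwise API (helper8, Layer D).
-/
import Fermat.Agent.CFT.LC.Basic
import Fermat.Agent.CFT.LC.HomologyAux

set_option autoImplicit false

universe u

namespace Fermat.Agent.CFT.LC

open CategoryTheory groupCohomology

variable {k G : Type u} [CommRing k] [Group G] (𝒰 : Levels G) (A : Rep.{u} k G)

lemma complex_d (n : ℕ) : (complex 𝒰 A).d n (n + 1) = ModuleCat.ofHom (dLC 𝒰 A n) := by
  simp [complex, CochainComplex.of_d]

/-- Level-constant cocycles, as a submodule of the level-constant cochains. -/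
def cocyclesLC (n : ℕ) : Submodule k (cochains 𝒰 A n) := LinearMap.ker (dLC 𝒰 A n)

lemma mem_cocyclesLC_iff {n : ℕ} (z : cochains 𝒰 A n) :
    z ∈ cocyclesLC 𝒰 A n ↔ (inhomogeneousCochains.d A n).hom z.1 = 0 := by
  rw [cocyclesLC, LinearMap.mem_ker, Subtype.ext_iff, dLC_coe]; rfl

/-- The cycle of the complex attached to a level-constant cocycle. -/
lemma exists_cycle (n : ℕ) (z : cocyclesLC 𝒰 A n) :
    ∃ c : (complex 𝒰 A).cycles n, (complex 𝒰 A).iCycles n c = z.1 := by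
  refine Aux.exists_cycle (complex 𝒰 A) n (n + 1) (by simp) z.1 ?_
  rw [complex_d]
  exact z.2

/-- The cycle attached to a level-constant cocycle. -/
noncomputable def cycleOf (n : ℕ) (z : cocyclesLC 𝒰 A n) : (complex 𝒰 A).cycles n :=
  (exists_cycle 𝒰 A n z).choose

lemma iCycles_cycleOf (n : ℕ) (z : cocyclesLC 𝒰 A n) :
    (complex 𝒰 A).iCycles n (cycleOf 𝒰 A n z) = z.1 :=
  (exists_cycle 𝒰 A n z).choose_spec

/-- The class of a level-constant cocycle. -/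
noncomputable def Hπ (n : ℕ) : cocyclesLC 𝒰 A n →ₗ[k] H 𝒰 A n where
  toFun z := (complex 𝒰 A).homologyπ n (cycleOf 𝒰 A n z)
  map_add' z z' := by
    rw [← map_add]
    congr 1
    apply Aux.iCycles_injective
    rw [map_add, iCycles_cycleOf, iCycles_cycleOf, iCycles_cycleOf]; rfl
  map_smul' c z := by
    rw [RingHom.id_apply, ← map_smul]
    congr 1
    apply Aux.iCycles_injective
    rw [map_smul, iCycles_cycleOf, iCycles_cycleOf]; rfl

lemma Hπ_apply (n : ℕ) (z : cocyclesLC 𝒰 A n) :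
    Hπ 𝒰 A n z = (complex 𝒰 A).homologyπ n (cycleOf 𝒰 A n z) := rfl

lemma Hπ_surjective (n : ℕ) : Function.Surjective (Hπ 𝒰 A n) := by
  intro x
  obtain ⟨c, rfl⟩ := Aux.homologyπ_surjective (complex 𝒰 A) n x
  have hc : dLC 𝒰 A n ((complex 𝒰 A).iCycles n c) = 0 := by
    have := Aux.d_iCycles (complex 𝒰 A) n (n + 1) c
    rwa [complex_d] at this
  refine ⟨⟨(complex 𝒰 A).iCycles n c, hc⟩, ?_⟩
  rw [Hπ_apply]
  congr 1
  apply Aux.iCycles_injective
  rw [iCycles_cycleOf]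

@[elab_as_elim]
lemma H_induction_on {n : ℕ} {C : H 𝒰 A n → Prop} (x : H 𝒰 A n)
    (h : ∀ z : cocyclesLC 𝒰 A n, C (Hπ 𝒰 A n z)) : C x := by
  obtain ⟨z, rfl⟩ := Hπ_surjective 𝒰 A n x
  exact h z

/-- In positive degree, a class vanishes iff the cocycle is the coboundary of a level-constant
cochain. -/
lemma Hπ_eq_zero_iff_succ (n : ℕ) (z : cocyclesLC 𝒰 A (n + 1)) :
    Hπ 𝒰 A (n + 1) z = 0 ↔ ∃ y : cochains 𝒰 A n, dLC 𝒰 A n y = z.1 := by
  rw [Hπ_apply, Aux.homologyπ_eq_zero_iff (complex 𝒰 A) n (n + 1) rfl, iCycles_cycleOf,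
    complex_d]
  rfl

/-- In degree zero, a class vanishes iff the cocycle does. -/
lemma Hπ_eq_zero_iff_zero (z : cocyclesLC 𝒰 A 0) : Hπ 𝒰 A 0 z = 0 ↔ z = 0 := by
  rw [Hπ_apply, Aux.homologyπ_eq_zero_iff_of_not_rel (complex 𝒰 A) 0 (by simp)]
  constructor
  · intro h
    apply Subtype.ext
    rw [← iCycles_cycleOf, h, map_zero]; rfl
  · rintro rfl
    apply Aux.iCycles_injective
    rw [iCycles_cycleOf, map_zero]; rfl

lemma Hπ_eq_iff_succ (n : ℕ) (z z' : cocyclesLC 𝒰 A (n + 1)) :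
    Hπ 𝒰 A (n + 1) z = Hπ 𝒰 A (n + 1) z' ↔
      ∃ y : cochains 𝒰 A n, dLC 𝒰 A n y = z.1 - z'.1 := by
  rw [← sub_eq_zero, ← map_sub, Hπ_eq_zero_iff_succ]; rfl

end Fermat.Agent.CFT.LC
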