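/-
Level-constant cohomology: functoriality (helper8, Layer D).
-/
import Fermat.Agent.CFT.LC.Cohomology

set_option autoImplicit false

universe u

namespace Fermat.Agent.CFT.LC

open CategoryTheory groupCohomology

variable {k G G' G'' : Type u} [CommRing k] [Group G] [Group G'] [Group G'']

/-- `φ : G' →* G` is continuous for the level families: every level of `G` contains the image
of a level of `G'`. -/
def Levels.Continuous (φ : G' →* G) (𝒰' : Levels G') (𝒰 : Levels G) : Prop :=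
  ∀ U ∈ 𝒰.sets, ∃ U' ∈ 𝒰'.sets, U' ≤ U.comap φ

lemma Levels.continuous_id (𝒰 : Levels G) : Levels.Continuous (MonoidHom.id G) 𝒰 𝒰 :=
  fun U hU => ⟨U, hU, le_rfl⟩

lemma Levels.Continuous.comp {φ : G' →* G} {φ' : G'' →* G'} {𝒰 : Levels G} {𝒰' : Levels G'}
    {𝒰'' : Levels G''} (h : Levels.Continuous φ 𝒰' 𝒰) (h' : Levels.Continuous φ' 𝒰'' 𝒰') :
    Levels.Continuous (φ.comp φ') 𝒰'' 𝒰 := by
  intro U hU
  obtain ⟨U', hU', hle⟩ := h U hU
  obtain ⟨U'', hU'', hle'⟩ := h' U' hU'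
  exact ⟨U'', hU'', fun x hx => hle (hle' hx)⟩

lemma Levels.continuous_id_of_refines {𝒰 𝒱 : Levels G} (h : 𝒰.Refines 𝒱) :
    Levels.Continuous (MonoidHom.id G) 𝒰 𝒱 :=
  fun V hV => by
    obtain ⟨U, hU, hUV⟩ := h V hV
    exact ⟨U, hU, hUV⟩

variable {A : Rep.{u} k G} {B : Rep.{u} k G'}

lemma cochainsMap_apply (φ : G' →* G) (ψ : Rep.res φ A ⟶ B) (n : ℕ) (f : (Fin n → G) → A)
    (g : Fin n → G') : ((cochainsMap φ ψ).f n).hom f g = ψ.hom (f (φ ∘ g)) := rfl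

lemma IsLCAt.cochainsMap (φ : G' →* G) (ψ : Rep.res φ A ⟶ B) {U : Subgroup G}
    {U' : Subgroup G'} (h : U' ≤ U.comap φ) {n : ℕ} {f : (Fin n → G) → A}
    (hf : IsLCAt U A f) : IsLCAt U' B (((cochainsMap φ ψ).f n).hom f) := by
  refine ⟨fun g u hu => ?_, fun g s hs => ?_⟩
  · rw [cochainsMap_apply, cochainsMap_apply]
    have h1 : (φ ∘ (g * u)) = (φ ∘ g) * (φ ∘ u) := by
      ext i; simp
    rw [h1]
    exact congrArg ψ.hom (hf.1 (φ ∘ g) (φ ∘ u) fun i => h (hu i))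
  · rw [cochainsMap_apply, ← Rep.hom_comm_apply ψ s]
    congr 1
    exact hf.2 _ _ (h hs)

lemma IsLC.cochainsMap {φ : G' →* G} {𝒰 : Levels G} {𝒰' : Levels G'}
    (hφ : Levels.Continuous φ 𝒰' 𝒰) (ψ : Rep.res φ A ⟶ B) {n : ℕ} {f : (Fin n → G) → A}
    (hf : IsLC 𝒰 A f) : IsLC 𝒰' B (((cochainsMap φ ψ).f n).hom f) := by
  obtain ⟨U, hU, hf⟩ := hf
  obtain ⟨U', hU', h⟩ := hφ U hU
  exact ⟨U', hU', hf.cochainsMap φ ψ h⟩

variable {𝒰 : Levels G} {𝒰' : Levels G'} {𝒰'' : Levels G''}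

/-- The map on level-constant cochains induced by a continuous group homomorphism and a
morphism of representations. -/
noncomputable def cochainsMapLC {φ : G' →* G} (hφ : Levels.Continuous φ 𝒰' 𝒰) (ψ : Rep.res φ A ⟶ B) (n : ℕ) :
    cochains 𝒰 A n →ₗ[k] cochains 𝒰' B n :=
  ((cochainsMap φ ψ).f n).hom.restrict fun _ hf => IsLC.cochainsMap hφ ψ hf

@[simp] lemma cochainsMapLC_coe {φ : G' →* G} (hφ : Levels.Continuous φ 𝒰' 𝒰)
    (ψ : Rep.res φ A ⟶ B) (n : ℕ) (f : cochains 𝒰 A n) :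
    ((cochainsMapLC hφ ψ n f : cochains 𝒰' B n) : (Fin n → G') → B) =
      ((cochainsMap φ ψ).f n).hom f.1 := rfl

/-- The induced map of complexes. -/
noncomputable def mapComplex {φ : G' →* G} (hφ : Levels.Continuous φ 𝒰' 𝒰)
    (ψ : Rep.res φ A ⟶ B) : complex 𝒰 A ⟶ complex 𝒰' B where
  f n := ModuleCat.ofHom (cochainsMapLC hφ ψ n)
  comm' i j (hij : _ = _) := by
    subst hij
    ext f : 2
    apply Subtype.ext
    have h := (cochainsMap φ ψ).comm i (i + 1)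
    have h2 := congrArg (fun F => F.hom f.1) h
    simp only [CochainComplex.of_d] at h2 ⊢
    exact h2

/-- The induced map on level-constant cohomology. -/
noncomputable def map {φ : G' →* G} (hφ : Levels.Continuous φ 𝒰' 𝒰) (ψ : Rep.res φ A ⟶ B)
    (n : ℕ) : H 𝒰 A n ⟶ H 𝒰' B n :=
  HomologicalComplex.homologyMap (mapComplex hφ ψ) n

lemma mapComplex_ι {φ : G' →* G} (hφ : Levels.Continuous φ 𝒰' 𝒰) (ψ : Rep.res φ A ⟶ B) :
    mapComplex hφ ψ ≫ ι 𝒰' B = ι 𝒰 A ≫ cochainsMap φ ψ := by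
  ext n f : 3
  rfl

/-- Compatibility with the comparison map to abstract cohomology. -/
lemma map_toAbstract {φ : G' →* G} (hφ : Levels.Continuous φ 𝒰' 𝒰) (ψ : Rep.res φ A ⟶ B)
    (n : ℕ) : map hφ ψ n ≫ toAbstract 𝒰' B n = toAbstract 𝒰 A n ≫ groupCohomology.map φ ψ n := by
  change HomologicalComplex.homologyMap (mapComplex hφ ψ) n ≫
      HomologicalComplex.homologyMap (ι 𝒰' B) n =
    HomologicalComplex.homologyMap (ι 𝒰 A) n ≫ HomologicalComplex.homologyMap (cochainsMap φ ψ) n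
  rw [← HomologicalComplex.homologyMap_comp, ← HomologicalComplex.homologyMap_comp, mapComplex_ι]

lemma cochainsMapLC_mem_cocycles {φ : G' →* G} (hφ : Levels.Continuous φ 𝒰' 𝒰)
    (ψ : Rep.res φ A ⟶ B) (n : ℕ) (z : cocyclesLC 𝒰 A n) :
    cochainsMapLC hφ ψ n z.1 ∈ cocyclesLC 𝒰' B n := by
  have h := (mapComplex hφ ψ).comm n (n + 1)
  rw [complex_d, complex_d] at h
  have h2 := congrArg (fun F => F.hom z.1) h
  simp only [ModuleCat.hom_comp, LinearMap.comp_apply] at h2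
  change dLC 𝒰' B n (cochainsMapLC hφ ψ n z.1) = 0
  have hz : dLC 𝒰 A n z.1 = 0 := z.2
  have h3 : dLC 𝒰' B n (cochainsMapLC hφ ψ n z.1) =
      cochainsMapLC hφ ψ (n + 1) (dLC 𝒰 A n z.1) := h2
  rw [h3, hz, map_zero]

/-- Elementwise description of `map`. -/
lemma map_Hπ {φ : G' →* G} (hφ : Levels.Continuous φ 𝒰' 𝒰) (ψ : Rep.res φ A ⟶ B) (n : ℕ)
    (z : cocyclesLC 𝒰 A n) :
    map hφ ψ n (Hπ 𝒰 A n z) =
      Hπ 𝒰' B n ⟨cochainsMapLC hφ ψ n z.1, cochainsMapLC_mem_cocycles hφ ψ n z⟩ := by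
  rw [Hπ_apply, Hπ_apply]
  have h2 := ConcreteCategory.congr_hom
    (HomologicalComplex.homologyπ_naturality (mapComplex hφ ψ) n) (cycleOf 𝒰 A n z)
  rw [ConcreteCategory.comp_apply, ConcreteCategory.comp_apply] at h2
  refine h2.trans ?_
  congr 1
  apply Aux.iCycles_injective
  rw [iCycles_cycleOf]
  have h4 := ConcreteCategory.congr_hom
    (HomologicalComplex.cyclesMap_i (mapComplex hφ ψ) n) (cycleOf 𝒰 A n z)
  rw [ConcreteCategory.comp_apply, ConcreteCategory.comp_apply] at h4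
  refine h4.trans ?_
  rw [iCycles_cycleOf]
  rfl

end Fermat.Agent.CFT.LC
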