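/-
Level-constant cohomology: the long exact sequence (helper8, Layer D).
-/
import Fermat.Agent.CFT.LC.Functoriality

set_option autoImplicit false

universe u

namespace Fermat.Agent.CFT.LC

open CategoryTheory groupCohomology

variable {k G : Type u} [CommRing k] [Group G]

/-- Every vector is fixed by some level. -/
def IsSmooth (𝒰 : Levels G) (A : Rep.{u} k G) : Prop :=
  ∀ a : A, ∃ U ∈ 𝒰.sets, ∀ s ∈ U, A.ρ s a = a

/-- A finite family of levels has a common refinement. -/
lemma Levels.exists_le_finset (𝒰 : Levels G) {ι : Type*} (s : Finset ι) (W : ι → Subgroup G)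
    (hW : ∀ i ∈ s, W i ∈ 𝒰.sets) : ∃ V ∈ 𝒰.sets, ∀ i ∈ s, V ≤ W i := by
  classical
  induction s using Finset.induction_on with
  | empty =>
    obtain ⟨U, hU⟩ := 𝒰.nonempty
    exact ⟨U, hU, by simp⟩
  | insert a s ha ih =>
    obtain ⟨V, hV, hVs⟩ := ih fun i hi => hW i (Finset.mem_insert_of_mem hi)
    obtain ⟨V', hV', hle⟩ := 𝒰.directed V hV (W a) (hW a (Finset.mem_insert_self a s))
    refine ⟨V', hV', fun i hi => ?_⟩
    rcases Finset.mem_insert.1 hi with rfl | hi
    · exact hle.trans inf_le_right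
    · exact (hle.trans inf_le_left).trans (hVs i hi)

/-- A cochain which is right invariant under a finite-index subgroup has finite range. -/
lemma finite_range_of_right_invariant {X : Type*} {n : ℕ} (U : Subgroup G) [U.FiniteIndex]
    (f : (Fin n → G) → X) (hf : ∀ g u : Fin n → G, (∀ i, u i ∈ U) → f (g * u) = f g) :
    (Set.range f).Finite := by
  have : Finite (G ⧸ U) := Subgroup.finite_quotient_of_finiteIndex
  let rep : (Fin n → G ⧸ U) → (Fin n → G) := fun c j => (c j).out
  have hsub : Set.range f ⊆ Set.range (f ∘ rep) := by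
    rintro _ ⟨g, rfl⟩
    refine ⟨fun j => (QuotientGroup.mk (g j) : G ⧸ U), ?_⟩
    simp only [Function.comp_apply]
    set r : Fin n → G := rep fun j => (QuotientGroup.mk (g j) : G ⧸ U) with hr
    have hu : ∀ j, (r j)⁻¹ * g j ∈ U := fun j => by
      rw [← QuotientGroup.eq]
      exact QuotientGroup.out_eq' _
    have hg : g = r * fun j => (r j)⁻¹ * g j := by
      ext j; simp
    rw [hg, hf r _ hu]
  exact (Set.finite_range _).subset hsub

variable (𝒰 : Levels G)

/-- The functor of level-constant cochains. -/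
noncomputable def lcFunctor : Rep.{u} k G ⥤ CochainComplex (ModuleCat k) ℕ where
  obj A := complex 𝒰 A
  map {A B} ψ := mapComplex (A := A) (B := B) (Levels.continuous_id 𝒰) ψ
  map_id A := by
    ext n f : 3
    apply Subtype.ext
    rfl
  map_comp {A B C} ψ χ := by
    ext n f : 3
    apply Subtype.ext
    rfl

lemma lcFunctor_map_f_apply {A B : Rep.{u} k G} (ψ : A ⟶ B) (n : ℕ) (f : cochains 𝒰 A n)
    (g : Fin n → G) :
    ((((lcFunctor 𝒰).map ψ).f n).hom f : cochains 𝒰 B n).1 g = ψ.hom (f.1 g) := rfl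

instance : (lcFunctor (k := k) 𝒰).Additive where
  map_add {A B ψ χ} := by
    ext n f : 3
    apply Subtype.ext
    rfl

variable {𝒰}

/-- A short exact sequence of representations with smooth middle term induces a short exact
sequence of complexes of level-constant cochains. -/
lemma map_lcFunctor_shortExact [𝒰.IsFin] {X : ShortComplex (Rep.{u} k G)} (hX : X.ShortExact)
    (hsm : IsSmooth 𝒰 X.X₂) : (X.map (lcFunctor 𝒰)).ShortExact := by
  have hinj : Function.Injective X.f.hom := (Rep.mono_iff_injective X.f).1 hX.mono_f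
  have hsurj : Function.Surjective X.g.hom := (Rep.epi_iff_surjective X.g).1 hX.epi_g
  have hex : ∀ b : X.X₂, X.g.hom b = 0 → ∃ a : X.X₁, X.f.hom a = b := by
    intro b hb
    have : LinearMap.range X.f.hom.toLinearMap = LinearMap.ker X.g.hom.toLinearMap :=
      (hX.exact.map (forget₂ (Rep k G) (ModuleCat k))).moduleCat_range_eq_ker
    have hb' : b ∈ LinearMap.ker X.g.hom.toLinearMap := hb
    rw [← this] at hb'
    exact hb'
  refine HomologicalComplex.shortExact_of_degreewise_shortExact _ fun n => ?_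
  refine { exact := ?_, mono_f := ?_, epi_g := ?_ }
  · rw [ShortComplex.moduleCat_exact_iff]
    intro (f : cochains 𝒰 X.X₂ n) hf
    have hf' : ∀ g, X.g.hom (f.1 g) = 0 := fun g =>
      congrFun (congrArg Subtype.val hf) g
    choose f₁ hf₁ using fun g => hex (f.1 g) (hf' g)
    obtain ⟨U, hU, hfU⟩ := f.2
    refine ⟨⟨f₁, U, hU, fun g u hu => hinj ?_, fun g s hs => hinj ?_⟩, ?_⟩
    · rw [hf₁, hf₁, hfU.1 g u hu]
    · rw [Rep.hom_comm_apply, hf₁, hfU.2 g s hs]
    · apply Subtype.ext
      funext g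
      exact hf₁ g
  · rw [ModuleCat.mono_iff_injective]
    intro (f : cochains 𝒰 X.X₁ n) (f' : cochains 𝒰 X.X₁ n) h
    apply Subtype.ext
    funext g
    apply hinj
    exact congrFun (congrArg Subtype.val h) g
  · rw [ModuleCat.epi_iff_surjective]
    intro (f : cochains 𝒰 X.X₃ n)
    classical
    obtain ⟨U, hU, hfU⟩ := f.2
    have := Levels.IsFin.finiteIndex U hU
    let σ : X.X₃ → X.X₂ := Function.surjInv hsurj
    have hσ : ∀ c, X.g.hom (σ c) = c := Function.surjInv_eq hsurj
    have hfin : (Set.range (σ ∘ f.1)).Finite :=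
      finite_range_of_right_invariant U (σ ∘ f.1) fun g u hu => by
        simp only [Function.comp_apply, hfU.1 g u hu]
    choose W hW hWfix using hsm
    obtain ⟨V, hV, hVle⟩ := 𝒰.exists_le_finset hfin.toFinset W fun b _ => hW b
    obtain ⟨V', hV', hV'le⟩ := 𝒰.directed U hU V hV
    refine ⟨⟨σ ∘ f.1, V', hV', fun g u hu => ?_, fun g s hs => ?_⟩, ?_⟩
    · simp only [Function.comp_apply]
      rw [hfU.1 g u fun i => (hV'le.trans inf_le_left) (hu i)]
    · have hb : (σ ∘ f.1) g ∈ hfin.toFinset := by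
        rw [Set.Finite.mem_toFinset]; exact ⟨g, rfl⟩
      exact hWfix _ s (hVle _ hb ((hV'le.trans inf_le_right) hs))
    · apply Subtype.ext
      funext g
      exact hσ (f.1 g)

section LES

variable [𝒰.IsFin] {X : ShortComplex (Rep.{u} k G)} (hX : X.ShortExact) (hsm : IsSmooth 𝒰 X.X₂)

/-- The connecting homomorphism of level-constant cohomology. -/
noncomputable def lcδ (i j : ℕ) (hij : i + 1 = j) : H 𝒰 X.X₃ i ⟶ H 𝒰 X.X₁ j :=
  (map_lcFunctor_shortExact hX hsm).δ i j hij

/-- The map induced by a morphism of representations. -/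
noncomputable abbrev mapId {A B : Rep.{u} k G} (ψ : A ⟶ B) (n : ℕ) : H 𝒰 A n ⟶ H 𝒰 B n :=
  map (A := A) (B := B) (Levels.continuous_id 𝒰) ψ n

/-- Exactness of `Hⁱ(X₃) ⟶ Hʲ(X₁) ⟶ Hʲ(X₂)`. -/
lemma exact₁ (i j : ℕ) (hij : i + 1 = j) :
    (ShortComplex.mk (lcδ hX hsm i j hij) (mapId X.f j)
      ((map_lcFunctor_shortExact hX hsm).δ_comp i j hij)).Exact :=
  (map_lcFunctor_shortExact hX hsm).homology_exact₁ i j hij

include hX hsm in
/-- Exactness of `Hⁱ(X₁) ⟶ Hⁱ(X₂) ⟶ Hⁱ(X₃)`. -/
lemma exact₂ (i : ℕ) :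
    (ShortComplex.mk (mapId X.f i) (mapId X.g i) (by
      change HomologicalComplex.homologyMap ((lcFunctor 𝒰).map X.f) i ≫
        HomologicalComplex.homologyMap ((lcFunctor 𝒰).map X.g) i = 0
      rw [← HomologicalComplex.homologyMap_comp, ← Functor.map_comp, X.zero, Functor.map_zero,
        HomologicalComplex.homologyMap_zero])).Exact :=
  (map_lcFunctor_shortExact hX hsm).homology_exact₂ i

/-- Exactness of `Hⁱ(X₂) ⟶ Hⁱ(X₃) ⟶ Hʲ(X₁)`. -/
lemma exact₃ (i j : ℕ) (hij : i + 1 = j) :
    (ShortComplex.mk (mapId X.g i) (lcδ hX hsm i j hij)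
      ((map_lcFunctor_shortExact hX hsm).comp_δ i j hij)).Exact :=
  (map_lcFunctor_shortExact hX hsm).homology_exact₃ i j hij

end LES

end Fermat.Agent.CFT.LC
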