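/-
Level-constant cohomology: inflation from the finite quotients `G ⧸ U` (helper8, Layer D).

This is the gate through which theorems about finite groups enter the level-constant model:
`H 𝒰 A n` is the filtered colimit of the `groupCohomology (A.quotientToInvariants U) n`,
`U ∈ 𝒰.sets`, along the inflation maps.
-/
import Fermat.Agent.CFT.LC.LES

set_option autoImplicit false

universe u

namespace Fermat.Agent.CFT.LC

open CategoryTheory groupCohomology

variable {k G : Type u} [CommRing k] [Group G]

namespace Aux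

variable {R : Type u} [Ring R] {ι : Type*} {c : ComplexShape ι}

/-- A cycle with prescribed underlying element. -/
noncomputable def cycleMk (K : HomologicalComplex (ModuleCat.{u} R) c) (j l : ι)
    (hjl : c.next j = l) (x : K.X j) (hx : K.d j l x = 0) : K.cycles j :=
  (exists_cycle K j l hjl x hx).choose

@[simp] lemma iCycles_cycleMk (K : HomologicalComplex (ModuleCat.{u} R) c) (j l : ι)
    (hjl : c.next j = l) (x : K.X j) (hx : K.d j l x = 0) :
    K.iCycles j (cycleMk K j l hjl x hx) = x :=
  (exists_cycle K j l hjl x hx).choose_spec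

lemma cycleMk_iCycles (K : HomologicalComplex (ModuleCat.{u} R) c) (j l : ι)
    (hjl : c.next j = l) (z : K.cycles j) :
    cycleMk K j l hjl (K.iCycles j z) (d_iCycles K j l z) = z :=
  iCycles_injective K j (iCycles_cycleMk ..)

lemma iCycles_cyclesMap {K L : HomologicalComplex (ModuleCat.{u} R) c} (φ : K ⟶ L) (i : ι)
    (x : K.cycles i) :
    L.iCycles i (HomologicalComplex.cyclesMap φ i x) = φ.f i (K.iCycles i x) := by
  have h := ConcreteCategory.congr_hom (HomologicalComplex.cyclesMap_i φ i) x
  rwa [ConcreteCategory.comp_apply, ConcreteCategory.comp_apply] at h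

lemma homologyMap_homologyπ {K L : HomologicalComplex (ModuleCat.{u} R) c} (φ : K ⟶ L) (i : ι)
    (x : K.cycles i) :
    HomologicalComplex.homologyMap φ i (K.homologyπ i x) =
      L.homologyπ i (HomologicalComplex.cyclesMap φ i x) := by
  have h := ConcreteCategory.congr_hom (HomologicalComplex.homologyπ_naturality φ i) x
  rwa [ConcreteCategory.comp_apply, ConcreteCategory.comp_apply] at h

end Aux

section Cochain

variable (A : Rep.{u} k G)

/-- The canonical morphism from `A^U` (a `G ⧸ U`-representation, restricted to `G`) to `A`. -/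
noncomputable def invLift (U : Subgroup G) [U.Normal] :
    Rep.res (QuotientGroup.mk' U) (A.quotientToInvariants U) ⟶ A :=
  Rep.ofHom (A.ρ.quotientToInvariants_lift U)

/-- Inflation of cochains from `G ⧸ U` to `G`. -/
noncomputable def inflCochain (U : Subgroup G) [U.Normal] (n : ℕ) :
    ((Fin n → G ⧸ U) → A.quotientToInvariants U) →ₗ[k] ((Fin n → G) → A) :=
  ((cochainsMap (QuotientGroup.mk' U) (invLift A U)).f n).hom

variable {A}

lemma inflCochain_apply (U : Subgroup G) [U.Normal] {n : ℕ}
    (f : (Fin n → G ⧸ U) → A.quotientToInvariants U) (g : Fin n → G) :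
    inflCochain A U n f g = ((f (QuotientGroup.mk' U ∘ g)).1 : A) := rfl

lemma isLCAt_inflCochain (U : Subgroup G) [U.Normal] {n : ℕ}
    (f : (Fin n → G ⧸ U) → A.quotientToInvariants U) : IsLCAt U A (inflCochain A U n f) := by
  refine ⟨fun g u hu => ?_, fun g s hs => ?_⟩
  · rw [inflCochain_apply, inflCochain_apply]
    have : QuotientGroup.mk' U ∘ (g * u) = QuotientGroup.mk' U ∘ g := by
      ext i
      simp only [Function.comp_apply, Pi.mul_apply, QuotientGroup.mk'_apply, QuotientGroup.mk_mul]
      rw [(QuotientGroup.eq_one_iff (u i)).2 (hu i), mul_one]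
    rw [this]
  · rw [inflCochain_apply]
    exact (f _).2 ⟨s, hs⟩

lemma inflCochain_injective (U : Subgroup G) [U.Normal] (n : ℕ) :
    Function.Injective (inflCochain A U n) := by
  intro f f' h
  funext c
  apply Subtype.ext
  have := congrFun h (fun i => (c i).out)
  rw [inflCochain_apply, inflCochain_apply] at this
  have hc : QuotientGroup.mk' U ∘ (fun i => (c i).out) = c := by
    ext i; simp
  rwa [hc] at this

lemma exists_inflCochain_eq (U : Subgroup G) [U.Normal] {n : ℕ} {f : (Fin n → G) → A}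
    (hf : IsLCAt U A f) : ∃ f', inflCochain A U n f' = f := by
  refine ⟨fun c => ⟨f fun i => (c i).out, fun s => hf.2 _ s.1 s.2⟩, ?_⟩
  funext g
  rw [inflCochain_apply]
  change f (fun i => ((QuotientGroup.mk' U ∘ g) i).out) = f g
  have hu : ∀ i, (g i)⁻¹ * ((QuotientGroup.mk' U ∘ g) i).out ∈ U := fun i => by
    rw [← QuotientGroup.eq]
    simp
  have hg : (fun i => ((QuotientGroup.mk' U ∘ g) i).out) =
      g * fun i => (g i)⁻¹ * ((QuotientGroup.mk' U ∘ g) i).out := by
    ext i; simp
  rw [hg, hf.1 g _ hu]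

lemma inflCochain_d (U : Subgroup G) [U.Normal] (n : ℕ)
    (f : (Fin n → G ⧸ U) → A.quotientToInvariants U) :
    inflCochain A U (n + 1) ((inhomogeneousCochains.d (A.quotientToInvariants U) n).hom f) =
      (inhomogeneousCochains.d A n).hom (inflCochain A U n f) := by
  have h := (cochainsMap (QuotientGroup.mk' U) (invLift A U)).comm n (n + 1)
  have h2 := ConcreteCategory.congr_hom h f
  rw [ConcreteCategory.comp_apply, ConcreteCategory.comp_apply] at h2
  simp only [CochainComplex.of_d] at h2
  exact h2.symm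

end Cochain

section Complex

variable (𝒰 : Levels G) (A : Rep.{u} k G)

/-- Inflation as a linear map into the level-constant cochains. -/
noncomputable def inflLC (U : Subgroup G) [U.Normal] (hU : U ∈ 𝒰.sets) (n : ℕ) :
    ((Fin n → G ⧸ U) → A.quotientToInvariants U) →ₗ[k] cochains 𝒰 A n :=
  (inflCochain A U n).codRestrict _ fun f => ⟨U, hU, isLCAt_inflCochain U f⟩

/-- Inflation as a morphism of complexes. -/
noncomputable def inflComplex (U : Subgroup G) [U.Normal] (hU : U ∈ 𝒰.sets) :
    inhomogeneousCochains (A.quotientToInvariants U) ⟶ complex 𝒰 A where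
  f n := ModuleCat.ofHom (inflLC 𝒰 A U hU n)
  comm' i j (hij : _ = _) := by
    subst hij
    ext f : 2
    apply Subtype.ext
    simp only [CochainComplex.of_d]
    exact (inflCochain_d U i f).symm

/-- Inflation `Hⁿ(G ⧸ U, A^U) ⟶ Hⁿ_LC(G, A)`. -/
noncomputable def infl (U : Subgroup G) [U.Normal] (hU : U ∈ 𝒰.sets) (n : ℕ) :
    groupCohomology (A.quotientToInvariants U) n ⟶ H 𝒰 A n :=
  HomologicalComplex.homologyMap (inflComplex 𝒰 A U hU) n

lemma inflComplex_ι (U : Subgroup G) [U.Normal] (hU : U ∈ 𝒰.sets) :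
    inflComplex 𝒰 A U hU ≫ ι 𝒰 A = cochainsMap (QuotientGroup.mk' U) (invLift A U) := by
  ext n f : 3
  rfl

/-- Composing with the comparison map gives Mathlib's inflation. -/
lemma infl_toAbstract (U : Subgroup G) [U.Normal] (hU : U ∈ 𝒰.sets) (n : ℕ) :
    infl 𝒰 A U hU n ≫ toAbstract 𝒰 A n =
      groupCohomology.map (QuotientGroup.mk' U) (invLift A U) n := by
  change HomologicalComplex.homologyMap (inflComplex 𝒰 A U hU) n ≫
      HomologicalComplex.homologyMap (ι 𝒰 A) n =
    HomologicalComplex.homologyMap (cochainsMap (QuotientGroup.mk' U) (invLift A U)) n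
  rw [← HomologicalComplex.homologyMap_comp, inflComplex_ι]

/-- Elementwise description of inflation. -/
lemma infl_homologyπ (U : Subgroup G) [U.Normal] (hU : U ∈ 𝒰.sets) (n : ℕ)
    (c : (inhomogeneousCochains (A.quotientToInvariants U)).cycles n) :
    ∃ hz : inflLC 𝒰 A U hU n ((inhomogeneousCochains (A.quotientToInvariants U)).iCycles n c) ∈
        cocyclesLC 𝒰 A n,
      infl 𝒰 A U hU n ((inhomogeneousCochains (A.quotientToInvariants U)).homologyπ n c) =
        Hπ 𝒰 A n ⟨_, hz⟩ := by
  have hz : inflLC 𝒰 A U hU n ((inhomogeneousCochains (A.quotientToInvariants U)).iCycles n c) ∈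
      cocyclesLC 𝒰 A n := by
    have h1 := Aux.d_iCycles (complex 𝒰 A) n (n + 1)
      (HomologicalComplex.cyclesMap (inflComplex 𝒰 A U hU) n c)
    rw [Aux.iCycles_cyclesMap, complex_d] at h1
    exact h1
  refine ⟨hz, ?_⟩
  rw [Hπ_apply]
  refine (Aux.homologyMap_homologyπ (inflComplex 𝒰 A U hU) n c).trans ?_
  congr 1
  apply Aux.iCycles_injective
  rw [Aux.iCycles_cyclesMap, iCycles_cycleOf]
  rfl

/-- Every level-constant class is inflated from some finite level. -/
lemma exists_infl_eq {n : ℕ} (x : H 𝒰 A n) :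
    ∃ (U : Subgroup G) (_ : U.Normal) (hU : U ∈ 𝒰.sets)
      (y : groupCohomology (A.quotientToInvariants U) n), infl 𝒰 A U hU n y = x := by
  obtain ⟨z, rfl⟩ := Hπ_surjective 𝒰 A n x
  obtain ⟨U, hU, hzU⟩ := z.1.2
  have hN := 𝒰.normal U hU
  obtain ⟨f', hf'⟩ := exists_inflCochain_eq U hzU
  have hd : (inhomogeneousCochains.d (A.quotientToInvariants U) n).hom f' = 0 := by
    apply inflCochain_injective U (n + 1)
    rw [inflCochain_d, hf', map_zero]
    exact (mem_cocyclesLC_iff 𝒰 A z.1).1 z.2
  let c := Aux.cycleMk (inhomogeneousCochains (A.quotientToInvariants U)) n (n + 1) (by simp) f'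
    (by rw [inhomogeneousCochains.d_def]; exact hd)
  refine ⟨U, hN, hU, (inhomogeneousCochains (A.quotientToInvariants U)).homologyπ n c, ?_⟩
  obtain ⟨hz, h⟩ := infl_homologyπ 𝒰 A U hU n c
  rw [h]
  congr 1
  apply Subtype.ext
  apply Subtype.ext
  change inflCochain A U n ((inhomogeneousCochains (A.quotientToInvariants U)).iCycles n c) = _
  rw [Aux.iCycles_cycleMk, hf']

end Complex

/-! ### Inflation between finite levels -/

section FiniteLevels

variable (A : Rep.{u} k G)

/-- The quotient map `G ⧸ W →* G ⧸ U` for `W ≤ U`. -/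
def quotMap (U W : Subgroup G) [U.Normal] [W.Normal] (h : W ≤ U) : G ⧸ W →* G ⧸ U :=
  QuotientGroup.map W U (MonoidHom.id G) fun _ hx => h hx

@[simp] lemma quotMap_mk (U W : Subgroup G) [U.Normal] [W.Normal] (h : W ≤ U) (g : G) :
    quotMap U W h (g : G ⧸ W) = (g : G ⧸ U) := rfl

/-- The inclusion `A^U ⊆ A^W` for `W ≤ U`, as a morphism of `G ⧸ W`-representations. -/
noncomputable def invIncl (U W : Subgroup G) [U.Normal] [W.Normal] (h : W ≤ U) :
    Rep.res (quotMap U W h) (A.quotientToInvariants U) ⟶ A.quotientToInvariants W :=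
  Rep.ofHom
    ⟨{  toFun := fun x => ⟨x.1, fun w => x.2 ⟨w.1, h w.2⟩⟩
        map_add' := fun _ _ => rfl
        map_smul' := fun _ _ => rfl },
      fun c => QuotientGroup.induction_on c fun g => by
        ext x
        rfl⟩

@[simp] lemma invIncl_apply_coe (U W : Subgroup G) [U.Normal] [W.Normal] (h : W ≤ U)
    (x : A.quotientToInvariants U) : (((invIncl A U W h).hom x).1 : A) = x.1 := rfl

/-- Inflation `Hⁿ(G ⧸ U, A^U) ⟶ Hⁿ(G ⧸ W, A^W)` for `W ≤ U`. -/
noncomputable def inflFin (U W : Subgroup G) [U.Normal] [W.Normal] (h : W ≤ U) (n : ℕ) :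
    groupCohomology (A.quotientToInvariants U) n ⟶ groupCohomology (A.quotientToInvariants W) n :=
  groupCohomology.map (quotMap U W h) (invIncl A U W h) n

variable (𝒰 : Levels G)

lemma cochainsMap_inflComplex (U W : Subgroup G) [U.Normal] [W.Normal] (h : W ≤ U)
    (hU : U ∈ 𝒰.sets) (hW : W ∈ 𝒰.sets) :
    cochainsMap (quotMap U W h) (invIncl A U W h) ≫ inflComplex 𝒰 A W hW =
      inflComplex 𝒰 A U hU := by
  ext n f : 3
  apply Subtype.ext
  rfl

/-- Transitivity of inflation. -/
lemma inflFin_infl (U W : Subgroup G) [U.Normal] [W.Normal] (h : W ≤ U)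
    (hU : U ∈ 𝒰.sets) (hW : W ∈ 𝒰.sets) (n : ℕ) :
    inflFin A U W h n ≫ infl 𝒰 A W hW n = infl 𝒰 A U hU n := by
  change HomologicalComplex.homologyMap (cochainsMap (quotMap U W h) (invIncl A U W h)) n ≫
      HomologicalComplex.homologyMap (inflComplex 𝒰 A W hW) n =
    HomologicalComplex.homologyMap (inflComplex 𝒰 A U hU) n
  rw [← HomologicalComplex.homologyMap_comp, cochainsMap_inflComplex]

lemma inflFin_infl_apply (U W : Subgroup G) [U.Normal] [W.Normal] (h : W ≤ U)
    (hU : U ∈ 𝒰.sets) (hW : W ∈ 𝒰.sets) (n : ℕ)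
    (y : groupCohomology (A.quotientToInvariants U) n) :
    infl 𝒰 A W hW n (inflFin A U W h n y) = infl 𝒰 A U hU n y := by
  have := ConcreteCategory.congr_hom (inflFin_infl A 𝒰 U W h hU hW n) y
  rwa [ConcreteCategory.comp_apply] at this

/-- An inflated class vanishes iff it already vanishes at some finite level. -/
lemma infl_eq_zero_iff (U : Subgroup G) [U.Normal] (hU : U ∈ 𝒰.sets) (n : ℕ)
    (y : groupCohomology (A.quotientToInvariants U) n) :
    infl 𝒰 A U hU n y = 0 ↔
      ∃ (W : Subgroup G) (_ : W.Normal) (_ : W ∈ 𝒰.sets) (h : W ≤ U), inflFin A U W h n y = 0 := by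
  constructor
  swap
  · rintro ⟨W, hN, hW, h, hy⟩
    rw [← inflFin_infl_apply A 𝒰 U W h hU hW n y, hy, map_zero]
  intro hy
  obtain ⟨c, rfl⟩ := Aux.homologyπ_surjective (inhomogeneousCochains (A.quotientToInvariants U)) n y
  obtain ⟨hz, h⟩ := infl_homologyπ 𝒰 A U hU n c
  rw [h] at hy
  set f := (inhomogeneousCochains (A.quotientToInvariants U)).iCycles n c with hf
  cases n with
  | zero =>
    refine ⟨U, inferInstance, hU, le_rfl, ?_⟩
    rw [Hπ_eq_zero_iff_zero] at hy
    have h0 : inflCochain A U 0 f = 0 := congrArg (fun z => z.1.1) hy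
    have hf0 : f = 0 := inflCochain_injective U 0 (h0.trans (map_zero _).symm)
    have hc : c = 0 := by
      apply Aux.iCycles_injective
      rw [← hf, hf0, map_zero]
    rw [hc, map_zero]
    exact map_zero (inflFin A U U le_rfl 0).hom
  | succ m =>
    rw [Hπ_eq_zero_iff_succ] at hy
    obtain ⟨b, hb⟩ := hy
    obtain ⟨V, hV, hbV⟩ := b.2
    obtain ⟨W, hW, hWUV⟩ := 𝒰.directed U hU V hV
    have hN := 𝒰.normal W hW
    have hWU : W ≤ U := hWUV.trans inf_le_left
    refine ⟨W, hN, hW, hWU, ?_⟩
    obtain ⟨b', hb'⟩ := exists_inflCochain_eq W (hbV.mono (hWUV.trans inf_le_right))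
    -- the cochain on `G ⧸ W` inflated from `f`
    set fW := ((cochainsMap (quotMap U W hWU) (invIncl A U W hWU)).f (m + 1)).hom f with hfW
    have h1 : inflCochain A W (m + 1) fW = inflCochain A U (m + 1) f := rfl
    have hdb' : (inhomogeneousCochains.d (A.quotientToInvariants W) m).hom b' = fW := by
      apply inflCochain_injective W (m + 1)
      rw [inflCochain_d, hb', h1]
      exact congrArg (fun z => z.1) hb
    change HomologicalComplex.homologyMap (cochainsMap (quotMap U W hWU) (invIncl A U W hWU))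
      (m + 1) ((inhomogeneousCochains (A.quotientToInvariants U)).homologyπ (m + 1) c) = 0
    rw [Aux.homologyMap_homologyπ,
      Aux.homologyπ_eq_zero_iff (inhomogeneousCochains (A.quotientToInvariants W)) m (m + 1) rfl]
    refine ⟨b', ?_⟩
    rw [Aux.iCycles_cyclesMap, inhomogeneousCochains.d_def]
    exact hdb'

end FiniteLevels

end Fermat.Agent.CFT.LC
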