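/-
Level-constant cohomology in degrees 1 and 2, in the `G → A` / `G × G → A` forms of Mathlib's
`LowDegree` API (helper8, Layer D).
-/
import Fermat.Agent.CFT.LC.Inflation

set_option autoImplicit false

universe u

namespace Fermat.Agent.CFT.LC

open CategoryTheory groupCohomology

variable {k G : Type u} [CommRing k] [Group G]

section Defs

/-- Smooth vectors at `U`. -/
def IsLCAt₀ (U : Subgroup G) (A : Rep.{u} k G) (a : A) : Prop := ∀ s ∈ U, A.ρ s a = a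

/-- Level constancy of a function `G → A` at `U`. -/
def IsLCAt₁ (U : Subgroup G) (A : Rep.{u} k G) (f : G → A) : Prop :=
  (∀ g, ∀ s ∈ U, f (g * s) = f g) ∧ ∀ g, ∀ s ∈ U, A.ρ s (f g) = f g

/-- Level constancy of a function `G × G → A` at `U`. -/
def IsLCAt₂ (U : Subgroup G) (A : Rep.{u} k G) (f : G × G → A) : Prop :=
  (∀ g g', ∀ s ∈ U, ∀ s' ∈ U, f (g * s, g' * s') = f (g, g')) ∧ ∀ p, ∀ s ∈ U, A.ρ s (f p) = f p

/-- Smooth vectors. -/
def IsLC₀ (𝒰 : Levels G) (A : Rep.{u} k G) (a : A) : Prop := ∃ U ∈ 𝒰.sets, IsLCAt₀ U A a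

/-- Level-constant functions `G → A`. -/
def IsLC₁ (𝒰 : Levels G) (A : Rep.{u} k G) (f : G → A) : Prop := ∃ U ∈ 𝒰.sets, IsLCAt₁ U A f

/-- Level-constant functions `G × G → A`. -/
def IsLC₂ (𝒰 : Levels G) (A : Rep.{u} k G) (f : G × G → A) : Prop :=
  ∃ U ∈ 𝒰.sets, IsLCAt₂ U A f

variable {U : Subgroup G} {𝒰 : Levels G} {A : Rep.{u} k G}

lemma cochainsIso₀_inv_apply (a : A) (g : Fin 0 → G) : (cochainsIso₀ A).inv a g = a := rfl

lemma cochainsIso₁_inv_apply (f : G → A) (g : Fin 1 → G) : (cochainsIso₁ A).inv f g = f (g 0) :=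
  rfl

lemma cochainsIso₂_inv_apply (f : G × G → A) (g : Fin 2 → G) :
    (cochainsIso₂ A).inv f g = f (g 0, g 1) := rfl

lemma isLCAt_inv₀ (a : A) : IsLCAt U A ((cochainsIso₀ A).inv a) ↔ IsLCAt₀ U A a := by
  constructor
  · intro h s hs
    exact h.2 default s hs
  · intro h
    exact ⟨fun _ _ _ => rfl, fun _ s hs => h s hs⟩

lemma isLCAt_inv₁ (f : G → A) : IsLCAt U A ((cochainsIso₁ A).inv f) ↔ IsLCAt₁ U A f := by
  constructor
  · intro h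
    refine ⟨fun g s hs => ?_, fun g s hs => ?_⟩
    · have := h.1 (fun _ => g) (fun _ => s) (fun _ => hs)
      rwa [cochainsIso₁_inv_apply, cochainsIso₁_inv_apply] at this
    · have := h.2 (fun _ => g) s hs
      rwa [cochainsIso₁_inv_apply] at this
  · intro h
    refine ⟨fun g u hu => ?_, fun g s hs => ?_⟩
    · rw [cochainsIso₁_inv_apply, cochainsIso₁_inv_apply]
      exact h.1 (g 0) (u 0) (hu 0)
    · rw [cochainsIso₁_inv_apply]
      exact h.2 _ s hs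

lemma isLCAt_inv₂ (f : G × G → A) : IsLCAt U A ((cochainsIso₂ A).inv f) ↔ IsLCAt₂ U A f := by
  constructor
  · intro h
    refine ⟨fun g g' s hs s' hs' => ?_, fun p s hs => ?_⟩
    · have := h.1 ![g, g'] ![s, s'] (fun i => by fin_cases i <;> simpa)
      rwa [cochainsIso₂_inv_apply, cochainsIso₂_inv_apply] at this
    · have := h.2 ![p.1, p.2] s hs
      rwa [cochainsIso₂_inv_apply] at this
  · intro h
    refine ⟨fun g u hu => ?_, fun g s hs => ?_⟩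
    · rw [cochainsIso₂_inv_apply, cochainsIso₂_inv_apply]
      exact h.1 (g 0) (g 1) (u 0) (hu 0) (u 1) (hu 1)
    · rw [cochainsIso₂_inv_apply]
      exact h.2 _ s hs

lemma IsLCAt₁.mono {W : Subgroup G} (h : W ≤ U) {f : G → A} (hf : IsLCAt₁ U A f) :
    IsLCAt₁ W A f :=
  ⟨fun g s hs => hf.1 g s (h hs), fun g s hs => hf.2 g s (h hs)⟩

lemma IsLCAt₂.mono {W : Subgroup G} (h : W ≤ U) {f : G × G → A} (hf : IsLCAt₂ U A f) :
    IsLCAt₂ W A f :=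
  ⟨fun g g' s hs s' hs' => hf.1 g g' s (h hs) s' (h hs'), fun p s hs => hf.2 p s (h hs)⟩

lemma isLC_inv₀ (a : A) : IsLC 𝒰 A ((cochainsIso₀ A).inv a) ↔ IsLC₀ 𝒰 A a :=
  exists_congr fun _ => and_congr_right fun _ => isLCAt_inv₀ a

lemma isLC_inv₁ (f : G → A) : IsLC 𝒰 A ((cochainsIso₁ A).inv f) ↔ IsLC₁ 𝒰 A f :=
  exists_congr fun _ => and_congr_right fun _ => isLCAt_inv₁ f

lemma isLC_inv₂ (f : G × G → A) : IsLC 𝒰 A ((cochainsIso₂ A).inv f) ↔ IsLC₂ 𝒰 A f :=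
  exists_congr fun _ => and_congr_right fun _ => isLCAt_inv₂ f

/-- Smooth vectors as a submodule. -/
noncomputable def cochains₀ (𝒰 : Levels G) (A : Rep.{u} k G) : Submodule k A :=
  (cochains 𝒰 A 0).comap (cochainsIso₀ A).inv.hom

/-- Level-constant functions `G → A` as a submodule. -/
noncomputable def cochains₁ (𝒰 : Levels G) (A : Rep.{u} k G) : Submodule k (G → A) :=
  (cochains 𝒰 A 1).comap (cochainsIso₁ A).inv.hom

/-- Level-constant functions `G × G → A` as a submodule. -/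
noncomputable def cochains₂ (𝒰 : Levels G) (A : Rep.{u} k G) : Submodule k (G × G → A) :=
  (cochains 𝒰 A 2).comap (cochainsIso₂ A).inv.hom

lemma mem_cochains₀_iff (a : A) : a ∈ cochains₀ 𝒰 A ↔ IsLC₀ 𝒰 A a := isLC_inv₀ a

lemma mem_cochains₁_iff (f : G → A) : f ∈ cochains₁ 𝒰 A ↔ IsLC₁ 𝒰 A f := isLC_inv₁ f

lemma mem_cochains₂_iff (f : G × G → A) : f ∈ cochains₂ 𝒰 A ↔ IsLC₂ 𝒰 A f := isLC_inv₂ f

end Defs

/-! ### Degree 2 -/

section H2

variable (𝒰 : Levels G) (A : Rep.{u} k G)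

/-- Level-constant 2-cocycles, as functions `G × G → A`. -/
noncomputable def Z₂ : Submodule k (G × G → A) := cocycles₂ A ⊓ cochains₂ 𝒰 A

/-- Coboundaries of level-constant 1-cochains, as functions `G × G → A`. -/
noncomputable def B₂ : Submodule k (G × G → A) := (cochains₁ 𝒰 A).map (d₁₂ A).hom

variable {𝒰 A}

lemma mem_Z₂_iff (f : G × G → A) : f ∈ Z₂ 𝒰 A ↔ f ∈ cocycles₂ A ∧ IsLC₂ 𝒰 A f :=
  and_congr_right fun _ => mem_cochains₂_iff f

lemma mem_B₂_iff (f : G × G → A) : f ∈ B₂ 𝒰 A ↔ ∃ x : G → A, IsLC₁ 𝒰 A x ∧ (d₁₂ A).hom x = f := by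
  simp only [B₂, Submodule.mem_map, mem_cochains₁_iff]

lemma d_inv₁ (x : G → A) :
    (inhomogeneousCochains.d A 1).hom ((cochainsIso₁ A).inv x) =
      (cochainsIso₂ A).inv ((d₁₂ A).hom x) := by
  have h := ConcreteCategory.congr_hom (eq_d₁₂_comp_inv A) x
  rw [ConcreteCategory.comp_apply, ConcreteCategory.comp_apply, inhomogeneousCochains.d_def] at h
  exact h

lemma d_inv₂ (f : G × G → A) :
    (inhomogeneousCochains.d A 2).hom ((cochainsIso₂ A).inv f) =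
      (cochainsIso₃ A).inv ((d₂₃ A).hom f) := by
  have h := ConcreteCategory.congr_hom (eq_d₂₃_comp_inv A) f
  rw [ConcreteCategory.comp_apply, ConcreteCategory.comp_apply, inhomogeneousCochains.d_def] at h
  exact h

lemma d_inv₀ (a : A) :
    (inhomogeneousCochains.d A 0).hom ((cochainsIso₀ A).inv a) =
      (cochainsIso₁ A).inv ((d₀₁ A).hom a) := by
  have h := ConcreteCategory.congr_hom (eq_d₀₁_comp_inv A) a
  rw [ConcreteCategory.comp_apply, ConcreteCategory.comp_apply, inhomogeneousCochains.d_def] at h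
  exact h

lemma inv_hom₂ (y : (Fin 2 → G) → A) : (cochainsIso₂ A).inv ((cochainsIso₂ A).hom y) = y :=
  Iso.hom_inv_id_apply (cochainsIso₂ A) y

lemma hom_inv₂ (f : G × G → A) : (cochainsIso₂ A).hom ((cochainsIso₂ A).inv f) = f :=
  Iso.inv_hom_id_apply (cochainsIso₂ A) f

lemma inv_hom₁ (y : (Fin 1 → G) → A) : (cochainsIso₁ A).inv ((cochainsIso₁ A).hom y) = y :=
  Iso.hom_inv_id_apply (cochainsIso₁ A) y

lemma hom_inv₁ (f : G → A) : (cochainsIso₁ A).hom ((cochainsIso₁ A).inv f) = f :=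
  Iso.inv_hom_id_apply (cochainsIso₁ A) f

lemma inv_hom₀ (y : (Fin 0 → G) → A) : (cochainsIso₀ A).inv ((cochainsIso₀ A).hom y) = y :=
  Iso.hom_inv_id_apply (cochainsIso₀ A) y

lemma hom_inv₀ (a : A) : (cochainsIso₀ A).hom ((cochainsIso₀ A).inv a) = a :=
  Iso.inv_hom_id_apply (cochainsIso₀ A) a

lemma inv₃_injective : Function.Injective (cochainsIso₃ A).inv := fun x y h => by
  have := congrArg (cochainsIso₃ A).hom h
  rwa [Iso.inv_hom_id_apply, Iso.inv_hom_id_apply] at this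

lemma inv₂_injective : Function.Injective (cochainsIso₂ A).inv := fun x y h => by
  have := congrArg (cochainsIso₂ A).hom h
  rwa [hom_inv₂, hom_inv₂] at this

lemma inv₁_injective : Function.Injective (cochainsIso₁ A).inv := fun x y h => by
  have := congrArg (cochainsIso₁ A).hom h
  rwa [hom_inv₁, hom_inv₁] at this

variable (𝒰 A)

/-- The level-constant cocycle attached to an element of `Z₂`. -/
noncomputable def toCocyclesLC₂ : Z₂ 𝒰 A →ₗ[k] cocyclesLC 𝒰 A 2 :=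
  LinearMap.codRestrict _
    (LinearMap.codRestrict (cochains 𝒰 A 2) ((cochainsIso₂ A).inv.hom ∘ₗ (Z₂ 𝒰 A).subtype)
      fun f => f.2.2)
    fun f => by
      rw [mem_cocyclesLC_iff]
      change (inhomogeneousCochains.d A 2).hom ((cochainsIso₂ A).inv f.1) = 0
      rw [d_inv₂, (LinearMap.mem_ker.1 f.2.1 : (d₂₃ A).hom f.1 = 0), map_zero]

@[simp] lemma toCocyclesLC₂_coe (f : Z₂ 𝒰 A) :
    ((toCocyclesLC₂ 𝒰 A f).1.1 : (Fin 2 → G) → A) = (cochainsIso₂ A).inv f.1 := rfl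

/-- The class of a level-constant 2-cocycle `G × G → A`. -/
noncomputable def H2π' : Z₂ 𝒰 A →ₗ[k] H 𝒰 A 2 := Hπ 𝒰 A 2 ∘ₗ toCocyclesLC₂ 𝒰 A

lemma H2π'_surjective : Function.Surjective (H2π' 𝒰 A) := by
  intro x
  obtain ⟨z, rfl⟩ := Hπ_surjective 𝒰 A 2 x
  have hz := (mem_cocyclesLC_iff 𝒰 A z.1).1 z.2
  have hf : (cochainsIso₂ A).hom z.1.1 ∈ Z₂ 𝒰 A := by
    refine ⟨?_, ?_⟩
    · change (d₂₃ A).hom ((cochainsIso₂ A).hom z.1.1) = 0
      apply inv₃_injective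
      rw [← d_inv₂, inv_hom₂, hz, map_zero]
    · change (cochainsIso₂ A).inv ((cochainsIso₂ A).hom z.1.1) ∈ cochains 𝒰 A 2
      rw [inv_hom₂]
      exact z.1.2
  refine ⟨⟨_, hf⟩, ?_⟩
  change Hπ 𝒰 A 2 _ = _
  congr 1
  apply Subtype.ext
  apply Subtype.ext
  exact inv_hom₂ z.1.1

lemma H2π'_eq_zero_iff (f : Z₂ 𝒰 A) : H2π' 𝒰 A f = 0 ↔ f.1 ∈ B₂ 𝒰 A := by
  change Hπ 𝒰 A 2 (toCocyclesLC₂ 𝒰 A f) = 0 ↔ _
  rw [Hπ_eq_zero_iff_succ, mem_B₂_iff]
  constructor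
  · rintro ⟨y, hy⟩
    refine ⟨(cochainsIso₁ A).hom y.1, ?_, ?_⟩
    · rw [← isLC_inv₁, inv_hom₁]
      exact y.2
    · apply inv₂_injective
      rw [← d_inv₁, inv_hom₁]
      exact congrArg Subtype.val hy
  · rintro ⟨x, hx, hxf⟩
    refine ⟨⟨(cochainsIso₁ A).inv x, (isLC_inv₁ x).2 hx⟩, ?_⟩
    apply Subtype.ext
    change (inhomogeneousCochains.d A 1).hom ((cochainsIso₁ A).inv x) = (cochainsIso₂ A).inv f.1
    rw [d_inv₁, hxf]

lemma ker_H2π' : LinearMap.ker (H2π' 𝒰 A) = (B₂ 𝒰 A).comap (Z₂ 𝒰 A).subtype := by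
  ext f
  rw [LinearMap.mem_ker, H2π'_eq_zero_iff]
  rfl

/-- `H²` of the level-constant complex as the explicit quotient `Z₂ / B₂`. -/
noncomputable def H2Equiv :
    (↥(Z₂ 𝒰 A) ⧸ (B₂ 𝒰 A).comap (Z₂ 𝒰 A).subtype) ≃ₗ[k] H 𝒰 A 2 :=
  (Submodule.quotEquivOfEq _ _ (ker_H2π' 𝒰 A).symm).trans
    ((H2π' 𝒰 A).quotKerEquivOfSurjective (H2π'_surjective 𝒰 A))

@[simp] lemma H2Equiv_mk (f : Z₂ 𝒰 A) :
    H2Equiv 𝒰 A (Submodule.Quotient.mk f) = H2π' 𝒰 A f := rfl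

/-- Compatibility with Mathlib's `H2π` under the comparison map. -/
lemma toAbstract_H2π' (f : Z₂ 𝒰 A) :
    toAbstract 𝒰 A 2 (H2π' 𝒰 A f) = H2π A ⟨f.1, f.2.1⟩ := by
  change HomologicalComplex.homologyMap (ι 𝒰 A) 2
    ((complex 𝒰 A).homologyπ 2 (cycleOf 𝒰 A 2 (toCocyclesLC₂ 𝒰 A f))) =
      (inhomogeneousCochains A).homologyπ 2 ((isoCocycles₂ A).inv ⟨f.1, f.2.1⟩)
  rw [Aux.homologyMap_homologyπ]
  congr 1
  apply Aux.iCycles_injective
  rw [Aux.iCycles_cyclesMap, iCycles_cycleOf]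
  exact (isoCocycles₂_inv_comp_iCocycles_apply A ⟨f.1, f.2.1⟩).symm

end H2

/-! ### Degree 1 -/

section H1

variable (𝒰 : Levels G) (A : Rep.{u} k G)

/-- Level-constant 1-cocycles, as functions `G → A`. -/
noncomputable def Z₁ : Submodule k (G → A) := cocycles₁ A ⊓ cochains₁ 𝒰 A

/-- Coboundaries of smooth vectors, as functions `G → A`. -/
noncomputable def B₁ : Submodule k (G → A) := (cochains₀ 𝒰 A).map (d₀₁ A).hom

variable {𝒰 A}

lemma mem_Z₁_iff (f : G → A) : f ∈ Z₁ 𝒰 A ↔ f ∈ cocycles₁ A ∧ IsLC₁ 𝒰 A f :=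
  and_congr_right fun _ => mem_cochains₁_iff f

lemma mem_B₁_iff (f : G → A) : f ∈ B₁ 𝒰 A ↔ ∃ a : A, IsLC₀ 𝒰 A a ∧ (d₀₁ A).hom a = f := by
  simp only [B₁, Submodule.mem_map, mem_cochains₀_iff]

variable (𝒰 A)

/-- The level-constant cocycle attached to an element of `Z₁`. -/
noncomputable def toCocyclesLC₁ : Z₁ 𝒰 A →ₗ[k] cocyclesLC 𝒰 A 1 :=
  LinearMap.codRestrict _
    (LinearMap.codRestrict (cochains 𝒰 A 1) ((cochainsIso₁ A).inv.hom ∘ₗ (Z₁ 𝒰 A).subtype)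
      fun f => f.2.2)
    fun f => by
      rw [mem_cocyclesLC_iff]
      change (inhomogeneousCochains.d A 1).hom ((cochainsIso₁ A).inv f.1) = 0
      rw [d_inv₁, (LinearMap.mem_ker.1 f.2.1 : (d₁₂ A).hom f.1 = 0), map_zero]

@[simp] lemma toCocyclesLC₁_coe (f : Z₁ 𝒰 A) :
    ((toCocyclesLC₁ 𝒰 A f).1.1 : (Fin 1 → G) → A) = (cochainsIso₁ A).inv f.1 := rfl

/-- The class of a level-constant 1-cocycle `G → A`. -/
noncomputable def H1π' : Z₁ 𝒰 A →ₗ[k] H 𝒰 A 1 := Hπ 𝒰 A 1 ∘ₗ toCocyclesLC₁ 𝒰 A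

lemma H1π'_surjective : Function.Surjective (H1π' 𝒰 A) := by
  intro x
  obtain ⟨z, rfl⟩ := Hπ_surjective 𝒰 A 1 x
  have hz := (mem_cocyclesLC_iff 𝒰 A z.1).1 z.2
  have hf : (cochainsIso₁ A).hom z.1.1 ∈ Z₁ 𝒰 A := by
    refine ⟨?_, ?_⟩
    · change (d₁₂ A).hom ((cochainsIso₁ A).hom z.1.1) = 0
      apply inv₂_injective
      rw [← d_inv₁, inv_hom₁, hz, map_zero]
    · change (cochainsIso₁ A).inv ((cochainsIso₁ A).hom z.1.1) ∈ cochains 𝒰 A 1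
      rw [inv_hom₁]
      exact z.1.2
  refine ⟨⟨_, hf⟩, ?_⟩
  change Hπ 𝒰 A 1 _ = _
  congr 1
  apply Subtype.ext
  apply Subtype.ext
  exact inv_hom₁ z.1.1

lemma H1π'_eq_zero_iff (f : Z₁ 𝒰 A) : H1π' 𝒰 A f = 0 ↔ f.1 ∈ B₁ 𝒰 A := by
  change Hπ 𝒰 A 1 (toCocyclesLC₁ 𝒰 A f) = 0 ↔ _
  rw [Hπ_eq_zero_iff_succ, mem_B₁_iff]
  constructor
  · rintro ⟨y, hy⟩
    refine ⟨(cochainsIso₀ A).hom y.1, ?_, ?_⟩
    · rw [← isLC_inv₀, inv_hom₀]
      exact y.2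
    · apply inv₁_injective
      rw [← d_inv₀, inv_hom₀]
      exact congrArg Subtype.val hy
  · rintro ⟨a, ha, haf⟩
    refine ⟨⟨(cochainsIso₀ A).inv a, (isLC_inv₀ a).2 ha⟩, ?_⟩
    apply Subtype.ext
    change (inhomogeneousCochains.d A 0).hom ((cochainsIso₀ A).inv a) = (cochainsIso₁ A).inv f.1
    rw [d_inv₀, haf]

lemma ker_H1π' : LinearMap.ker (H1π' 𝒰 A) = (B₁ 𝒰 A).comap (Z₁ 𝒰 A).subtype := by
  ext f
  rw [LinearMap.mem_ker, H1π'_eq_zero_iff]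
  rfl

/-- `H¹` of the level-constant complex as the explicit quotient `Z₁ / B₁`. -/
noncomputable def H1Equiv :
    (↥(Z₁ 𝒰 A) ⧸ (B₁ 𝒰 A).comap (Z₁ 𝒰 A).subtype) ≃ₗ[k] H 𝒰 A 1 :=
  (Submodule.quotEquivOfEq _ _ (ker_H1π' 𝒰 A).symm).trans
    ((H1π' 𝒰 A).quotKerEquivOfSurjective (H1π'_surjective 𝒰 A))

@[simp] lemma H1Equiv_mk (f : Z₁ 𝒰 A) :
    H1Equiv 𝒰 A (Submodule.Quotient.mk f) = H1π' 𝒰 A f := rfl

/-- Compatibility with Mathlib's `H1π` under the comparison map. -/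
lemma toAbstract_H1π' (f : Z₁ 𝒰 A) :
    toAbstract 𝒰 A 1 (H1π' 𝒰 A f) = H1π A ⟨f.1, f.2.1⟩ := by
  change HomologicalComplex.homologyMap (ι 𝒰 A) 1
    ((complex 𝒰 A).homologyπ 1 (cycleOf 𝒰 A 1 (toCocyclesLC₁ 𝒰 A f))) =
      (inhomogeneousCochains A).homologyπ 1 ((isoCocycles₁ A).inv ⟨f.1, f.2.1⟩)
  rw [Aux.homologyMap_homologyπ]
  congr 1
  apply Aux.iCycles_injective
  rw [Aux.iCycles_cyclesMap, iCycles_cycleOf]
  exact (isoCocycles₁_inv_comp_iCocycles_apply A ⟨f.1, f.2.1⟩).symm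

/-- A level-constant 1-cocycle which is an abstract coboundary is the coboundary of a smooth
vector: the comparison map is injective in degree one. -/
lemma toAbstract_one_injective : Function.Injective (toAbstract 𝒰 A 1) := by
  rw [injective_iff_map_eq_zero]
  intro x hx
  obtain ⟨f, rfl⟩ := H1π'_surjective 𝒰 A x
  rw [toAbstract_H1π', H1π_eq_zero_iff] at hx
  obtain ⟨a, ha⟩ := hx
  rw [H1π'_eq_zero_iff, mem_B₁_iff]
  obtain ⟨U, hU, hfU⟩ := (mem_cochains₁_iff f.1).1 f.2.2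
  refine ⟨a, ⟨U, hU, fun s hs => ?_⟩, ha⟩
  have h1 : f.1 (1 * s) = f.1 1 := hfU.1 1 s hs
  have hs' : f.1 s = A.ρ s a - a := (congrFun ha s).symm
  have h1' : f.1 1 = A.ρ 1 a - a := (congrFun ha 1).symm
  rw [one_mul, hs', h1', map_one, Module.End.one_apply, sub_self, sub_eq_zero] at h1
  exact h1

end H1

end Fermat.Agent.CFT.LC
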