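/-
PROJECT C, LC-side of slice A1 (helper28): pull-back of level families along a group
homomorphism, open subgroups, and RESTRICTION of level-constant cohomology to a subgroup.
-/
import Fermat.Agent.CFT.LC.Inflation

set_option autoImplicit false

universe u

namespace Fermat.Agent.CFT.LC

open CategoryTheory groupCohomology

variable {k G G' : Type u} [CommRing k] [Group G] [Group G']

/-- The pull-back of a family of levels along a group homomorphism. -/
def Levels.comap (φ : G' →* G) (𝒰 : Levels G) : Levels G' where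
  sets := (fun U => U.comap φ) '' 𝒰.sets
  nonempty := 𝒰.nonempty.image _
  directed := by
    rintro _ ⟨U, hU, rfl⟩ _ ⟨V, hV, rfl⟩
    obtain ⟨W, hW, hWUV⟩ := 𝒰.directed U hU V hV
    refine ⟨W.comap φ, ⟨W, hW, rfl⟩, ?_⟩
    rw [← Subgroup.comap_inf]
    exact Subgroup.comap_mono hWUV
  normal := by
    rintro _ ⟨U, hU, rfl⟩
    have := 𝒰.normal U hU
    infer_instance

lemma Levels.mem_comap_sets {φ : G' →* G} {𝒰 : Levels G} {U : Subgroup G} (hU : U ∈ 𝒰.sets) :
    U.comap φ ∈ (𝒰.comap φ).sets := ⟨U, hU, rfl⟩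

lemma Levels.continuous_comap (φ : G' →* G) (𝒰 : Levels G) :
    Levels.Continuous φ (𝒰.comap φ) 𝒰 :=
  fun U hU => ⟨U.comap φ, ⟨U, hU, rfl⟩, le_rfl⟩

instance Levels.isFin_comap (φ : G' →* G) (𝒰 : Levels G) [𝒰.IsFin] : (𝒰.comap φ).IsFin where
  finiteIndex := by
    rintro _ ⟨U, hU, rfl⟩
    have := Levels.IsFin.finiteIndex U hU
    refine ⟨?_⟩
    rw [Subgroup.index_comap]
    have : U.IsFiniteRelIndex φ.range := Subgroup.isFiniteRelIndex_of_finiteIndex
    exact Subgroup.relIndex_ne_zero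

/-- The levels induced on a subgroup. -/
abbrev Levels.restrict (𝒰 : Levels G) (V : Subgroup G) : Levels V := 𝒰.comap V.subtype

lemma Levels.subgroupOf_mem_restrict {𝒰 : Levels G} {U : Subgroup G} (hU : U ∈ 𝒰.sets)
    (V : Subgroup G) : U.subgroupOf V ∈ (𝒰.restrict V).sets := ⟨U, hU, rfl⟩

/-- A subgroup is open if it contains a level. -/
def Levels.IsOpen (𝒰 : Levels G) (V : Subgroup G) : Prop := ∃ U ∈ 𝒰.sets, U ≤ V

lemma Levels.IsOpen.finiteIndex {𝒰 : Levels G} [𝒰.IsFin] {V : Subgroup G} (hV : 𝒰.IsOpen V) :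
    V.FiniteIndex := by
  obtain ⟨U, hU, hUV⟩ := hV
  have := Levels.IsFin.finiteIndex U hU
  exact Subgroup.finiteIndex_of_le hUV

lemma Levels.isOpen_of_mem {𝒰 : Levels G} {U : Subgroup G} (hU : U ∈ 𝒰.sets) : 𝒰.IsOpen U :=
  ⟨U, hU, le_rfl⟩

lemma Levels.IsOpen.mono {𝒰 : Levels G} {V W : Subgroup G} (hV : 𝒰.IsOpen V) (h : V ≤ W) :
    𝒰.IsOpen W := by
  obtain ⟨U, hU, hUV⟩ := hV
  exact ⟨U, hU, hUV.trans h⟩

/-- Every level is refined by a level contained in a given open subgroup. -/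
lemma Levels.IsOpen.exists_le {𝒰 : Levels G} {V : Subgroup G} (hV : 𝒰.IsOpen V)
    {U : Subgroup G} (hU : U ∈ 𝒰.sets) : ∃ W ∈ 𝒰.sets, W ≤ U ∧ W ≤ V := by
  obtain ⟨U₀, hU₀, hU₀V⟩ := hV
  obtain ⟨W, hW, hWle⟩ := 𝒰.directed U hU U₀ hU₀
  exact ⟨W, hW, hWle.trans inf_le_left, (hWle.trans inf_le_right).trans hU₀V⟩

lemma IsSmooth.res {𝒰 : Levels G} {A : Rep.{u} k G} (hA : IsSmooth 𝒰 A) (φ : G' →* G) :
    IsSmooth (𝒰.comap φ) (Rep.res φ A) := by
  intro a
  obtain ⟨U, hU, h⟩ := hA a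
  exact ⟨U.comap φ, ⟨U, hU, rfl⟩, fun s hs => h (φ s) hs⟩

/-- Subobjects of smooth representations are smooth. -/
lemma IsSmooth.of_injective {𝒰 : Levels G} {A B : Rep.{u} k G} (hB : IsSmooth 𝒰 B) (ψ : A ⟶ B)
    (hψ : Function.Injective ψ.hom) : IsSmooth 𝒰 A := by
  intro a
  obtain ⟨U, hU, h⟩ := hB (ψ.hom a)
  refine ⟨U, hU, fun s hs => hψ ?_⟩
  rw [Rep.hom_comm_apply, h s hs]

/-- Quotients of smooth representations are smooth. -/
lemma IsSmooth.of_surjective {𝒰 : Levels G} {A B : Rep.{u} k G} (hA : IsSmooth 𝒰 A) (ψ : A ⟶ B)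
    (hψ : Function.Surjective ψ.hom) : IsSmooth 𝒰 B := by
  intro b
  obtain ⟨a, rfl⟩ := hψ b
  obtain ⟨U, hU, h⟩ := hA a
  refine ⟨U, hU, fun s hs => ?_⟩
  rw [← Rep.hom_comm_apply, h s hs]

section Res

variable (𝒰 : Levels G) (V : Subgroup G) (A : Rep.{u} k G)

/-- Restriction of level-constant cochains to a subgroup, as a morphism of complexes. -/
noncomputable def resComplex :
    complex 𝒰 A ⟶ complex (𝒰.restrict V) (Rep.res V.subtype A) :=
  mapComplex (A := A) (B := Rep.res V.subtype A) (Levels.continuous_comap V.subtype 𝒰) (𝟙 _)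

/-- **Restriction** `Hⁿ_LC(G, A) ⟶ Hⁿ_LC(V, A)`. -/
noncomputable def res (n : ℕ) : H 𝒰 A n ⟶ H (𝒰.restrict V) (Rep.res V.subtype A) n :=
  HomologicalComplex.homologyMap (resComplex 𝒰 V A) n

lemma res_eq_map (n : ℕ) :
    res 𝒰 V A n = map (A := A) (B := Rep.res V.subtype A)
      (Levels.continuous_comap V.subtype 𝒰) (𝟙 _) n := rfl

lemma resComplex_f_apply (n : ℕ) (f : cochains 𝒰 A n) (g : Fin n → V) :
    (((resComplex 𝒰 V A).f n).hom f : cochains (𝒰.restrict V) (Rep.res V.subtype A) n).1 g =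
      f.1 (fun i => (g i : G)) := rfl

/-- Compatibility of restriction with the comparison map to abstract group cohomology. -/
lemma res_toAbstract (n : ℕ) :
    res 𝒰 V A n ≫ toAbstract (𝒰.restrict V) (Rep.res V.subtype A) n =
      toAbstract 𝒰 A n ≫ groupCohomology.map V.subtype (𝟙 (Rep.res V.subtype A)) n :=
  map_toAbstract (A := A) (B := Rep.res V.subtype A) (Levels.continuous_comap V.subtype 𝒰) (𝟙 _) n

variable {A} in
/-- Restriction is natural in the coefficients (on complexes). -/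
lemma resComplex_naturality {B : Rep.{u} k G} (ψ : A ⟶ B) :
    (lcFunctor 𝒰).map ψ ≫ resComplex 𝒰 V B =
      resComplex 𝒰 V A ≫ (lcFunctor (𝒰.restrict V)).map ((Rep.resFunctor V.subtype).map ψ) := by
  ext n f : 3
  apply Subtype.ext
  rfl

variable {A} in
/-- Restriction is natural in the coefficients. -/
lemma res_naturality {B : Rep.{u} k G} (ψ : A ⟶ B) (n : ℕ) :
    mapId ψ n ≫ res 𝒰 V B n =
      res 𝒰 V A n ≫ mapId (𝒰 := 𝒰.restrict V) ((Rep.resFunctor V.subtype).map ψ) n := by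
  exact (HomologicalComplex.homologyMap_comp _ _ n).symm.trans
    ((congrArg (fun f => HomologicalComplex.homologyMap f n)
      (resComplex_naturality 𝒰 V ψ)).trans (HomologicalComplex.homologyMap_comp _ _ n))

/-- Elementwise description of restriction. -/
lemma res_Hπ (n : ℕ) (z : cocyclesLC 𝒰 A n) :
    ∃ hz : ((resComplex 𝒰 V A).f n).hom z.1 ∈ cocyclesLC (𝒰.restrict V) (Rep.res V.subtype A) n,
      res 𝒰 V A n (Hπ 𝒰 A n z) = Hπ (𝒰.restrict V) (Rep.res V.subtype A) n ⟨_, hz⟩ :=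
  ⟨cochainsMapLC_mem_cocycles (A := A) (B := Rep.res V.subtype A)
    (Levels.continuous_comap V.subtype 𝒰) (𝟙 _) n z,
   map_Hπ (A := A) (B := Rep.res V.subtype A) (Levels.continuous_comap V.subtype 𝒰) (𝟙 _) n z⟩

end Res

section Delta

variable {𝒰 : Levels G} [𝒰.IsFin] (V : Subgroup G)

/-- The morphism of short complexes of complexes given by restriction. -/
noncomputable def resShortComplex (X : ShortComplex (Rep.{u} k G)) :
    X.map (lcFunctor 𝒰) ⟶
      (X.map (Rep.resFunctor V.subtype)).map (lcFunctor (𝒰.restrict V)) where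
  τ₁ := resComplex 𝒰 V X.X₁
  τ₂ := resComplex 𝒰 V X.X₂
  τ₃ := resComplex 𝒰 V X.X₃
  comm₁₂ := resComplex_naturality 𝒰 V X.f
  comm₂₃ := resComplex_naturality 𝒰 V X.g

/-- Restriction commutes with the connecting homomorphisms of level-constant cohomology. -/
lemma lcδ_res {X : ShortComplex (Rep.{u} k G)} (hX : X.ShortExact) (hsm : IsSmooth 𝒰 X.X₂)
    (i j : ℕ) (hij : i + 1 = j) :
    lcδ hX hsm i j hij ≫ res 𝒰 V X.X₁ j =
      res 𝒰 V X.X₃ i ≫
        lcδ (𝒰 := 𝒰.restrict V) (X := X.map (Rep.resFunctor V.subtype))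
          ((Rep.shortExact_res V.subtype).mpr hX) (hsm.res V.subtype) i j hij :=
  HomologicalComplex.HomologySequence.δ_naturality (resShortComplex V X)
    (map_lcFunctor_shortExact hX hsm)
    (map_lcFunctor_shortExact (𝒰 := 𝒰.restrict V) (X := X.map (Rep.resFunctor V.subtype))
      ((Rep.shortExact_res V.subtype).mpr hX) (hsm.res V.subtype)) i j hij

end Delta

end Fermat.Agent.CFT.LC
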