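/-
PROJECT C, LC model (helper28): naturality of the connecting homomorphism of level-constant
cohomology along an ARBITRARY continuous group homomorphism together with a morphism of short
exact sequences of coefficients (e.g. localisation maps `res_q : G_q → G_S`).
-/
import Fermat.Agent.CFT.LC.Restrict

set_option autoImplicit false

universe u

namespace Fermat.Agent.CFT.LC

open CategoryTheory groupCohomology

variable {k G G' : Type u} [CommRing k] [Group G] [Group G']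

/-- Smoothness is preserved by restriction along a continuous homomorphism. -/
lemma IsSmooth.res_of_continuous {𝒰 : Levels G} {𝒰' : Levels G'} {φ : G' →* G}
    (hφ : Levels.Continuous φ 𝒰' 𝒰) {A : Rep.{u} k G} (hA : IsSmooth 𝒰 A) :
    IsSmooth 𝒰' (Rep.res φ A) := by
  intro a
  obtain ⟨U, hU, h⟩ := hA a
  obtain ⟨U', hU', hle⟩ := hφ U hU
  exact ⟨U', hU', fun s hs => h (φ s) (hle hs)⟩

section

variable {𝒰 : Levels G} {𝒰' : Levels G'} {φ : G' →* G} (hφ : Levels.Continuous φ 𝒰' 𝒰)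

/-- `mapComplex` is natural with respect to morphisms of coefficients on both sides. -/
lemma mapComplex_naturality {A A₂ : Rep.{u} k G} {B B₂ : Rep.{u} k G'} (α : A ⟶ A₂) (β : B ⟶ B₂)
    (ψ : Rep.res φ A ⟶ B) (ψ₂ : Rep.res φ A₂ ⟶ B₂)
    (h : ψ ≫ β = (Rep.resFunctor φ).map α ≫ ψ₂) :
    (lcFunctor 𝒰).map α ≫ mapComplex (A := A₂) (B := B₂) hφ ψ₂ =
      mapComplex (A := A) (B := B) hφ ψ ≫ (lcFunctor 𝒰').map β := by
  ext n f : 3
  apply Subtype.ext
  funext g
  have h1 := congrArg (fun χ => χ.hom (f.1 (φ ∘ g))) h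
  exact h1.symm

/-- `map` is natural with respect to morphisms of coefficients on both sides. -/
lemma map_naturality {A A₂ : Rep.{u} k G} {B B₂ : Rep.{u} k G'} (α : A ⟶ A₂) (β : B ⟶ B₂)
    (ψ : Rep.res φ A ⟶ B) (ψ₂ : Rep.res φ A₂ ⟶ B₂)
    (h : ψ ≫ β = (Rep.resFunctor φ).map α ≫ ψ₂) (n : ℕ) :
    mapId α n ≫ map (A := A₂) (B := B₂) hφ ψ₂ n =
      map (A := A) (B := B) hφ ψ n ≫ mapId β n :=
  (HomologicalComplex.homologyMap_comp _ _ n).symm.trans
    ((congrArg (fun f => HomologicalComplex.homologyMap f n)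
      (mapComplex_naturality hφ α β ψ ψ₂ h)).trans (HomologicalComplex.homologyMap_comp _ _ n))

variable [𝒰.IsFin] [𝒰'.IsFin]

/-- The morphism of short complexes of complexes induced by a continuous homomorphism and a
morphism of short complexes of coefficients. -/
noncomputable def mapShortComplex {X : ShortComplex (Rep.{u} k G)} {Y : ShortComplex (Rep.{u} k G')}
    (ψ : X.map (Rep.resFunctor φ) ⟶ Y) :
    X.map (lcFunctor 𝒰) ⟶ Y.map (lcFunctor 𝒰') where
  τ₁ := mapComplex (A := X.X₁) (B := Y.X₁) hφ ψ.τ₁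
  τ₂ := mapComplex (A := X.X₂) (B := Y.X₂) hφ ψ.τ₂
  τ₃ := mapComplex (A := X.X₃) (B := Y.X₃) hφ ψ.τ₃
  comm₁₂ := (mapComplex_naturality hφ X.f Y.f ψ.τ₁ ψ.τ₂ ψ.comm₁₂).symm
  comm₂₃ := (mapComplex_naturality hφ X.g Y.g ψ.τ₂ ψ.τ₃ ψ.comm₂₃).symm

/-- **Naturality of the connecting homomorphism** of level-constant cohomology along a continuous
group homomorphism `φ : G' →* G` and a morphism `ψ : Res_φ X ⟶ Y` of short exact sequences. -/
lemma lcδ_map {X : ShortComplex (Rep.{u} k G)} {Y : ShortComplex (Rep.{u} k G')}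
    (hX : X.ShortExact) (hXsm : IsSmooth 𝒰 X.X₂) (hY : Y.ShortExact) (hYsm : IsSmooth 𝒰' Y.X₂)
    (ψ : X.map (Rep.resFunctor φ) ⟶ Y) (i j : ℕ) (hij : i + 1 = j) :
    lcδ hX hXsm i j hij ≫ map (A := X.X₁) (B := Y.X₁) hφ ψ.τ₁ j =
      map (A := X.X₃) (B := Y.X₃) hφ ψ.τ₃ i ≫ lcδ hY hYsm i j hij :=
  HomologicalComplex.HomologySequence.δ_naturality (mapShortComplex hφ ψ)
    (map_lcFunctor_shortExact hX hXsm) (map_lcFunctor_shortExact hY hYsm) i j hij

/-- Special case: restriction along `φ` with identity coefficient maps. -/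
lemma lcδ_map_res {X : ShortComplex (Rep.{u} k G)} (hX : X.ShortExact) (hXsm : IsSmooth 𝒰 X.X₂)
    (i j : ℕ) (hij : i + 1 = j) :
    lcδ hX hXsm i j hij ≫ map (A := X.X₁) (B := Rep.res φ X.X₁) hφ (𝟙 _) j =
      map (A := X.X₃) (B := Rep.res φ X.X₃) hφ (𝟙 _) i ≫
        lcδ (𝒰 := 𝒰') (X := X.map (Rep.resFunctor φ)) ((Rep.shortExact_res φ).mpr hX)
          (hXsm.res_of_continuous hφ) i j hij :=
  lcδ_map hφ hX hXsm ((Rep.shortExact_res φ).mpr hX) (hXsm.res_of_continuous hφ) (𝟙 _) i j hij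

/-- Special case `G' = G`, `φ = id`: naturality of `lcδ` in the short exact sequence. -/
lemma lcδ_naturality {𝒰 : Levels G} [𝒰.IsFin] {X Y : ShortComplex (Rep.{u} k G)}
    (hX : X.ShortExact) (hXsm : IsSmooth 𝒰 X.X₂)
    (hY : Y.ShortExact) (hYsm : IsSmooth 𝒰 Y.X₂) (ψ : X ⟶ Y) (i j : ℕ) (hij : i + 1 = j) :
    lcδ hX hXsm i j hij ≫ mapId ψ.τ₁ j = mapId ψ.τ₃ i ≫ lcδ hY hYsm i j hij :=
  HomologicalComplex.HomologySequence.δ_naturality
    ((lcFunctor 𝒰).mapShortComplex.map ψ)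
    (map_lcFunctor_shortExact hX hXsm) (map_lcFunctor_shortExact hY hYsm) i j hij

end

end Fermat.Agent.CFT.LC
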