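/-
Level-constant cohomology (helper8, Layer D): composition rules for `map` / `mapId`, elementwise
forms of the naturality of `lcδ` (helper28's `LC/Naturality.lean`) and the long exact sequence
in elementwise form.  Everything lives in the namespace `Fermat.Agent.CFT.LC.El`.
-/
import Fermat.Agent.CFT.LC.Naturality

set_option autoImplicit false

universe u

namespace Fermat.Agent.CFT.LC.El

open CategoryTheory groupCohomology Fermat.Agent.CFT.LC

variable {k G G' : Type u} [CommRing k] [Group G] [Group G']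
variable {𝒰 : Levels G} {𝒰' : Levels G'}

section Functoriality

variable {φ : G' →* G} (hφ : Levels.Continuous φ 𝒰' 𝒰)

lemma mapComplex_left {A A' : Rep.{u} k G} {B : Rep.{u} k G'} (α : A ⟶ A')
    (β : Rep.res φ A' ⟶ B) :
    mapComplex (A := A) (B := A') (Levels.continuous_id 𝒰) α ≫
        mapComplex (A := A') (B := B) hφ β =
      mapComplex (A := A) (B := B) hφ ((Rep.resFunctor φ).map α ≫ β) := by
  ext n f : 3
  apply Subtype.ext
  rfl

lemma mapComplex_right {A : Rep.{u} k G} {B B' : Rep.{u} k G'} (ψ : Rep.res φ A ⟶ B)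
    (β : B ⟶ B') :
    mapComplex (A := A) (B := B) hφ ψ ≫
        mapComplex (A := B) (B := B') (Levels.continuous_id 𝒰') β =
      mapComplex (A := A) (B := B') hφ (ψ ≫ β) := by
  ext n f : 3
  apply Subtype.ext
  rfl

/-- `map` after a coefficient map on the big group. -/
lemma mapId_map {A A' : Rep.{u} k G} {B : Rep.{u} k G'} (α : A ⟶ A')
    (β : Rep.res φ A' ⟶ B) (n : ℕ) :
    mapId α n ≫ map (A := A') (B := B) hφ β n =
      map (A := A) (B := B) hφ ((Rep.resFunctor φ).map α ≫ β) n :=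
  (HomologicalComplex.homologyMap_comp _ _ n).symm.trans
    (congrArg (fun f => HomologicalComplex.homologyMap f n) (mapComplex_left hφ α β))

/-- `map` followed by a coefficient map on the small group. -/
lemma map_mapId {A : Rep.{u} k G} {B B' : Rep.{u} k G'} (ψ : Rep.res φ A ⟶ B)
    (β : B ⟶ B') (n : ℕ) :
    map (A := A) (B := B) hφ ψ n ≫ mapId β n = map (A := A) (B := B') hφ (ψ ≫ β) n :=
  (HomologicalComplex.homologyMap_comp _ _ n).symm.trans
    (congrArg (fun f => HomologicalComplex.homologyMap f n) (mapComplex_right hφ ψ β))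

lemma mapId_map_apply {A A' : Rep.{u} k G} {B : Rep.{u} k G'} (α : A ⟶ A')
    (β : Rep.res φ A' ⟶ B) (n : ℕ) (x : H 𝒰 A n) :
    map (A := A') (B := B) hφ β n (mapId α n x) =
      map (A := A) (B := B) hφ ((Rep.resFunctor φ).map α ≫ β) n x := by
  rw [← mapId_map hφ α β n, ConcreteCategory.comp_apply]

lemma map_mapId_apply {A : Rep.{u} k G} {B B' : Rep.{u} k G'} (ψ : Rep.res φ A ⟶ B)
    (β : B ⟶ B') (n : ℕ) (x : H 𝒰 A n) :
    mapId β n (map (A := A) (B := B) hφ ψ n x) = map (A := A) (B := B') hφ (ψ ≫ β) n x := by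
  rw [← map_mapId hφ ψ β n, ConcreteCategory.comp_apply]

lemma mapId_mapId {A A' A'' : Rep.{u} k G} (α : A ⟶ A') (β : A' ⟶ A'') (n : ℕ) :
    mapId (𝒰 := 𝒰) α n ≫ mapId β n = mapId (α ≫ β) n :=
  (HomologicalComplex.homologyMap_comp _ _ n).symm.trans
    (congrArg (fun f => HomologicalComplex.homologyMap f n)
      (((lcFunctor 𝒰).map_comp α β).symm))

lemma mapId_mapId_apply {A A' A'' : Rep.{u} k G} (α : A ⟶ A') (β : A' ⟶ A'') (n : ℕ)
    (x : H 𝒰 A n) : mapId β n (mapId α n x) = mapId (α ≫ β) n x := by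
  rw [← mapId_mapId α β n, ConcreteCategory.comp_apply]

lemma mapId_zero_hom {A A' : Rep.{u} k G} (n : ℕ) : mapId (𝒰 := 𝒰) (0 : A ⟶ A') n = 0 :=
  (congrArg (fun f => HomologicalComplex.homologyMap f n)
    ((lcFunctor 𝒰).map_zero A A')).trans (HomologicalComplex.homologyMap_zero _ _ n)

lemma mapId_one_apply {A : Rep.{u} k G} (n : ℕ) (x : H 𝒰 A n) :
    mapId (𝒰 := 𝒰) (𝟙 A) n x = x := by
  have h : mapId (𝒰 := 𝒰) (𝟙 A) n = 𝟙 _ :=
    (congrArg (fun f => HomologicalComplex.homologyMap f n)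
      ((lcFunctor 𝒰).map_id A)).trans (HomologicalComplex.homologyMap_id _ n)
  rw [h]
  rfl

end Functoriality

section Naturality

variable [𝒰.IsFin] [𝒰'.IsFin] {φ : G' →* G} (hφ : Levels.Continuous φ 𝒰' 𝒰)
variable {X : ShortComplex (Rep.{u} k G)} {X' : ShortComplex (Rep.{u} k G')}

theorem lcδ_map_apply (hX : X.ShortExact) (hsm : IsSmooth 𝒰 X.X₂) (hX' : X'.ShortExact)
    (hsm' : IsSmooth 𝒰' X'.X₂) (τ : X.map (Rep.resFunctor φ) ⟶ X') (i j : ℕ) (hij : i + 1 = j)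
    (x : H 𝒰 X.X₃ i) :
    map (A := X.X₁) (B := X'.X₁) hφ τ.τ₁ j (lcδ hX hsm i j hij x) =
      lcδ hX' hsm' i j hij (map (A := X.X₃) (B := X'.X₃) hφ τ.τ₃ i x) := by
  have h := ConcreteCategory.congr_hom (lcδ_map hφ hX hsm hX' hsm' τ i j hij) x
  rwa [ConcreteCategory.comp_apply, ConcreteCategory.comp_apply] at h

end Naturality

section SameGroup

variable [𝒰.IsFin] {X Y : ShortComplex (Rep.{u} k G)}

theorem lcδ_naturality_apply (hX : X.ShortExact) (hsmX : IsSmooth 𝒰 X.X₂) (hY : Y.ShortExact)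
    (hsmY : IsSmooth 𝒰 Y.X₂) (τ : X ⟶ Y) (i j : ℕ) (hij : i + 1 = j) (x : H 𝒰 X.X₃ i) :
    mapId τ.τ₁ j (lcδ hX hsmX i j hij x) = lcδ hY hsmY i j hij (mapId τ.τ₃ i x) := by
  have h := ConcreteCategory.congr_hom (lcδ_naturality hX hsmX hY hsmY τ i j hij) x
  rwa [ConcreteCategory.comp_apply, ConcreteCategory.comp_apply] at h

end SameGroup

section Exactness

variable [𝒰.IsFin] {X : ShortComplex (Rep.{u} k G)} (hX : X.ShortExact)
  (hsm : IsSmooth 𝒰 X.X₂)

lemma mapId_f_lcδ_apply (i j : ℕ) (hij : i + 1 = j) (x : H 𝒰 X.X₃ i) :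
    mapId X.f j (lcδ hX hsm i j hij x) = 0 := by
  have h := ConcreteCategory.congr_hom ((map_lcFunctor_shortExact hX hsm).δ_comp i j hij) x
  rwa [ConcreteCategory.comp_apply] at h

/-- Exactness at `Hʲ(X₁)`. -/
lemma exists_lcδ_eq (i j : ℕ) (hij : i + 1 = j) (y : H 𝒰 X.X₁ j)
    (hy : mapId X.f j y = 0) : ∃ x : H 𝒰 X.X₃ i, lcδ hX hsm i j hij x = y :=
  (ShortComplex.moduleCat_exact_iff _).1 (exact₁ hX hsm i j hij) y hy

omit [𝒰.IsFin] in
lemma mapId_g_f_apply (i : ℕ) (x : H 𝒰 X.X₁ i) : mapId X.g i (mapId X.f i x) = 0 := by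
  rw [mapId_mapId_apply, X.zero, mapId_zero_hom]
  rfl

include hX hsm in
/-- Exactness at `Hⁱ(X₂)`. -/
lemma exists_mapId_f_eq (i : ℕ) (y : H 𝒰 X.X₂ i) (hy : mapId X.g i y = 0) :
    ∃ x : H 𝒰 X.X₁ i, mapId X.f i x = y :=
  (ShortComplex.moduleCat_exact_iff _).1 (exact₂ hX hsm i) y hy

lemma lcδ_mapId_g_apply (i j : ℕ) (hij : i + 1 = j) (y : H 𝒰 X.X₂ i) :
    lcδ hX hsm i j hij (mapId X.g i y) = 0 := by
  have h := ConcreteCategory.congr_hom ((map_lcFunctor_shortExact hX hsm).comp_δ i j hij) y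
  rwa [ConcreteCategory.comp_apply] at h

/-- Exactness at `Hⁱ(X₃)`. -/
lemma exists_mapId_g_eq (i j : ℕ) (hij : i + 1 = j) (z : H 𝒰 X.X₃ i)
    (hz : lcδ hX hsm i j hij z = 0) : ∃ y : H 𝒰 X.X₂ i, mapId X.g i y = z :=
  (ShortComplex.moduleCat_exact_iff _).1 (exact₃ hX hsm i j hij) z hz

end Exactness

end Fermat.Agent.CFT.LC.El
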