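/-
PROJECT C, LC model (helper28): Shapiro's lemma for level-constant cohomology with Mathlib's
coinduced representation `Rep.coind V.subtype B` for an OPEN subgroup `V`.

For `V` open (of finite index) and `B` a smooth representation of `V`, every `V`-equivariant
function `G → B` is right invariant under some level, so `sInd 𝒰 V B ≅ Rep.coind V.subtype B`,
and `Hⁿ_LC(G, Coind_V^G B) ⟶ Hⁿ_LC(V, B)` (restriction, then evaluation at `1`) is bijective.
-/
import Fermat.Agent.CFT.LC.Shapiro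
import Fermat.Agent.CFT.LC.Naturality
import Fermat.Agent.CFT.A1.ShapiroMap

set_option autoImplicit false

universe u

namespace Fermat.Agent.CFT.LC

open CategoryTheory groupCohomology Limits

variable {k G : Type u} [CommRing k] [Group G]

section

variable (𝒰 : Levels G) (V : Subgroup G) (B : Rep.{u} k V)

/-- The inclusion of the smooth induced module into Mathlib's coinduced representation. -/
noncomputable def sIndToCoindV : sInd 𝒰 V B ⟶ Rep.coind V.subtype B :=
  ConcreteCategory.ofHom (C := Rep.{u} k G)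
    (LinearMap.intertwiningMap_of_isIntertwiningMap
      (ρ := (sInd 𝒰 V B).ρ) (σ := (Rep.coind V.subtype B).ρ)
      (f := { toFun := fun φ => ⟨iFn φ, fun g h => iFn_equivariant φ g h⟩
              map_add' := fun _ _ => rfl
              map_smul' := fun _ _ => rfl })
      (fun _ _ => rfl))

lemma sIndToCoindV_apply (φ : sInd 𝒰 V B) (x : G) :
    ((sIndToCoindV 𝒰 V B).hom φ).1 x = iFn φ x := rfl

variable {𝒰 V B}

/-- For `V` open and `B` smooth, every `V`-equivariant function `G → B` is right invariant under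
some level. -/
lemma exists_level_of_equivariant [𝒰.IsFin] (hV : 𝒰.IsOpen V) (hB : IsSmooth (𝒰.restrict V) B)
    (f : G → B) (hf : ∀ (v : V) (x : G), f (v * x) = B.ρ v (f x)) :
    ∃ U ∈ 𝒰.sets, ∀ x, ∀ s ∈ U, f (x * s) = f x := by
  classical
  have hVfin := hV.finiteIndex
  have : Fintype (G ⧸ V) := Subgroup.fintypeQuotientOfFiniteIndex
  let S : Finset B := Finset.univ.image fun q : G ⧸ V => f (q.out)⁻¹
  choose W hW hWfix using hB
  obtain ⟨W', hW', hW'le⟩ := (𝒰.restrict V).exists_le_finset S W fun b _ => hW b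
  obtain ⟨W₀, hW₀, rfl⟩ := hW'
  obtain ⟨U', hU', hU'W, hU'V⟩ := hV.exists_le hW₀
  have hU'n := 𝒰.normal U' hU'
  refine ⟨U', hU', fun x s hs => ?_⟩
  -- write `x = v * t⁻¹` with `t` a coset representative
  set t : G := (QuotientGroup.mk x⁻¹ : G ⧸ V).out with ht
  have hv : x * t ∈ V := by
    have h1 : (QuotientGroup.mk t : G ⧸ V) = QuotientGroup.mk x⁻¹ := QuotientGroup.out_eq' _
    rw [eq_comm, QuotientGroup.eq, inv_inv] at h1
    exact h1
  have hb : f t⁻¹ ∈ S := Finset.mem_image.2 ⟨_, Finset.mem_univ _, rfl⟩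
  -- conjugates of `s` stay in `U'`
  have hc1 : x * s * x⁻¹ ∈ U' := Subgroup.Normal.conj_mem hU'n _ hs x
  have hc2 : (x * t)⁻¹ * (x * s * x⁻¹) * (x * t) ∈ U' := by
    have := Subgroup.Normal.conj_mem hU'n _ hc1 (x * t)⁻¹
    simpa using this
  obtain ⟨v, hvdef⟩ : ∃ v : V, (v : G) = x * t := ⟨⟨x * t, hv⟩, rfl⟩
  obtain ⟨c, hcdef⟩ : ∃ c : V, (c : G) = x * s * x⁻¹ := ⟨⟨x * s * x⁻¹, hU'V hc1⟩, rfl⟩
  obtain ⟨w, hwdef⟩ : ∃ w : V, (w : G) = (x * t)⁻¹ * (x * s * x⁻¹) * (x * t) :=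
    ⟨⟨_, hU'V hc2⟩, rfl⟩
  have hfix : B.ρ w (f t⁻¹) = f t⁻¹ := by
    refine hWfix _ _ (hW'le _ hb ?_)
    change (w : G) ∈ W₀
    rw [hwdef]
    exact hU'W hc2
  have hfx : f x = B.ρ v (f t⁻¹) := by
    rw [← hf, hvdef]
    congr 1
    group
  have hfxs : f (x * s) = B.ρ c (f x) := by
    rw [← hf, hcdef]
    congr 1
    group
  have e2 : c * v = v * w := by
    apply Subtype.ext
    rw [Subgroup.coe_mul, Subgroup.coe_mul, hcdef, hvdef, hwdef]
    group
  rw [hfxs, hfx, ← Module.End.mul_apply, ← map_mul, e2, map_mul, Module.End.mul_apply, hfix]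

variable (𝒰 V B)

/-- For `V` open and `B` smooth, Mathlib's coinduced representation maps to the smooth induced
module. -/
noncomputable def coindVToSInd [𝒰.IsFin] (hV : 𝒰.IsOpen V) (hB : IsSmooth (𝒰.restrict V) B) :
    Rep.coind V.subtype B ⟶ sInd 𝒰 V B :=
  ConcreteCategory.ofHom (C := Rep.{u} k G)
    (LinearMap.intertwiningMap_of_isIntertwiningMap
      (ρ := (Rep.coind V.subtype B).ρ) (σ := (sInd 𝒰 V B).ρ)
      (f := { toFun := fun f => iMk f.1 (fun v x => f.2 v x)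
                (exists_level_of_equivariant hV hB f.1 fun v x => f.2 v x)
              map_add' := fun _ _ => rfl
              map_smul' := fun _ _ => rfl })
      (fun _ _ => rfl))

/-- `sInd 𝒰 V B ≅ Coind_V^G B` for `V` open and `B` smooth. -/
noncomputable def sIndCoindIso [𝒰.IsFin] (hV : 𝒰.IsOpen V) (hB : IsSmooth (𝒰.restrict V) B) :
    sInd 𝒰 V B ≅ Rep.coind V.subtype B where
  hom := sIndToCoindV 𝒰 V B
  inv := coindVToSInd 𝒰 V B hV hB
  hom_inv_id := by
    ext φ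
    rfl
  inv_hom_id := by
    ext f
    rfl

/-- Mathlib's coinduced representation from an open subgroup is smooth. -/
lemma isSmooth_coind [𝒰.IsFin] (hV : 𝒰.IsOpen V) (hB : IsSmooth (𝒰.restrict V) B) :
    IsSmooth 𝒰 (Rep.coind V.subtype B) :=
  (isSmooth_sInd 𝒰 V B).of_surjective (sIndToCoindV 𝒰 V B) fun f =>
    ⟨(coindVToSInd 𝒰 V B hV hB).hom f, rfl⟩

/-- The Shapiro map for Mathlib's coinduced representation: restriction to `V`, then evaluation
at `1`. -/
noncomputable def shCoind (n : ℕ) :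
    H 𝒰 (Rep.coind V.subtype B) n ⟶ H (𝒰.restrict V) B n :=
  map (A := Rep.coind V.subtype B) (B := B) (Levels.continuous_comap V.subtype 𝒰)
    (A1.ShapiroMap.ev1 V B) n

lemma mapId_sIndToCoindV_shCoind (n : ℕ) :
    mapId (sIndToCoindV 𝒰 V B) n ≫ shCoind 𝒰 V B n = sh 𝒰 V B n := by
  have h := map_naturality (Levels.continuous_comap V.subtype 𝒰) (sIndToCoindV 𝒰 V B) (𝟙 B)
    (sIndEv 𝒰 V B) (A1.ShapiroMap.ev1 V B) (by
      ext φ
      rfl) n
  rw [mapId_id, Category.comp_id] at h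
  exact h

/-- **Shapiro's lemma for an open subgroup**, in terms of Mathlib's coinduced representation. -/
theorem shCoind_bijective [𝒰.IsFin] (hV : 𝒰.IsOpen V) (hB : IsSmooth (𝒰.restrict V) B) (n : ℕ) :
    Function.Bijective (shCoind 𝒰 V B n) := by
  have h1 := sh_bijective 𝒰 V n B hB
  have hih : coindVToSInd 𝒰 V B hV hB ≫ sIndToCoindV 𝒰 V B = 𝟙 _ :=
    (sIndCoindIso 𝒰 V B hV hB).inv_hom_id
  have hhi : sIndToCoindV 𝒰 V B ≫ coindVToSInd 𝒰 V B hV hB = 𝟙 _ :=
    (sIndCoindIso 𝒰 V B hV hB).hom_inv_id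
  have h2 : mapId (coindVToSInd 𝒰 V B hV hB) n ≫ sh 𝒰 V B n = shCoind 𝒰 V B n := by
    rw [← mapId_sIndToCoindV_shCoind, ← Category.assoc, ← mapId_comp, hih, mapId_id,
      Category.id_comp]
  have h3 : Function.Bijective (mapId (𝒰 := 𝒰) (coindVToSInd 𝒰 V B hV hB) n) := by
    have hI : IsIso (mapId (𝒰 := 𝒰) (coindVToSInd 𝒰 V B hV hB) n) :=
      ⟨mapId (sIndToCoindV 𝒰 V B) n, by
        rw [← mapId_comp, hih, mapId_id], by
        rw [← mapId_comp, hhi, mapId_id]⟩
    exact (ConcreteCategory.isIso_iff_bijective _).1 hI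
  rw [← h2]
  exact h1.comp h3

/-- Shapiro's lemma for an open subgroup as an isomorphism. -/
noncomputable def shCoindIso [𝒰.IsFin] (hV : 𝒰.IsOpen V) (hB : IsSmooth (𝒰.restrict V) B)
    (n : ℕ) : H 𝒰 (Rep.coind V.subtype B) n ≅ H (𝒰.restrict V) B n :=
  haveI : IsIso (shCoind 𝒰 V B n) :=
    (ConcreteCategory.isIso_iff_bijective _).2 (shCoind_bijective 𝒰 V B hV hB n)
  asIso (shCoind 𝒰 V B n)

/-- Vanishing transfer: `Hⁿ_LC(V, B) = 0 ⇒ Hⁿ_LC(G, Coind_V^G B) = 0`. -/
lemma isZero_H_coind [𝒰.IsFin] (hV : 𝒰.IsOpen V) (hB : IsSmooth (𝒰.restrict V) B) (n : ℕ)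
    (h : IsZero (H (𝒰.restrict V) B n)) : IsZero (H 𝒰 (Rep.coind V.subtype B) n) :=
  h.of_iso (shCoindIso 𝒰 V B hV hB n)

/-- Vanishing transfer for the smooth induced module of an arbitrary subgroup. -/
lemma isZero_H_sInd [𝒰.IsFin] (hB : IsSmooth (𝒰.restrict V) B) (n : ℕ)
    (h : IsZero (H (𝒰.restrict V) B n)) : IsZero (H 𝒰 (sInd 𝒰 V B) n) :=
  h.of_iso (shIso 𝒰 V n B hB)

end

end Fermat.Agent.CFT.LC
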