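/-
PROJECT C, LC model (helper28): level-constant cohomology of `Hom(P, X)` for a PERMUTATION
LATTICE `P` (a representation with a `k`-basis permuted by `G`, finitely many basis vectors, open
stabilisers), e.g. `P = ℤ[G/U₀]^(A)`.

`Hom(P, X)` is a finite direct sum of coinduced representations `Coind_{Stab i}^G (Res X)`, one for
each orbit; hence its level-constant cohomology vanishes in degree `n` as soon as
`Hⁿ_LC(Stab i, X) = 0` for all `i` (Shapiro).
-/
import Fermat.Agent.CFT.LC.ShapiroCoind

set_option autoImplicit false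

universe u

namespace Fermat.Agent.CFT.LC

open CategoryTheory groupCohomology Limits MulAction

variable {k G : Type u} [CommRing k] [Group G]

section MapIdSum

variable {𝒰 : Levels G}

lemma mapId_eq_functor_map {A B : Rep.{u} k G} (ψ : A ⟶ B) (n : ℕ) :
    mapId (𝒰 := 𝒰) ψ n =
      (lcFunctor 𝒰 ⋙ HomologicalComplex.homologyFunctor (ModuleCat k) _ n).map ψ := rfl

lemma mapId_zero (A B : Rep.{u} k G) (n : ℕ) : mapId (𝒰 := 𝒰) (0 : A ⟶ B) n = 0 := by
  rw [mapId_eq_functor_map, Functor.map_zero]
  rfl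

lemma mapId_sum {σ : Type*} (s : Finset σ) {A B : Rep.{u} k G} (ψ : σ → (A ⟶ B)) (n : ℕ) :
    mapId (𝒰 := 𝒰) (∑ i ∈ s, ψ i) n = ∑ i ∈ s, mapId (ψ i) n := by
  rw [mapId_eq_functor_map, Functor.map_sum]
  rfl

end MapIdSum

section Perm

variable {ι : Type*} [MulAction G ι] (P X : Rep.{u} k G) (b : Module.Basis ι k P)
  (hperm : ∀ g i, P.ρ g (b i) = b (g • i))

variable {P X} in
/-- The elements of `Hom(P, X)` as linear maps. -/
def hLin (f : ((Rep.ihom P).obj X : Rep.{u} k G)) : P →ₗ[k] X := f

omit [MulAction G ι] in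
variable {P X} in
lemma hLin_ext {f f' : ((Rep.ihom P).obj X : Rep.{u} k G)} (h : ∀ i, hLin f (b i) = hLin f' (b i)) :
    f = f' := b.ext h

/-- Evaluation at the basis vector `b i₀`, a morphism of representations of the stabiliser. -/
noncomputable def evBasis (i₀ : ι) :
    Rep.res (stabilizer G i₀).subtype ((Rep.ihom P).obj X) ⟶
      Rep.res (stabilizer G i₀).subtype X :=
  ConcreteCategory.ofHom (C := Rep.{u} k (stabilizer G i₀))
    (LinearMap.intertwiningMap_of_isIntertwiningMap
      (ρ := (Rep.res (stabilizer G i₀).subtype ((Rep.ihom P).obj X)).ρ)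
      (σ := (Rep.res (stabilizer G i₀).subtype X).ρ)
      (f := { toFun := fun (f : P →ₗ[k] X) => f (b i₀)
              map_add' := fun _ _ => rfl
              map_smul' := fun _ _ => rfl })
      (fun v (f : P →ₗ[k] X) => by
        change X.ρ (v : G) (f (P.ρ (v : G)⁻¹ (b i₀))) = X.ρ (v : G) (f (b i₀))
        have hv : (v : G)⁻¹ • i₀ = i₀ := by
          have := (stabilizer G i₀).inv_mem v.2
          exact this
        rw [hperm, hv]))

/-- The projection of `Hom(P, X)` onto the coinduced module attached to the orbit of `i₀`. -/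
noncomputable def permProj (i₀ : ι) :
    (Rep.ihom P).obj X ⟶
      Rep.coind (stabilizer G i₀).subtype (Rep.res (stabilizer G i₀).subtype X) :=
  Rep.resCoindToHom (stabilizer G i₀).subtype ((Rep.ihom P).obj X)
    (Rep.res (stabilizer G i₀).subtype X) (evBasis P X b hperm i₀)

lemma permProj_apply (i₀ : ι) (f : ((Rep.ihom P).obj X : Rep.{u} k G)) (x : G) :
    ((permProj P X b hperm i₀).hom f).1 x = X.ρ x (hLin f (b (x⁻¹ • i₀))) := by
  change X.ρ x (hLin f (P.ρ x⁻¹ (b i₀))) = _
  rw [hperm]

variable {X} in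
/-- The value at the basis vector `b i` of the extension by zero of a coinduced function attached
to the orbit of `i₀`. -/
noncomputable def permVal (i₀ : ι)
    (φ : Rep.coind (stabilizer G i₀).subtype (Rep.res (stabilizer G i₀).subtype X)) (i : ι) : X :=
  open Classical in
  if h : ∃ y : G, y • i₀ = i then X.ρ h.choose (φ.1 h.choose⁻¹) else 0

variable {X} in
lemma permVal_eq (i₀ : ι)
    (φ : Rep.coind (stabilizer G i₀).subtype (Rep.res (stabilizer G i₀).subtype X)) {i : ι}
    (y : G) (hy : y • i₀ = i) : permVal i₀ φ i = X.ρ y (φ.1 y⁻¹) := by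
  have h : ∃ y : G, y • i₀ = i := ⟨y, hy⟩
  rw [permVal, dif_pos h]
  set y' := h.choose with hy'
  have hy'' : y' • i₀ = i := h.choose_spec
  -- `v := y⁻¹ y'` stabilises `i₀`
  have hv : y⁻¹ * y' ∈ stabilizer G i₀ := by
    rw [mem_stabilizer_iff, mul_smul, hy'', ← hy, inv_smul_smul]
  have e1 : y'⁻¹ = (((⟨y⁻¹ * y', hv⟩ : stabilizer G i₀)⁻¹ : stabilizer G i₀) : G) * y⁻¹ := by
    simp
  have e2 := φ.2 (⟨y⁻¹ * y', hv⟩ : stabilizer G i₀)⁻¹ y⁻¹
  have e3 : φ.1 y'⁻¹ = X.ρ (y⁻¹ * y')⁻¹ (φ.1 y⁻¹) := by
    rw [e1]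
    exact e2
  rw [e3, ← Module.End.mul_apply, ← map_mul]
  congr 2
  group

variable {X} in
lemma permVal_of_not_mem (i₀ : ι)
    (φ : Rep.coind (stabilizer G i₀).subtype (Rep.res (stabilizer G i₀).subtype X)) {i : ι}
    (h : ¬ ∃ y : G, y • i₀ = i) : permVal i₀ φ i = 0 := by
  rw [permVal, dif_neg h]

/-- The linear map underlying `permIncl`. -/
noncomputable def permInclLin (i₀ : ι) :
    (Rep.coind (stabilizer G i₀).subtype (Rep.res (stabilizer G i₀).subtype X)) →ₗ[k]
      (P →ₗ[k] X) where
  toFun φ := b.constr k (permVal i₀ φ)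
  map_add' φ φ' := by
    refine b.ext fun i => ?_
    rw [LinearMap.add_apply, Module.Basis.constr_basis, Module.Basis.constr_basis,
      Module.Basis.constr_basis]
    by_cases h : ∃ y : G, y • i₀ = i
    · obtain ⟨y, hy⟩ := h
      rw [permVal_eq i₀ _ y hy, permVal_eq i₀ _ y hy, permVal_eq i₀ _ y hy, ← map_add]
      rfl
    · rw [permVal_of_not_mem i₀ _ h, permVal_of_not_mem i₀ _ h,
        permVal_of_not_mem i₀ _ h, add_zero]
  map_smul' c φ := by
    refine b.ext fun i => ?_
    rw [LinearMap.smul_apply, Module.Basis.constr_basis, Module.Basis.constr_basis]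
    by_cases h : ∃ y : G, y • i₀ = i
    · obtain ⟨y, hy⟩ := h
      rw [permVal_eq i₀ _ y hy, permVal_eq i₀ _ y hy, RingHom.id_apply, ← map_smul]
      rfl
    · rw [permVal_of_not_mem i₀ _ h, permVal_of_not_mem i₀ _ h, smul_zero]

lemma permInclLin_apply_basis (i₀ : ι)
    (φ : Rep.coind (stabilizer G i₀).subtype (Rep.res (stabilizer G i₀).subtype X)) (i : ι) :
    permInclLin P X b i₀ φ (b i) = permVal i₀ φ i :=
  Module.Basis.constr_basis b k _ i

/-- Extension by zero: from the coinduced module attached to the orbit of `i₀` to `Hom(P, X)`. -/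
noncomputable def permIncl (i₀ : ι) :
    Rep.coind (stabilizer G i₀).subtype (Rep.res (stabilizer G i₀).subtype X) ⟶
      (Rep.ihom P).obj X :=
  ConcreteCategory.ofHom (C := Rep.{u} k G)
    (LinearMap.intertwiningMap_of_isIntertwiningMap
      (ρ := (Rep.coind (stabilizer G i₀).subtype (Rep.res (stabilizer G i₀).subtype X)).ρ)
      (σ := ((Rep.ihom P).obj X).ρ)
      (f := permInclLin P X b i₀)
      (fun g φ => by
        refine b.ext fun i => ?_
        change permInclLin P X b i₀ _ (b i) =
          X.ρ g (permInclLin P X b i₀ φ (P.ρ g⁻¹ (b i)))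
        rw [hperm, permInclLin_apply_basis, permInclLin_apply_basis]
        by_cases h : ∃ y : G, y • i₀ = i
        · obtain ⟨y, hy⟩ := h
          have hy' : (g⁻¹ * y) • i₀ = g⁻¹ • i := by rw [mul_smul, hy]
          rw [permVal_eq i₀ _ y hy, permVal_eq i₀ _ (g⁻¹ * y) hy', ← Module.End.mul_apply,
            ← map_mul]
          have e : g * (g⁻¹ * y) = y := by group
          have e' : (g⁻¹ * y)⁻¹ = y⁻¹ * g := by group
          rw [e, e']
          rfl
        · have h' : ¬ ∃ y : G, y • i₀ = g⁻¹ • i := by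
            rintro ⟨y, hy⟩
            exact h ⟨g * y, by rw [mul_smul, hy, smul_inv_smul]⟩
          rw [permVal_of_not_mem i₀ _ h, permVal_of_not_mem i₀ _ h', map_zero]))

lemma permIncl_apply_basis (i₀ : ι)
    (φ : Rep.coind (stabilizer G i₀).subtype (Rep.res (stabilizer G i₀).subtype X)) (i : ι) :
    hLin ((permIncl P X b hperm i₀).hom φ) (b i) = permVal i₀ φ i :=
  Module.Basis.constr_basis b k _ i

/-- `permIncl ∘ permProj` is the projection onto the functions supported on the orbit of `i₀`. -/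
lemma permProj_permIncl_apply_basis (i₀ : ι) (f : ((Rep.ihom P).obj X : Rep.{u} k G)) (i : ι) :
    hLin ((permProj P X b hperm i₀ ≫ permIncl P X b hperm i₀).hom f) (b i) =
      open Classical in if ∃ y : G, y • i₀ = i then hLin f (b i) else 0 := by
  change hLin ((permIncl P X b hperm i₀).hom ((permProj P X b hperm i₀).hom f)) (b i) = _
  rw [permIncl_apply_basis]
  by_cases h : ∃ y : G, y • i₀ = i
  · rw [if_pos h]
    obtain ⟨y, hy⟩ := h
    rw [permVal_eq i₀ _ y hy, permProj_apply, inv_inv, hy, ← Module.End.mul_apply, ← map_mul,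
      mul_inv_cancel, map_one, Module.End.one_apply]
  · rw [if_neg h, permVal_of_not_mem i₀ _ h]

end Perm

section Vanishing

variable {ι : Type*} [MulAction G ι] [Finite ι] (P X : Rep.{u} k G)
  (b : Module.Basis ι k P) (hperm : ∀ g i, P.ρ g (b i) = b (g • i))

/-- Evaluation of an element of `Hom(P, X)` at a vector, as a linear map. -/
def hEval (p : P) : ((Rep.ihom P).obj X : Rep.{u} k G) →ₗ[k] X where
  toFun f := hLin f p
  map_add' _ _ := rfl
  map_smul' _ _ := rfl

omit [Finite ι] in
/-- The identity of `Hom(P, X)` is the sum over the orbits of the projections. -/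
lemma sum_permProj_permIncl [Fintype (orbitRel.Quotient G ι)] :
    ∑ o : orbitRel.Quotient G ι,
      permProj P X b hperm o.out ≫ permIncl P X b hperm o.out = 𝟙 ((Rep.ihom P).obj X) := by
  classical
  ext f
  have hsum : (∑ o : orbitRel.Quotient G ι,
      permProj P X b hperm o.out ≫ permIncl P X b hperm o.out).hom f =
      ∑ o : orbitRel.Quotient G ι,
        (permProj P X b hperm o.out ≫ permIncl P X b hperm o.out).hom f := by
    rw [Rep.sum_hom]
    exact Representation.IntertwiningMap.sum_apply (s := Finset.univ)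
      (f := fun o : orbitRel.Quotient G ι =>
        (permProj P X b hperm o.out ≫ permIncl P X b hperm o.out).hom) (v := f)
  refine hsum.trans ?_
  refine hLin_ext b fun i => ?_
  change hEval P X (b i) (∑ o : orbitRel.Quotient G ι,
    (permProj P X b hperm o.out ≫ permIncl P X b hperm o.out).hom f) = hLin f (b i)
  rw [map_sum]
  have h1 : ∀ o : orbitRel.Quotient G ι,
      hEval P X (b i) ((permProj P X b hperm o.out ≫ permIncl P X b hperm o.out).hom f) =
        if o = Quotient.mk (orbitRel G ι) i then hLin f (b i) else 0 := by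
    intro o
    have e : hEval P X (b i)
        ((permProj P X b hperm o.out ≫ permIncl P X b hperm o.out).hom f) =
        hLin ((permProj P X b hperm o.out ≫ permIncl P X b hperm o.out).hom f) (b i) := rfl
    rw [e, permProj_permIncl_apply_basis]
    have hiff : (∃ y : G, y • o.out = i) ↔ o = Quotient.mk (orbitRel G ι) i := by
      constructor
      · rintro ⟨y, hy⟩
        rw [← Quotient.out_eq o]
        apply Quotient.sound
        change (orbitRel G ι) o.out i
        rw [orbitRel_apply, ← hy]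
        exact ⟨y⁻¹, by simp⟩
      · rintro rfl
        have h2 : (orbitRel G ι) (Quotient.mk (orbitRel G ι) i).out i :=
          Quotient.mk_out (s := orbitRel G ι) i
        rw [orbitRel_apply] at h2
        obtain ⟨y, hy⟩ := h2
        exact ⟨y⁻¹, by rw [← hy]; simp⟩
    simp only [hiff]
  rw [Finset.sum_congr rfl fun o _ => h1 o, Finset.sum_ite_eq' Finset.univ]
  simp

variable (𝒰 : Levels G) [𝒰.IsFin]

include b hperm in
/-- **Vanishing of the level-constant cohomology of `Hom(P, X)` for a permutation lattice `P`**: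
if `P` has a finite `k`-basis permuted by `G` with open stabilisers, `X` is smooth and
`Hⁿ_LC(Stab i, X) = 0` for all `i`, then `Hⁿ_LC(G, Hom(P, X)) = 0`. -/
theorem isZero_H_ihom_of_perm (hX : IsSmooth 𝒰 X) (hopen : ∀ i : ι, 𝒰.IsOpen (stabilizer G i))
    (n : ℕ)
    (h : ∀ i : ι, IsZero (H (𝒰.restrict (stabilizer G i)) (Rep.res (stabilizer G i).subtype X) n)) :
    IsZero (H 𝒰 ((Rep.ihom P).obj X) n) := by
  classical
  have : Fintype (orbitRel.Quotient G ι) := Fintype.ofFinite _
  rw [IsZero.iff_id_eq_zero, ← mapId_id, ← sum_permProj_permIncl P X b hperm, mapId_sum]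
  refine Finset.sum_eq_zero fun o _ => ?_
  rw [mapId_comp]
  have hz : IsZero (H 𝒰 (Rep.coind (stabilizer G o.out).subtype
      (Rep.res (stabilizer G o.out).subtype X)) n) :=
    isZero_H_coind 𝒰 _ _ (hopen o.out) (hX.res _) n (h o.out)
  rw [hz.eq_of_tgt (mapId (permProj P X b hperm o.out) n) 0, zero_comp]

include b hperm in
/-- Variant of `isZero_H_ihom_of_perm` when all stabilisers are equal to one open subgroup `U₀`
(e.g. `P = k[G/U₀]^(A)` with `U₀` normal). -/
theorem isZero_H_ihom_of_perm' (hX : IsSmooth 𝒰 X) (U₀ : Subgroup G)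
    (hstab : ∀ i : ι, stabilizer G i = U₀) (hU₀ : 𝒰.IsOpen U₀) (n : ℕ)
    (h : IsZero (H (𝒰.restrict U₀) (Rep.res U₀.subtype X) n)) :
    IsZero (H 𝒰 ((Rep.ihom P).obj X) n) := by
  refine isZero_H_ihom_of_perm P X b hperm 𝒰 hX (fun i => ?_) n (fun i => ?_)
  · rw [hstab i]; exact hU₀
  · rw [hstab i]; exact h

end Vanishing

end Fermat.Agent.CFT.LC
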