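/-
PROJECT C, LC-side of slice A1 (helper28): CORESTRICTION from an open subgroup on
level-constant cohomology.  helper10's transfer formula (`CFT/A1/Cores.lean`) preserves level
constancy at every normal level contained in the subgroup.
-/
import Fermat.Agent.CFT.LC.Restrict
import Fermat.Agent.CFT.A1.Cores

set_option autoImplicit false

universe u

namespace Fermat.Agent.CFT.LC

open CategoryTheory groupCohomology

variable {k G : Type u} [CommRing k] [Group G]

section Tuples

variable {U V : Subgroup G}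

/-- A normal subgroup contained in `V` acts trivially on `G ⧸ V`. -/
lemma smul_quotient_eq_of_mem [U.Normal] (hUV : U ≤ V) {w : G} (hw : w ∈ U) (q : G ⧸ V) :
    w • q = q := by
  induction q using QuotientGroup.induction_on with
  | H x =>
    change ((w * x : G) : G ⧸ V) = (x : G ⧸ V)
    rw [QuotientGroup.eq]
    apply hUV
    have h := Subgroup.Normal.conj_mem (inferInstance : U.Normal) _ (U.inv_mem hw) x⁻¹
    have e : (w * x)⁻¹ * x = x⁻¹ * w⁻¹ * x⁻¹⁻¹ := by group
    rw [e]
    exact h

/-- Partial products of `g * u` differ from those of `g` by an element of the normal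
subgroup `U`. -/
lemma partialProd_mul_mem [U.Normal] {n : ℕ} (g u : Fin n → G) (hu : ∀ i, u i ∈ U)
    (i : Fin (n + 1)) : (Fin.partialProd g i)⁻¹ * Fin.partialProd (g * u) i ∈ U := by
  induction i using Fin.induction with
  | zero => simp
  | succ i ih =>
    rw [Fin.partialProd_succ, Fin.partialProd_succ, Pi.mul_apply]
    have h1 := Subgroup.Normal.conj_mem (inferInstance : U.Normal) _ ih (g i)⁻¹
    have e : (Fin.partialProd g i.castSucc * g i)⁻¹ *
        (Fin.partialProd (g * u) i.castSucc * (g i * u i)) =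
        ((g i)⁻¹ * ((Fin.partialProd g i.castSucc)⁻¹ * Fin.partialProd (g * u) i.castSucc) *
          (g i)⁻¹⁻¹) * u i := by group
    rw [e]
    exact U.mul_mem h1 (hu i)

/-- The vertex sequence of helper10's transfer formula only depends on `g` modulo `U`. -/
lemma vtx_mul [U.Normal] (hUV : U ≤ V) {n : ℕ} (g u : Fin n → G) (hu : ∀ i, u i ∈ U)
    (q : G ⧸ V) : A1.vtx V (g * u) q = A1.vtx V g q := by
  funext i
  simp only [A1.vtx]
  congr 1
  have h := partialProd_mul_mem g u hu i
  have e : (Fin.partialProd (g * u) i)⁻¹ =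
      ((Fin.partialProd g i)⁻¹ * Fin.partialProd (g * u) i)⁻¹ * (Fin.partialProd g i)⁻¹ := by
    group
  rw [e, mul_smul, smul_quotient_eq_of_mem hUV (U.inv_mem h)]

/-- The twisted tuple of `g * u` is the twisted tuple of `g` times a tuple in `U`. -/
lemma twist_mul [U.Normal] (hUV : U ≤ V) {n : ℕ} (g u : Fin n → G) (hu : ∀ i, u i ∈ U)
    (q : G ⧸ V) :
    ∃ u' : Fin n → V, (∀ i, u' i ∈ U.subgroupOf V) ∧
      A1.twist V (g * u) q = A1.twist V g q * u' := by
  have hconj : ∀ i : Fin n, (A1.vtx V g q i.succ)⁻¹ * u i * A1.vtx V g q i.succ ∈ U := fun i => by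
    have h := Subgroup.Normal.conj_mem (inferInstance : U.Normal) _ (hu i)
      (A1.vtx V g q i.succ)⁻¹
    simpa using h
  refine ⟨fun i => ⟨(A1.vtx V g q i.succ)⁻¹ * u i * A1.vtx V g q i.succ, hUV (hconj i)⟩,
    fun i => ?_, ?_⟩
  · rw [Subgroup.mem_subgroupOf]
    exact hconj i
  · funext i
    apply Subtype.ext
    simp only [A1.twist, Pi.mul_apply, Subgroup.coe_mul]
    rw [vtx_mul hUV g u hu q]
    simp only [A1.conjTuple, Pi.mul_apply]
    group

end Tuples

section Cochains

variable {V : Subgroup G} [V.FiniteIndex] {A : Rep.{u} k G}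

attribute [local instance] Subgroup.fintypeQuotientOfFiniteIndex

/-- helper10's transfer formula preserves level constancy at every normal subgroup `U ≤ V`. -/
lemma IsLCAt.coresFun {U : Subgroup G} [U.Normal] (hUV : U ≤ V) {n : ℕ}
    {f : (Fin n → V) → (Rep.res V.subtype A)}
    (hf : IsLCAt (U.subgroupOf V) (Rep.res V.subtype A) f) :
    IsLCAt U A (A1.coresFun V A n f) := by
  refine ⟨fun g u hu => ?_, fun g s hs => ?_⟩
  · rw [A1.coresFun_apply, A1.coresFun_apply]
    refine Finset.sum_congr rfl fun q _ => ?_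
    obtain ⟨u', hu', h⟩ := twist_mul hUV g u hu q
    rw [h, hf.1 _ _ hu']
  · rw [A1.coresFun_apply, map_sum]
    refine Finset.sum_congr rfl fun q _ => ?_
    have hconj : (Quotient.out q)⁻¹ * s * Quotient.out q ∈ U := by
      have h := Subgroup.Normal.conj_mem (inferInstance : U.Normal) _ hs (Quotient.out q)⁻¹
      simpa using h
    have h2 := hf.2 (A1.twist V g q) ⟨(Quotient.out q)⁻¹ * s * Quotient.out q, hUV hconj⟩
      (by rw [Subgroup.mem_subgroupOf]; exact hconj)
    have h3 : A.ρ ((Quotient.out q)⁻¹ * s * Quotient.out q) (f (A1.twist V g q)) =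
        f (A1.twist V g q) := h2
    have e : s * Quotient.out q = Quotient.out q * ((Quotient.out q)⁻¹ * s * Quotient.out q) := by
      group
    rw [← Module.End.mul_apply, ← map_mul, e, map_mul, Module.End.mul_apply, h3]

variable {𝒰 : Levels G}

lemma IsLC.coresFun (hV : 𝒰.IsOpen V) {n : ℕ} {f : (Fin n → V) → (Rep.res V.subtype A)}
    (hf : IsLC (𝒰.restrict V) (Rep.res V.subtype A) f) : IsLC 𝒰 A (A1.coresFun V A n f) := by
  obtain ⟨_, ⟨U, hU, rfl⟩, hfU⟩ := hf
  obtain ⟨W, hW, hWU, hWV⟩ := hV.exists_le hU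
  have := 𝒰.normal W hW
  refine ⟨W, hW, IsLCAt.coresFun hWV (hfU.mono ?_)⟩
  exact Subgroup.comap_mono hWU

variable (A)

/-- Corestriction on level-constant cochains. -/
noncomputable def coresLC (hV : 𝒰.IsOpen V) (n : ℕ) :
    cochains (𝒰.restrict V) (Rep.res V.subtype A) n →ₗ[k] cochains 𝒰 A n :=
  (A1.coresFun V A n).restrict fun _ hf => IsLC.coresFun hV hf

@[simp] lemma coresLC_coe (hV : 𝒰.IsOpen V) (n : ℕ)
    (f : cochains (𝒰.restrict V) (Rep.res V.subtype A) n) :
    ((coresLC A hV n f : cochains 𝒰 A n) : (Fin n → G) → A) = A1.coresFun V A n f.1 := rfl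

lemma coresLC_apply (hV : 𝒰.IsOpen V) (n : ℕ)
    (f : cochains (𝒰.restrict V) (Rep.res V.subtype A) n) (g : Fin n → G) :
    (coresLC A hV n f : cochains 𝒰 A n).1 g =
      ∑ q : G ⧸ V, A.ρ (Quotient.out q) (f.1 (A1.twist V g q)) := rfl

/-- Corestriction as a morphism of complexes of level-constant cochains. -/
noncomputable def coresComplex (hV : 𝒰.IsOpen V) :
    complex (𝒰.restrict V) (Rep.res V.subtype A) ⟶ complex 𝒰 A where
  f n := ModuleCat.ofHom (coresLC A hV n)
  comm' i j (hij : _ = _) := by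
    subst hij
    ext f : 2
    apply Subtype.ext
    simp only [CochainComplex.of_d]
    exact (A1.coresFun_d V A i f.1).symm

/-- **Corestriction** `Hⁿ_LC(V, A) ⟶ Hⁿ_LC(G, A)` for an open subgroup `V` of finite index. -/
noncomputable def cores (hV : 𝒰.IsOpen V) (n : ℕ) :
    H (𝒰.restrict V) (Rep.res V.subtype A) n ⟶ H 𝒰 A n :=
  HomologicalComplex.homologyMap (coresComplex A hV) n

lemma coresComplex_ι (hV : 𝒰.IsOpen V) :
    coresComplex A hV ≫ ι 𝒰 A =
      ι (𝒰.restrict V) (Rep.res V.subtype A) ≫ A1.coresCochains V A := by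
  ext n f : 3
  rfl

/-- Compatibility with helper10's corestriction on abstract group cohomology. -/
lemma cores_toAbstract (hV : 𝒰.IsOpen V) (n : ℕ) :
    cores A hV n ≫ toAbstract 𝒰 A n =
      toAbstract (𝒰.restrict V) (Rep.res V.subtype A) n ≫ A1.cores V A n := by
  exact (HomologicalComplex.homologyMap_comp _ _ n).symm.trans
    ((congrArg (fun f => HomologicalComplex.homologyMap f n) (coresComplex_ι A hV)).trans
      (HomologicalComplex.homologyMap_comp _ _ n))

lemma coresLC_mem_cocycles (hV : 𝒰.IsOpen V) (n : ℕ)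
    (z : cocyclesLC (𝒰.restrict V) (Rep.res V.subtype A) n) :
    coresLC A hV n z.1 ∈ cocyclesLC 𝒰 A n := by
  rw [mem_cocyclesLC_iff]
  have hz := (mem_cocyclesLC_iff (𝒰.restrict V) (Rep.res V.subtype A) z.1).1 z.2
  have h := A1.coresFun_d V A n z.1.1
  rw [coresLC_coe]
  refine h.symm.trans ?_
  have hz' : (inhomogeneousCochains.d (Rep.res V.subtype A) n) z.1.1 = 0 := hz
  rw [hz', map_zero]

/-- Elementwise description of corestriction. -/
lemma cores_Hπ (hV : 𝒰.IsOpen V) (n : ℕ)
    (z : cocyclesLC (𝒰.restrict V) (Rep.res V.subtype A) n) :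
    cores A hV n (Hπ (𝒰.restrict V) (Rep.res V.subtype A) n z) =
      Hπ 𝒰 A n ⟨coresLC A hV n z.1, coresLC_mem_cocycles A hV n z⟩ := by
  rw [Hπ_apply, Hπ_apply]
  refine (Aux.homologyMap_homologyπ (coresComplex A hV) n _).trans ?_
  congr 1
  apply Aux.iCycles_injective
  rw [Aux.iCycles_cyclesMap, iCycles_cycleOf, iCycles_cycleOf]
  rfl

variable {A} in
/-- Corestriction is natural in the coefficients (on complexes). -/
lemma coresComplex_naturality (hV : 𝒰.IsOpen V) {B : Rep.{u} k G} (ψ : A ⟶ B) :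
    coresComplex A hV ≫ (lcFunctor 𝒰).map ψ =
      (lcFunctor (𝒰.restrict V)).map ((Rep.resFunctor V.subtype).map ψ) ≫ coresComplex B hV := by
  ext n f : 3
  apply Subtype.ext
  funext g
  have h := congrFun (congrArg (fun F => (F.f n).hom f.1) (A1.coresCochains_naturality V ψ)) g
  exact h

variable {A} in
/-- Corestriction is natural in the coefficients. -/
lemma cores_naturality (hV : 𝒰.IsOpen V) {B : Rep.{u} k G} (ψ : A ⟶ B) (n : ℕ) :
    cores A hV n ≫ mapId ψ n =
      mapId (𝒰 := 𝒰.restrict V) ((Rep.resFunctor V.subtype).map ψ) n ≫ cores B hV n := by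
  exact (HomologicalComplex.homologyMap_comp _ _ n).symm.trans
    ((congrArg (fun f => HomologicalComplex.homologyMap f n)
      (coresComplex_naturality hV ψ)).trans (HomologicalComplex.homologyMap_comp _ _ n))

end Cochains

section Delta

variable {𝒰 : Levels G} [𝒰.IsFin] {V : Subgroup G} [V.FiniteIndex]

/-- The morphism of short complexes of complexes given by corestriction. -/
noncomputable def coresShortComplex (hV : 𝒰.IsOpen V) (X : ShortComplex (Rep.{u} k G)) :
    (X.map (Rep.resFunctor V.subtype)).map (lcFunctor (𝒰.restrict V)) ⟶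
      X.map (lcFunctor 𝒰) where
  τ₁ := coresComplex X.X₁ hV
  τ₂ := coresComplex X.X₂ hV
  τ₃ := coresComplex X.X₃ hV
  comm₁₂ := coresComplex_naturality hV X.f
  comm₂₃ := coresComplex_naturality hV X.g

/-- Corestriction commutes with the connecting homomorphisms of level-constant cohomology. -/
lemma lcδ_cores (hV : 𝒰.IsOpen V) {X : ShortComplex (Rep.{u} k G)} (hX : X.ShortExact)
    (hsm : IsSmooth 𝒰 X.X₂) (i j : ℕ) (hij : i + 1 = j) :
    lcδ (𝒰 := 𝒰.restrict V) (X := X.map (Rep.resFunctor V.subtype))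
        ((Rep.shortExact_res V.subtype).mpr hX) (hsm.res V.subtype) i j hij ≫
        cores X.X₁ hV j =
      cores X.X₃ hV i ≫ lcδ hX hsm i j hij :=
  HomologicalComplex.HomologySequence.δ_naturality (coresShortComplex hV X)
    (map_lcFunctor_shortExact (𝒰 := 𝒰.restrict V) (X := X.map (Rep.resFunctor V.subtype))
      ((Rep.shortExact_res V.subtype).mpr hX) (hsm.res V.subtype))
    (map_lcFunctor_shortExact hX hsm) i j hij

end Delta

end Fermat.Agent.CFT.LC
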