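/-
PROJECT C, LC-side of slice A1 (helper28): DIMENSION SHIFTING for level-constant cohomology.

For a family of levels `𝒰` on `G` and a representation `A`, the *smooth coinduced module*
`smoothCoind 𝒰 A` consists of the functions `G → A` which are right invariant under some level,
with `G` acting by right translation.  It is smooth, a smooth `A` embeds into it via
`a ↦ (x ↦ x • a)`, and its level-constant cohomology vanishes in positive degrees (explicit
contracting homotopy `(h f)(g)(x) = f(x, g)(1)`).  Consequently a `δ`-compatible family of maps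
out of `H 𝒰 - n` which vanishes in degree `0` vanishes in all degrees.
-/
import Fermat.Agent.CFT.LC.Restrict

set_option autoImplicit false

universe u

namespace Fermat.Agent.CFT.LC

open CategoryTheory groupCohomology Limits

variable {k G : Type u} [CommRing k] [Group G]

section Tuples

variable {α : Type*} [Mul α]

lemma contractNth_zero_cons {n : ℕ} (x : α) (g : Fin (n + 1) → α) :
    Fin.contractNth 0 (· * ·) (Fin.cons x g : Fin (n + 2) → α) =
      Fin.cons (x * g 0) (fun i => g i.succ) := by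
  funext k
  refine Fin.cases ?_ (fun k' => ?_) k
  · rw [Fin.contractNth_apply_of_eq _ _ _ _ (by simp)]
    simp
  · rw [Fin.contractNth_apply_of_gt _ _ _ _ (by simp)]
    simp

lemma contractNth_succ_cons {n : ℕ} (j : Fin (n + 1)) (x : α) (g : Fin (n + 1) → α) :
    Fin.contractNth j.succ (· * ·) (Fin.cons x g : Fin (n + 2) → α) =
      Fin.cons x (Fin.contractNth j (· * ·) g) := by
  funext k
  refine Fin.cases ?_ (fun k' => ?_) k
  · rw [Fin.contractNth_apply_of_lt _ _ _ _ (by simp)]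
    simp
  · have hR : (Fin.cons x (Fin.contractNth j (· * ·) g) : Fin (n + 1) → α) k'.succ =
        Fin.contractNth j (· * ·) g k' := Fin.cons_succ _ _ _
    have hc : (Fin.cons x g : Fin (n + 2) → α) k'.succ.castSucc = g k'.castSucc := by
      rw [← Fin.succ_castSucc, Fin.cons_succ]
    have hs : (Fin.cons x g : Fin (n + 2) → α) k'.succ.succ = g k'.succ := Fin.cons_succ _ _ _
    rw [hR]
    rcases lt_trichotomy (k' : ℕ) j with h | h | h
    · rw [Fin.contractNth_apply_of_lt _ _ _ _ (by simpa using h),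
        Fin.contractNth_apply_of_lt _ _ _ _ h, hc]
    · rw [Fin.contractNth_apply_of_eq _ _ _ _ (by simpa using h),
        Fin.contractNth_apply_of_eq _ _ _ _ h, hc, hs]
    · rw [Fin.contractNth_apply_of_gt _ _ _ _ (by simpa using h),
        Fin.contractNth_apply_of_gt _ _ _ _ h, hs]

end Tuples

section SmoothCoind

variable (𝒰 : Levels G) (A : Rep.{u} k G)

/-- Functions `G → A` which are right invariant under some level. -/
def smoothFun : Submodule k (G → A) where
  carrier := {φ | ∃ U ∈ 𝒰.sets, ∀ x, ∀ s ∈ U, φ (x * s) = φ x}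
  add_mem' := by
    rintro φ φ' ⟨U, hU, h⟩ ⟨U', hU', h'⟩
    obtain ⟨W, hW, hWle⟩ := 𝒰.directed U hU U' hU'
    refine ⟨W, hW, fun x s hs => ?_⟩
    rw [Pi.add_apply, Pi.add_apply, h x s (hWle.trans inf_le_left hs),
      h' x s (hWle.trans inf_le_right hs)]
  zero_mem' := by
    obtain ⟨U, hU⟩ := 𝒰.nonempty
    exact ⟨U, hU, fun _ _ _ => rfl⟩
  smul_mem' := by
    rintro c φ ⟨U, hU, h⟩
    exact ⟨U, hU, fun x s hs => by rw [Pi.smul_apply, Pi.smul_apply, h x s hs]⟩

/-- Right translation on smooth functions. -/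
def smoothCoindRep : Representation k G (smoothFun 𝒰 A) where
  toFun g :=
    { toFun := fun φ => ⟨fun x => φ.1 (x * g), by
        obtain ⟨U, hU, h⟩ := φ.2
        have := 𝒰.normal U hU
        refine ⟨U, hU, fun x s hs => ?_⟩
        have hconj : g⁻¹ * s * g ∈ U := by
          have := Subgroup.Normal.conj_mem (inferInstance : U.Normal) _ hs g⁻¹
          simpa using this
        have e : x * s * g = x * g * (g⁻¹ * s * g) := by group
        change φ.1 (x * s * g) = φ.1 (x * g)
        rw [e, h _ _ hconj]⟩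
      map_add' := fun _ _ => rfl
      map_smul' := fun _ _ => rfl }
  map_one' := by
    ext φ x
    simp
  map_mul' g g' := by
    ext φ x
    simp [mul_assoc]

/-- The smooth coinduced module of `A`. -/
noncomputable def smoothCoind : Rep.{u} k G := Rep.of (smoothCoindRep 𝒰 A)

variable {𝒰 A}

/-- The underlying function of an element of the smooth coinduced module. -/
def sfn (φ : smoothCoind 𝒰 A) : G → A := (show smoothFun 𝒰 A from φ).1

lemma sfn_ext {φ ψ : smoothCoind 𝒰 A} (h : ∀ x, sfn φ x = sfn ψ x) : φ = ψ :=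
  Subtype.ext (funext h)

lemma sfn_exists_level (φ : smoothCoind 𝒰 A) :
    ∃ U ∈ 𝒰.sets, ∀ x, ∀ s ∈ U, sfn φ (x * s) = sfn φ x := (show smoothFun 𝒰 A from φ).2

@[simp] lemma sfn_ρ (g : G) (φ : smoothCoind 𝒰 A) (x : G) :
    sfn ((smoothCoind 𝒰 A).ρ g φ) x = sfn φ (x * g) := rfl

@[simp] lemma sfn_add (φ ψ : smoothCoind 𝒰 A) (x : G) :
    sfn (φ + ψ) x = sfn φ x + sfn ψ x := rfl

@[simp] lemma sfn_smul (c : k) (φ : smoothCoind 𝒰 A) (x : G) :
    sfn (c • φ) x = c • sfn φ x := rfl

@[simp] lemma sfn_zero (x : G) : sfn (0 : smoothCoind 𝒰 A) x = 0 := rfl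

/-- Evaluation at a point, as a linear map. -/
def sEval (x : G) : smoothCoind 𝒰 A →ₗ[k] A where
  toFun φ := sfn φ x
  map_add' _ _ := rfl
  map_smul' _ _ := rfl

@[simp] lemma sEval_apply (x : G) (φ : smoothCoind 𝒰 A) : sEval x φ = sfn φ x := rfl

/-- Constructor for elements of the smooth coinduced module. -/
def sMk (φ : G → A) (h : ∃ U ∈ 𝒰.sets, ∀ x, ∀ s ∈ U, φ (x * s) = φ x) :
    smoothCoind 𝒰 A := (⟨φ, h⟩ : smoothFun 𝒰 A)

@[simp] lemma sfn_sMk (φ : G → A) (h : ∃ U ∈ 𝒰.sets, ∀ x, ∀ s ∈ U, φ (x * s) = φ x)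
    (x : G) : sfn (sMk φ h) x = φ x := rfl

variable (𝒰 A)

lemma isSmooth_smoothCoind : IsSmooth 𝒰 (smoothCoind 𝒰 A) := by
  intro φ
  obtain ⟨U, hU, h⟩ := sfn_exists_level φ
  refine ⟨U, hU, fun s hs => ?_⟩
  refine sfn_ext fun x => ?_
  rw [sfn_ρ, h x s hs]

variable {𝒰 A}

/-- The embedding `a ↦ (x ↦ x • a)` of a smooth representation into its smooth coinduced
module. -/
noncomputable def toSmoothCoind (hA : IsSmooth 𝒰 A) : A ⟶ smoothCoind 𝒰 A :=
  ConcreteCategory.ofHom (C := Rep.{u} k G)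
    (LinearMap.intertwiningMap_of_isIntertwiningMap
      (ρ := A.ρ) (σ := (smoothCoind 𝒰 A).ρ)
      (f := { toFun := fun a => sMk (fun x => A.ρ x a) (by
                obtain ⟨U, hU, h⟩ := hA a
                exact ⟨U, hU, fun x s hs => by
                  rw [map_mul, Module.End.mul_apply, h s hs]⟩)
              map_add' := fun a b => by
                refine sfn_ext fun x => ?_
                simp
              map_smul' := fun c a => by
                refine sfn_ext fun x => ?_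
                simp })
      (fun g a => by
        refine sfn_ext fun x => ?_
        change A.ρ x (A.ρ g a) = A.ρ (x * g) a
        rw [map_mul, Module.End.mul_apply]))

lemma toSmoothCoind_fn (hA : IsSmooth 𝒰 A) (a : A) (x : G) :
    sfn ((toSmoothCoind hA).hom a) x = A.ρ x a := rfl

lemma toSmoothCoind_injective (hA : IsSmooth 𝒰 A) :
    Function.Injective (toSmoothCoind hA).hom := by
  intro a b h
  have h1 := congrArg (fun φ => sfn φ 1) h
  simp only [toSmoothCoind_fn, map_one, Module.End.one_apply] at h1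
  exact h1

instance mono_toSmoothCoind (hA : IsSmooth 𝒰 A) : Mono (toSmoothCoind hA) :=
  (Rep.mono_iff_injective _).2 (toSmoothCoind_injective hA)

end SmoothCoind

section Contraction

variable {𝒰 : Levels G} {A : Rep.{u} k G} {n : ℕ}

/-- The contracting homotopy `(h f)(g)(x) = f(x, g)(1)` on level-constant cochains with values
in the smooth coinduced module. -/
noncomputable def contr (f : cochains 𝒰 (smoothCoind 𝒰 A) (n + 1)) :
    cochains 𝒰 (smoothCoind 𝒰 A) n :=
  ⟨fun g => sMk (fun x => sfn (f.1 (Fin.cons x g)) 1) (by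
      obtain ⟨U, hU, hf⟩ := f.2
      refine ⟨U, hU, fun x s hs => ?_⟩
      have e : (Fin.cons (x * s) g : Fin (n + 1) → G) = Fin.cons x g * Fin.cons s 1 := by
        funext i
        refine Fin.cases ?_ (fun i' => ?_) i <;> simp
      rw [e, hf.1 _ _ (fun i => by refine Fin.cases ?_ (fun i' => ?_) i <;> simp [hs, U.one_mem])]),
    by
      obtain ⟨U, hU, hf⟩ := f.2
      refine ⟨U, hU, fun g u hu => ?_, fun g s hs => ?_⟩
      · refine sfn_ext fun x => ?_
        simp only [sfn_sMk]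
        have e : (Fin.cons x (g * u) : Fin (n + 1) → G) = Fin.cons x g * Fin.cons 1 u := by
          funext i
          refine Fin.cases ?_ (fun i' => ?_) i <;> simp
        rw [e, hf.1 _ _ (fun i => by
          refine Fin.cases ?_ (fun i' => ?_) i <;> simp [hu, U.one_mem])]
      · refine sfn_ext fun x => ?_
        simp only [sfn_ρ, sfn_sMk]
        have e : (Fin.cons (x * s) g : Fin (n + 1) → G) = Fin.cons x g * Fin.cons s 1 := by
          funext i
          refine Fin.cases ?_ (fun i' => ?_) i <;> simp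
        rw [e, hf.1 _ _ (fun i => by
          refine Fin.cases ?_ (fun i' => ?_) i <;> simp [hs, U.one_mem])]⟩

lemma contr_fn (f : cochains 𝒰 (smoothCoind 𝒰 A) (n + 1)) (g : Fin n → G) (x : G) :
    sfn ((contr f).1 g) x = sfn (f.1 (Fin.cons x g)) 1 := rfl

/-- On cocycles, the contraction is a primitive. -/
lemma dLC_contr (z : cocyclesLC 𝒰 (smoothCoind 𝒰 A) (n + 1)) :
    dLC 𝒰 (smoothCoind 𝒰 A) n (contr z.1) = z.1 := by
  apply Subtype.ext
  funext g
  refine sfn_ext fun x => ?_
  have hz := (mem_cocyclesLC_iff 𝒰 (smoothCoind 𝒰 A) z.1).1 z.2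
  have hz1 := congrArg (fun φ => sEval (𝒰 := 𝒰) (A := A) 1 φ)
    (congrFun hz (Fin.cons x g))
  rw [dLC_coe]
  change sEval x ((inhomogeneousCochains.d (smoothCoind 𝒰 A) n).hom (contr z.1).1 g) = _
  simp only [inhomogeneousCochains.d_hom_apply, map_add, map_sum, map_smul,
    sEval_apply, sfn_ρ, contr_fn,
    Fin.sum_univ_succ (n := n + 1), contractNth_zero_cons, contractNth_succ_cons,
    Fin.cons_succ, Fin.cons_zero, one_mul, Fin.val_zero, Fin.val_succ] at hz1 ⊢
  have e : ∀ j : Fin (n + 1), ((-1 : k) ^ ((j : ℕ) + 1 + 1)) •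
      sfn (z.1.1 (Fin.cons x (Fin.contractNth j (· * ·) g))) 1 =
      -(((-1 : k) ^ ((j : ℕ) + 1)) • sfn (z.1.1 (Fin.cons x (Fin.contractNth j (· * ·) g))) 1) := by
    intro j
    rw [pow_succ, mul_neg_one, neg_smul]
  rw [Finset.sum_congr rfl fun j _ => e j, Finset.sum_neg_distrib] at hz1
  have e0 : ((-1 : k) ^ (0 + 1)) • sfn (z.1.1 (Fin.cons (x * g 0) fun i => g i.succ)) 1 =
      -sfn (z.1.1 (Fin.cons (x * g 0) fun i => g i.succ)) 1 := by
    rw [zero_add, pow_one, neg_smul, one_smul]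
  rw [e0] at hz1
  have hz2 : sfn (z.1.1 g) x +
      (-sfn (z.1.1 (Fin.cons (x * g 0) fun i => g i.succ)) 1 +
        -∑ j : Fin (n + 1), ((-1 : k) ^ ((j : ℕ) + 1)) •
          sfn (z.1.1 (Fin.cons x (Fin.contractNth j (· * ·) g))) 1) = 0 := hz1
  have h2 := eq_neg_of_add_eq_zero_left hz2
  rw [h2]
  abel

variable (𝒰 A) in
/-- The level-constant cohomology of a smooth coinduced module vanishes in positive degrees. -/
lemma isZero_H_smoothCoind (n : ℕ) : IsZero (H 𝒰 (smoothCoind 𝒰 A) (n + 1)) := by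
  rw [ModuleCat.isZero_iff_subsingleton]
  refine ⟨fun x y => ?_⟩
  have h0 : ∀ w : H 𝒰 (smoothCoind 𝒰 A) (n + 1), w = 0 := by
    intro w
    induction w using H_induction_on with
    | h z =>
      rw [Hπ_eq_zero_iff_succ]
      exact ⟨contr z.1, dLC_contr z⟩
  rw [h0 x, h0 y]

end Contraction

section Shift

variable {𝒰 : Levels G} {A : Rep.{u} k G}

/-- The dimension shifting short complex `A ⟶ smoothCoind 𝒰 A ⟶ coker`. -/
noncomputable def shiftSeq (hA : IsSmooth 𝒰 A) : ShortComplex (Rep.{u} k G) :=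
  ShortComplex.mk (toSmoothCoind hA) (cokernel.π (toSmoothCoind hA)) (cokernel.condition _)

lemma shiftSeq_shortExact (hA : IsSmooth 𝒰 A) : (shiftSeq hA).ShortExact :=
  ShortComplex.ShortExact.mk' (ShortComplex.exact_cokernel (toSmoothCoind hA))
    (mono_toSmoothCoind hA) (inferInstanceAs (Epi (cokernel.π (toSmoothCoind hA))))

lemma isSmooth_shiftSeq_X₂ (hA : IsSmooth 𝒰 A) : IsSmooth 𝒰 (shiftSeq hA).X₂ :=
  isSmooth_smoothCoind 𝒰 A

lemma isSmooth_shiftSeq_X₃ (hA : IsSmooth 𝒰 A) : IsSmooth 𝒰 (shiftSeq hA).X₃ :=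
  (isSmooth_smoothCoind 𝒰 A).of_surjective (shiftSeq hA).g
    ((Rep.epi_iff_surjective _).1 (shiftSeq_shortExact hA).epi_g)

/-- The connecting map of the dimension shifting sequence is an epimorphism. -/
lemma epi_lcδ_shiftSeq [𝒰.IsFin] (hA : IsSmooth 𝒰 A) (n : ℕ) :
    Epi (lcδ (shiftSeq_shortExact hA) (isSmooth_shiftSeq_X₂ hA) n (n + 1) rfl) := by
  have h := exact₁ (shiftSeq_shortExact hA) (isSmooth_shiftSeq_X₂ hA) n (n + 1) rfl
  exact h.epi_f ((isZero_H_smoothCoind 𝒰 A n).eq_of_tgt _ _)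

/-- **Dimension shifting principle for level-constant cohomology.**  A family of maps
`H 𝒰 A n ⟶ F n A` which is compatible with connecting homomorphisms and vanishes in degree `0`
on smooth representations vanishes on all smooth representations in all degrees. -/
theorem eq_zero_of_lcδ_compatible' [𝒰.IsFin] {F : ℕ → Rep.{u} k G → ModuleCat.{u} k}
    (T : ∀ (n : ℕ) (A : Rep.{u} k G), H 𝒰 A n ⟶ F n A)
    (δF : ∀ (X : ShortComplex (Rep.{u} k G)), X.ShortExact → IsSmooth 𝒰 X.X₂ →
      ∀ i : ℕ, F i X.X₃ ⟶ F (i + 1) X.X₁)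
    (hδ : ∀ (X : ShortComplex (Rep.{u} k G)) (hX : X.ShortExact) (hsm : IsSmooth 𝒰 X.X₂) (i : ℕ),
      lcδ hX hsm i (i + 1) rfl ≫ T (i + 1) X.X₁ = T i X.X₃ ≫ δF X hX hsm i)
    (h0 : ∀ A, IsSmooth 𝒰 A → T 0 A = 0) : ∀ n A, IsSmooth 𝒰 A → T n A = 0 := by
  intro n
  induction n with
  | zero => exact h0
  | succ n ih =>
    intro A hA
    have hepi := epi_lcδ_shiftSeq hA n
    have h := hδ (shiftSeq hA) (shiftSeq_shortExact hA) (isSmooth_shiftSeq_X₂ hA) n
    rw [ih _ (isSmooth_shiftSeq_X₃ hA), zero_comp] at h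
    exact (cancel_epi (lcδ (shiftSeq_shortExact hA) (isSmooth_shiftSeq_X₂ hA) n (n + 1) rfl)).mp
      (h.trans comp_zero.symm)

/-- Dimension shifting for endomorphisms of level-constant cohomology. -/
theorem eq_zero_of_lcδ_compatible [𝒰.IsFin]
    (T : ∀ (n : ℕ) (A : Rep.{u} k G), H 𝒰 A n ⟶ H 𝒰 A n)
    (hδ : ∀ (X : ShortComplex (Rep.{u} k G)) (hX : X.ShortExact) (hsm : IsSmooth 𝒰 X.X₂)
      (i j : ℕ) (hij : i + 1 = j),
      lcδ hX hsm i j hij ≫ T j X.X₁ = T i X.X₃ ≫ lcδ hX hsm i j hij)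
    (h0 : ∀ A, IsSmooth 𝒰 A → T 0 A = 0) : ∀ n A, IsSmooth 𝒰 A → T n A = 0 :=
  eq_zero_of_lcδ_compatible' (F := fun n A => H 𝒰 A n) T
    (fun _ hX hsm i => lcδ hX hsm i (i + 1) rfl)
    (fun X hX hsm i => hδ X hX hsm i (i + 1) rfl) h0

end Shift

end Fermat.Agent.CFT.LC
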