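/-
PROJECT C, LC-side of slice A1 (helper28): `cores ∘ res = [G : V]` on level-constant cohomology,
by dimension shifting.
-/
import Fermat.Agent.CFT.LC.Cores
import Fermat.Agent.CFT.LC.DimShift

set_option autoImplicit false

universe u

namespace Fermat.Agent.CFT.LC

open CategoryTheory groupCohomology Limits

variable {k G : Type u} [CommRing k] [Group G]

/-- A level-constant `0`-cocycle takes invariant values. -/
lemma cocyclesLC_zero_invariant {𝒰 : Levels G} {A : Rep.{u} k G} (z : cocyclesLC 𝒰 A 0) (s : G)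
    (x : Fin 0 → G) : A.ρ s (z.1.1 x) = z.1.1 x := by
  have h := (mem_cocyclesLC_iff 𝒰 A z.1).1 z.2
  have h3 := congrFun h (fun _ => s)
  rw [inhomogeneousCochains.d_hom_apply] at h3
  simp only [Fin.sum_univ_succ, Finset.univ_eq_empty, Finset.sum_empty] at h3
  have e1 : (fun _ : Fin 0 => s) = x := Subsingleton.elim _ _
  have e2 : (Fin.contractNth 0 (fun x1 x2 => x1 * x2) fun _ : Fin 1 => s) = x :=
    Subsingleton.elim _ _
  rw [e1, e2] at h3
  simp only [Fin.val_zero, zero_add, pow_one, neg_smul, one_smul, add_zero] at h3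
  exact add_neg_eq_zero.mp h3

variable {𝒰 : Levels G} {V : Subgroup G} [V.FiniteIndex]

attribute [local instance] Subgroup.fintypeQuotientOfFiniteIndex

/-- On `0`-cocycles, `cores ∘ res` is multiplication by the index. -/
lemma coresLC_res_zero (hV : 𝒰.IsOpen V) (A : Rep.{u} k G) (z : cocyclesLC 𝒰 A 0) :
    coresLC A hV 0 (((resComplex 𝒰 V A).f 0).hom z.1) = (V.index : k) • z.1 := by
  apply Subtype.ext
  funext g
  rw [coresLC_apply]
  have h : ∀ q : G ⧸ V, A.ρ (Quotient.out q)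
      ((((resComplex 𝒰 V A).f 0).hom z.1 :
        cochains (𝒰.restrict V) (Rep.res V.subtype A) 0).1 (A1.twist V g q)) = z.1.1 g := by
    intro q
    rw [resComplex_f_apply]
    have e : (fun i => ((A1.twist V g q i : V) : G)) = g := Subsingleton.elim _ _
    rw [e, cocyclesLC_zero_invariant]
  rw [Finset.sum_congr rfl fun q _ => h q, Finset.sum_const, Finset.card_univ]
  change _ = (V.index : k) • z.1.1 g
  rw [← Nat.cast_smul_eq_nsmul k, Subgroup.index_eq_card, Nat.card_eq_fintype_card]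

/-- `cores ∘ res = [G : V]` in degree `0`. -/
lemma res_cores_zero (hV : 𝒰.IsOpen V) (A : Rep.{u} k G) :
    res 𝒰 V A 0 ≫ cores A hV 0 = (V.index : k) • 𝟙 (H 𝒰 A 0) := by
  ext x
  induction x using H_induction_on with
  | h z =>
    obtain ⟨hz, h1⟩ := res_Hπ 𝒰 V A 0 z
    rw [ModuleCat.hom_comp, LinearMap.comp_apply, h1, cores_Hπ]
    rw [ModuleCat.hom_smul, LinearMap.smul_apply, ModuleCat.hom_id, LinearMap.id_apply,
      ← map_smul]
    congr 1
    apply Subtype.ext
    exact coresLC_res_zero hV A z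

/-- **`cores ∘ res = [G : V]`** on the level-constant cohomology of a smooth representation,
for an open subgroup `V`. -/
theorem res_cores [𝒰.IsFin] (hV : 𝒰.IsOpen V) (A : Rep.{u} k G) (hA : IsSmooth 𝒰 A) (n : ℕ) :
    res 𝒰 V A n ≫ cores A hV n = (V.index : k) • 𝟙 (H 𝒰 A n) := by
  have key := eq_zero_of_lcδ_compatible (k := k) (𝒰 := 𝒰)
    (fun n (A : Rep.{u} k G) => res 𝒰 V A n ≫ cores A hV n - (V.index : k) • 𝟙 (H 𝒰 A n))
    (fun X hX hsm i j hij => by
      have e1 : lcδ hX hsm i j hij ≫ res 𝒰 V X.X₁ j ≫ cores X.X₁ hV j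
          = (res 𝒰 V X.X₃ i ≫ cores X.X₃ hV i) ≫ lcδ hX hsm i j hij :=
        calc lcδ hX hsm i j hij ≫ res 𝒰 V X.X₁ j ≫ cores X.X₁ hV j
            = (lcδ hX hsm i j hij ≫ res 𝒰 V X.X₁ j) ≫ cores X.X₁ hV j :=
              (Category.assoc _ _ _).symm
          _ = (res 𝒰 V X.X₃ i ≫ _) ≫ cores X.X₁ hV j :=
              congrArg (· ≫ cores X.X₁ hV j) (lcδ_res V hX hsm i j hij)
          _ = res 𝒰 V X.X₃ i ≫ (_ ≫ cores X.X₁ hV j) := Category.assoc _ _ _
          _ = res 𝒰 V X.X₃ i ≫ (cores X.X₃ hV i ≫ lcδ hX hsm i j hij) :=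
              congrArg (res 𝒰 V X.X₃ i ≫ ·) (lcδ_cores hV hX hsm i j hij)
          _ = (res 𝒰 V X.X₃ i ≫ cores X.X₃ hV i) ≫ lcδ hX hsm i j hij :=
              (Category.assoc _ _ _).symm
      rw [Preadditive.comp_sub, Preadditive.sub_comp, Linear.comp_smul, Linear.smul_comp,
        Category.comp_id, Category.id_comp, e1])
    (fun A _ => by rw [res_cores_zero, sub_self])
  exact sub_eq_zero.mp (key n A hA)

/-- A class of a smooth representation whose restriction to the open subgroup `V` vanishes is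
killed by the index of `V`. -/
theorem index_smul_eq_zero_of_res_eq_zero [𝒰.IsFin] (hV : 𝒰.IsOpen V) (A : Rep.{u} k G)
    (hA : IsSmooth 𝒰 A) (n : ℕ) (x : H 𝒰 A n) (hx : res 𝒰 V A n x = 0) :
    (V.index : k) • x = 0 := by
  have h1 := congrArg (fun φ => φ.hom x) (res_cores hV A hA n)
  simp only [ModuleCat.hom_comp, LinearMap.comp_apply] at h1
  rw [hx, map_zero] at h1
  exact h1.symm

/-- `Hⁿ_LC(G, A)` is killed by `[G : V]` as soon as `Hⁿ_LC(V, A)` vanishes. -/
theorem index_smul_eq_zero_of_isZero [𝒰.IsFin] (hV : 𝒰.IsOpen V) (A : Rep.{u} k G)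
    (hA : IsSmooth 𝒰 A) (n : ℕ) (h : IsZero (H (𝒰.restrict V) (Rep.res V.subtype A) n))
    (x : H 𝒰 A n) : (V.index : k) • x = 0 :=
  index_smul_eq_zero_of_res_eq_zero hV A hA n x
    ((ModuleCat.isZero_iff_subsingleton.mp h).elim _ _)

/-- Restriction to an open subgroup is injective when its index is invertible in `k`. -/
theorem res_injective_of_isUnit_index [𝒰.IsFin] (hV : 𝒰.IsOpen V) (A : Rep.{u} k G)
    (hA : IsSmooth 𝒰 A) (n : ℕ) (hu : IsUnit (V.index : k)) :
    Function.Injective (res 𝒰 V A n) := by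
  rw [injective_iff_map_eq_zero]
  intro x hx
  have h := index_smul_eq_zero_of_res_eq_zero hV A hA n x hx
  obtain ⟨c, hc⟩ := hu
  have : (c⁻¹ : kˣ) • ((V.index : k) • x) = x := by
    rw [← hc, Units.smul_def, smul_smul, Units.inv_mul, one_smul]
  rw [← this, h, smul_zero]

end Fermat.Agent.CFT.LC
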