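/-
PROJECT C, LC-side of slice A1 (helper28): SMOOTH INDUCTION from an arbitrary subgroup.

For a subgroup `D ≤ G` (think: a closed subgroup of a profinite group, e.g. a decomposition
group, or an open subgroup) and a representation `B` of `D`, the smooth induced module
`sInd 𝒰 D B` consists of the functions `φ : G → B` with `φ (d x) = d • φ x` which are right
invariant under some level; `G` acts by right translation.  We provide functoriality, the
evaluation `ev₁ : Res (sInd B) ⟶ B`, and exactness on smooth representations.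
-/
import Fermat.Agent.CFT.LC.DimShift

set_option autoImplicit false

universe u

namespace Fermat.Agent.CFT.LC

open CategoryTheory groupCohomology Limits

variable {k G : Type u} [CommRing k] [Group G]

section Def

variable (𝒰 : Levels G) (D : Subgroup G) (B : Rep.{u} k D)

/-- Smooth `D`-equivariant functions `G → B`. -/
def sIndFun : Submodule k (G → B) where
  carrier := {φ | (∀ (d : D) (x : G), φ (d * x) = B.ρ d (φ x)) ∧
    ∃ U ∈ 𝒰.sets, ∀ x, ∀ s ∈ U, φ (x * s) = φ x}
  add_mem' := by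
    rintro φ φ' ⟨h1, U, hU, h⟩ ⟨h1', U', hU', h'⟩
    obtain ⟨W, hW, hWle⟩ := 𝒰.directed U hU U' hU'
    refine ⟨fun d x => ?_, W, hW, fun x s hs => ?_⟩
    · rw [Pi.add_apply, Pi.add_apply, h1, h1', map_add]
    · rw [Pi.add_apply, Pi.add_apply, h x s (hWle.trans inf_le_left hs),
        h' x s (hWle.trans inf_le_right hs)]
  zero_mem' := by
    obtain ⟨U, hU⟩ := 𝒰.nonempty
    exact ⟨fun d x => by simp, U, hU, fun _ _ _ => rfl⟩
  smul_mem' := by
    rintro c φ ⟨h1, U, hU, h⟩
    refine ⟨fun d x => ?_, U, hU, fun x s hs => ?_⟩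
    · rw [Pi.smul_apply, Pi.smul_apply, h1, map_smul]
    · rw [Pi.smul_apply, Pi.smul_apply, h x s hs]

/-- Right translation on smooth equivariant functions. -/
def sIndRep : Representation k G (sIndFun 𝒰 D B) where
  toFun g :=
    { toFun := fun φ => ⟨fun x => φ.1 (x * g), by
        obtain ⟨h1, U, hU, h⟩ := φ.2
        have := 𝒰.normal U hU
        refine ⟨fun d x => ?_, U, hU, fun x s hs => ?_⟩
        · change φ.1 (d * x * g) = B.ρ d (φ.1 (x * g))
          rw [mul_assoc, h1]
        · have hconj : g⁻¹ * s * g ∈ U := by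
            have := Subgroup.Normal.conj_mem (inferInstance : U.Normal) _ hs g⁻¹
            simpa using this
          have e : x * s * g = x * g * (g⁻¹ * s * g) := by group
          change φ.1 (x * s * g) = φ.1 (x * g)
          rw [e, h _ _ hconj]⟩
      map_add' := fun _ _ => rfl
      map_smul' := fun _ _ => rfl }
  map_one' := by
    ext φ x
    simp
  map_mul' g g' := by
    ext φ x
    simp [mul_assoc]

/-- The smooth induced module `sInd_D^G B`. -/
noncomputable def sInd : Rep.{u} k G := Rep.of (sIndRep 𝒰 D B)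

variable {𝒰 D B}

/-- The underlying function of an element of the smooth induced module. -/
def iFn (φ : sInd 𝒰 D B) : G → B := (show sIndFun 𝒰 D B from φ).1

lemma iFn_ext {φ ψ : sInd 𝒰 D B} (h : ∀ x, iFn φ x = iFn ψ x) : φ = ψ :=
  Subtype.ext (funext h)

lemma iFn_equivariant (φ : sInd 𝒰 D B) (d : D) (x : G) :
    iFn φ (d * x) = B.ρ d (iFn φ x) := (show sIndFun 𝒰 D B from φ).2.1 d x

lemma iFn_exists_level (φ : sInd 𝒰 D B) :
    ∃ U ∈ 𝒰.sets, ∀ x, ∀ s ∈ U, iFn φ (x * s) = iFn φ x := (show sIndFun 𝒰 D B from φ).2.2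

@[simp] lemma iFn_ρ (g : G) (φ : sInd 𝒰 D B) (x : G) :
    iFn ((sInd 𝒰 D B).ρ g φ) x = iFn φ (x * g) := rfl

@[simp] lemma iFn_add (φ ψ : sInd 𝒰 D B) (x : G) : iFn (φ + ψ) x = iFn φ x + iFn ψ x := rfl

@[simp] lemma iFn_sub (φ ψ : sInd 𝒰 D B) (x : G) : iFn (φ - ψ) x = iFn φ x - iFn ψ x := rfl

@[simp] lemma iFn_smul (c : k) (φ : sInd 𝒰 D B) (x : G) : iFn (c • φ) x = c • iFn φ x := rfl

@[simp] lemma iFn_zero (x : G) : iFn (0 : sInd 𝒰 D B) x = 0 := rfl

/-- Constructor for elements of the smooth induced module. -/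
def iMk (φ : G → B) (h1 : ∀ (d : D) (x : G), φ (d * x) = B.ρ d (φ x))
    (h2 : ∃ U ∈ 𝒰.sets, ∀ x, ∀ s ∈ U, φ (x * s) = φ x) : sInd 𝒰 D B :=
  (⟨φ, h1, h2⟩ : sIndFun 𝒰 D B)

@[simp] lemma iFn_iMk (φ : G → B) (h1 : ∀ (d : D) (x : G), φ (d * x) = B.ρ d (φ x))
    (h2 : ∃ U ∈ 𝒰.sets, ∀ x, ∀ s ∈ U, φ (x * s) = φ x) (x : G) :
    iFn (iMk φ h1 h2) x = φ x := rfl

variable (𝒰 D B)

/-- The smooth induced module is smooth. -/
lemma isSmooth_sInd : IsSmooth 𝒰 (sInd 𝒰 D B) := by
  intro φ
  obtain ⟨U, hU, h⟩ := iFn_exists_level φ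
  refine ⟨U, hU, fun s hs => ?_⟩
  refine iFn_ext fun x => ?_
  rw [iFn_ρ, h x s hs]

/-- Evaluation at `1`, a morphism of `D`-representations `Res (sInd B) ⟶ B`. -/
noncomputable def sIndEv : Rep.res D.subtype (sInd 𝒰 D B) ⟶ B :=
  ConcreteCategory.ofHom (C := Rep.{u} k D)
    (LinearMap.intertwiningMap_of_isIntertwiningMap
      (ρ := (Rep.res D.subtype (sInd 𝒰 D B)).ρ) (σ := B.ρ)
      (f := { toFun := fun φ => iFn (show sInd 𝒰 D B from φ) 1
              map_add' := fun _ _ => rfl
              map_smul' := fun _ _ => rfl })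
      (fun d φ => by
        change iFn (show sInd 𝒰 D B from φ) (1 * (d : G)) = B.ρ d (iFn (show sInd 𝒰 D B from φ) 1)
        rw [one_mul, ← iFn_equivariant, mul_one]))

lemma sIndEv_apply (φ : sInd 𝒰 D B) : (sIndEv 𝒰 D B).hom φ = iFn φ 1 := rfl

variable {B}

/-- Functoriality of smooth induction. -/
noncomputable def sIndMap {B' : Rep.{u} k D} (ψ : B ⟶ B') : sInd 𝒰 D B ⟶ sInd 𝒰 D B' :=
  ConcreteCategory.ofHom (C := Rep.{u} k G)
    (LinearMap.intertwiningMap_of_isIntertwiningMap
      (ρ := (sInd 𝒰 D B).ρ) (σ := (sInd 𝒰 D B').ρ)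
      (f := { toFun := fun φ => iMk (fun x => ψ.hom (iFn φ x))
                (fun d x => by rw [iFn_equivariant, Rep.hom_comm_apply])
                (by
                  obtain ⟨U, hU, h⟩ := iFn_exists_level φ
                  exact ⟨U, hU, fun x s hs => by rw [h x s hs]⟩)
              map_add' := fun φ φ' => by
                refine iFn_ext fun x => ?_
                simp
              map_smul' := fun c φ => by
                refine iFn_ext fun x => ?_
                simp })
      (fun g φ => by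
        refine iFn_ext fun x => ?_
        rfl))

@[simp] lemma iFn_sIndMap {B' : Rep.{u} k D} (ψ : B ⟶ B') (φ : sInd 𝒰 D B) (x : G) :
    iFn ((sIndMap 𝒰 D ψ).hom φ) x = ψ.hom (iFn φ x) := rfl

variable (k) in
/-- Smooth induction as a functor. -/
noncomputable def sIndFunctor : Rep.{u} k D ⥤ Rep.{u} k G where
  obj B := sInd 𝒰 D B
  map ψ := sIndMap 𝒰 D ψ
  map_id B := by
    ext φ
    refine iFn_ext fun x => ?_
    rfl
  map_comp ψ χ := by
    ext φ
    refine iFn_ext fun x => ?_
    rfl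

instance : (sIndFunctor k 𝒰 D).Additive where
  map_add {B B' ψ χ} := by
    ext φ
    refine iFn_ext fun x => ?_
    rfl

/-- Naturality of the evaluation map. -/
lemma sIndEv_naturality {B' : Rep.{u} k D} (ψ : B ⟶ B') :
    (Rep.resFunctor D.subtype).map (sIndMap 𝒰 D ψ) ≫ sIndEv 𝒰 D B' = sIndEv 𝒰 D B ≫ ψ := by
  ext φ
  rfl

end Def

section Exact

variable (𝒰 : Levels G) (D : Subgroup G)

/-- An element of `D` fixing a point of `G ⧸ U'` (for `U'` normal) lies in `U'`. -/
lemma mem_of_smul_quotient_eq {U' : Subgroup G} [U'.Normal] {s : D} {y : G ⧸ U'}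
    (h : s • y = y) : (s : G) ∈ U' := by
  induction y using QuotientGroup.induction_on with
  | H g =>
    have h' : (((s : G) * g : G) : G ⧸ U') = (g : G ⧸ U') := h
    rw [eq_comm, QuotientGroup.eq] at h'
    have h2 := Subgroup.Normal.conj_mem (inferInstance : U'.Normal) _ h' g
    have e : g * (g⁻¹ * ((s : G) * g)) * g⁻¹ = (s : G) := by group
    rwa [e] at h2

/-- Smooth induction preserves surjections between smooth representations. -/
lemma sIndMap_surjective [𝒰.IsFin] {J C : Rep.{u} k D} (ψ : J ⟶ C)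
    (hψ : Function.Surjective ψ.hom) (hJ : IsSmooth (𝒰.restrict D) J) :
    Function.Surjective (sIndMap 𝒰 D ψ).hom := by
  classical
  intro φ''
  obtain ⟨U, hU, hφU⟩ := iFn_exists_level φ''
  have hUfin := Levels.IsFin.finiteIndex U hU
  have hUn := 𝒰.normal U hU
  have : Fintype (G ⧸ U) := Subgroup.fintypeQuotientOfFiniteIndex
  -- a set-theoretic section and the finitely many lifted values
  let σ : C → J := Function.surjInv hψ
  have hσ : ∀ c, ψ.hom (σ c) = c := Function.surjInv_eq hψ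
  let S : Finset J := Finset.univ.image fun t : G ⧸ U => σ (iFn φ'' t.out)
  have hS : ∀ x : G, σ (iFn φ'' x) ∈ S := by
    intro x
    refine Finset.mem_image.2 ⟨(QuotientGroup.mk x : G ⧸ U), Finset.mem_univ _, ?_⟩
    have hx : x⁻¹ * (QuotientGroup.mk x : G ⧸ U).out ∈ U := by
      rw [← QuotientGroup.eq]
      exact (QuotientGroup.out_eq' _).symm
    have e : (QuotientGroup.mk x : G ⧸ U).out = x * (x⁻¹ * (QuotientGroup.mk x : G ⧸ U).out) := by
      group
    rw [e, hφU x _ hx]
  -- a level fixing all the lifted values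
  choose W hW hWfix using hJ
  obtain ⟨V', hV', hV'le⟩ := (𝒰.restrict D).exists_le_finset S W fun b _ => hW b
  obtain ⟨V, hV, rfl⟩ := hV'
  obtain ⟨U', hU', hU'le⟩ := 𝒰.directed U hU V hV
  have hU'n := 𝒰.normal U' hU'
  have hfix : ∀ (x : G) (s : D), (s : G) ∈ U' → J.ρ s (σ (iFn φ'' x)) = σ (iFn φ'' x) := by
    intro x s hs
    refine hWfix _ s (hV'le _ (hS x) ?_)
    exact (hU'le.trans inf_le_right) hs
  -- orbit representatives for the action of `D` on `G ⧸ U'`
  let r : G ⧸ U' → G ⧸ U' := fun t =>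
    (Quotient.mk (MulAction.orbitRel D (G ⧸ U')) t).out
  have hr : ∀ t, ∃ d : D, d • r t = t := by
    intro t
    have h1 : (MulAction.orbitRel D (G ⧸ U')) (r t) t := Quotient.mk_out (s := MulAction.orbitRel D (G ⧸ U')) t
    rw [MulAction.orbitRel_apply] at h1
    obtain ⟨d, hd⟩ := h1
    exact ⟨d⁻¹, by rw [← hd, inv_smul_smul]⟩
  choose dd hdd using hr
  have hr_smul : ∀ (d : D) t, r (d • t) = r t := by
    intro d t
    have : Quotient.mk (MulAction.orbitRel D (G ⧸ U')) (d • t) =
        Quotient.mk (MulAction.orbitRel D (G ⧸ U')) t :=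
      Quotient.sound (by
        change (MulAction.orbitRel D (G ⧸ U')) (d • t) t
        rw [MulAction.orbitRel_apply]
        exact MulAction.mem_orbit _ _)
    simp only [r, this]
  let β : G ⧸ U' → J := fun t => J.ρ (dd t) (σ (iFn φ'' (r t).out))
  have hβ : ∀ (d : D) t, β (d • t) = J.ρ d (β t) := by
    intro d t
    simp only [β]
    rw [hr_smul, ← Module.End.mul_apply, ← map_mul]
    have hs : ((d * dd t)⁻¹ * dd (d • t)) • r t = r t := by
      rw [mul_smul, ← hr_smul d t, hdd (d • t), hr_smul, inv_smul_eq_iff, mul_smul, hdd t]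
    have hmem := mem_of_smul_quotient_eq D hs
    have h2 := hfix (r t).out _ hmem
    have e : dd (d • t) = (d * dd t) * ((d * dd t)⁻¹ * dd (d • t)) := by group
    rw [e, map_mul, Module.End.mul_apply, h2]
  have hψβ : ∀ x : G, ψ.hom (β (QuotientGroup.mk x)) = iFn φ'' x := by
    intro x
    set t : G ⧸ U' := QuotientGroup.mk x with ht
    simp only [β]
    rw [Rep.hom_comm_apply, hσ, ← iFn_equivariant]
    have h1 : ((((dd t : D) : G) * (r t).out : G) : G ⧸ U') = (x : G ⧸ U') := by
      have h2 : ((((dd t : D) : G) * (r t).out : G) : G ⧸ U') = dd t • ((r t).out : G ⧸ U') := rfl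
      rw [h2, QuotientGroup.out_eq', hdd t]
    rw [eq_comm, QuotientGroup.eq] at h1
    have e : ((dd t : D) : G) * (r t).out = x * (x⁻¹ * (((dd t : D) : G) * (r t).out)) := by group
    rw [e, hφU x _ ((hU'le.trans inf_le_left) h1)]
  refine ⟨iMk (fun x => β (QuotientGroup.mk x)) (fun d x => ?_) ⟨U', hU', fun x s hs => ?_⟩, ?_⟩
  · have : ((((d : D) : G) * x : G) : G ⧸ U') = d • (x : G ⧸ U') := rfl
    rw [this, hβ]
  · have : ((x * s : G) : G ⧸ U') = (x : G ⧸ U') := by
      rw [QuotientGroup.eq]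
      simpa using hs
    rw [this]
  · refine iFn_ext fun x => ?_
    rw [iFn_sIndMap, iFn_iMk, hψβ]

/-- Smooth induction preserves short exact sequences of smooth representations. -/
lemma map_sIndFunctor_shortExact [𝒰.IsFin] {X : ShortComplex (Rep.{u} k D)} (hX : X.ShortExact)
    (hsm : IsSmooth (𝒰.restrict D) X.X₂) : (X.map (sIndFunctor k 𝒰 D)).ShortExact := by
  have hinj : Function.Injective X.f.hom := (Rep.mono_iff_injective X.f).1 hX.mono_f
  have hsurj : Function.Surjective X.g.hom := (Rep.epi_iff_surjective X.g).1 hX.epi_g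
  have hex : ∀ b : X.X₂, X.g.hom b = 0 → ∃ a : X.X₁, X.f.hom a = b := by
    intro b hb
    have : LinearMap.range X.f.hom.toLinearMap = LinearMap.ker X.g.hom.toLinearMap :=
      (hX.exact.map (forget₂ (Rep k D) (ModuleCat k))).moduleCat_range_eq_ker
    have hb' : b ∈ LinearMap.ker X.g.hom.toLinearMap := hb
    rw [← this] at hb'
    exact hb'
  refine { exact := ?_, mono_f := ?_, epi_g := ?_ }
  · rw [← ShortComplex.exact_map_iff_of_faithful _ (forget₂ (Rep k G) (ModuleCat k)),
      ShortComplex.moduleCat_exact_iff]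
    intro (φ : sInd 𝒰 D X.X₂) hφ
    have hφ' : ∀ x, X.g.hom (iFn φ x) = 0 := fun x => congrArg (fun χ => iFn χ x) hφ
    choose φ₁ hφ₁ using fun x => hex (iFn φ x) (hφ' x)
    obtain ⟨U, hU, hφU⟩ := iFn_exists_level φ
    refine ⟨iMk φ₁ (fun d x => hinj ?_) ⟨U, hU, fun x s hs => hinj ?_⟩, ?_⟩
    · rw [hφ₁, Rep.hom_comm_apply, hφ₁, iFn_equivariant]
    · rw [hφ₁, hφ₁, hφU x s hs]
    · refine iFn_ext fun x => ?_
      exact hφ₁ x
  · rw [Rep.mono_iff_injective]
    intro (φ : sInd 𝒰 D X.X₁) (φ' : sInd 𝒰 D X.X₁) h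
    refine iFn_ext fun x => hinj ?_
    exact congrArg (fun χ => iFn χ x) h
  · rw [Rep.epi_iff_surjective]
    exact sIndMap_surjective 𝒰 D X.g hsurj hsm

end Exact

end Fermat.Agent.CFT.LC
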