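/-
PROJECT C, LC-side of slice A1 (helper28): SHAPIRO'S LEMMA for level-constant cohomology.

For an arbitrary subgroup `D ≤ G` (closed or open) and a smooth representation `B` of `D`, the map
`sh : Hⁿ_LC(G, sInd_D^G B) ⟶ Hⁿ_LC(D, B)` (restriction to `D` followed by evaluation at `1`) is
an isomorphism.  The proof is by dimension shifting with the smooth coinduced module.
-/
import Fermat.Agent.CFT.LC.SmoothInd
import Fermat.Agent.CFT.LC.CoresRes

set_option autoImplicit false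

universe u

namespace Fermat.Agent.CFT.LC

open CategoryTheory groupCohomology Limits

variable {k G : Type u} [CommRing k] [Group G]

section Map

variable (𝒰 : Levels G) (D : Subgroup G) (B : Rep.{u} k D)

/-- The Shapiro map on complexes of level-constant cochains. -/
noncomputable def shComplex : complex 𝒰 (sInd 𝒰 D B) ⟶ complex (𝒰.restrict D) B :=
  mapComplex (A := sInd 𝒰 D B) (B := B) (Levels.continuous_comap D.subtype 𝒰) (sIndEv 𝒰 D B)

/-- **The Shapiro map** `Hⁿ_LC(G, sInd_D^G B) ⟶ Hⁿ_LC(D, B)`. -/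
noncomputable def sh (n : ℕ) : H 𝒰 (sInd 𝒰 D B) n ⟶ H (𝒰.restrict D) B n :=
  HomologicalComplex.homologyMap (shComplex 𝒰 D B) n

lemma sh_eq_map (n : ℕ) :
    sh 𝒰 D B n = map (A := sInd 𝒰 D B) (B := B) (Levels.continuous_comap D.subtype 𝒰)
      (sIndEv 𝒰 D B) n := rfl

lemma shComplex_f_apply (n : ℕ) (f : cochains 𝒰 (sInd 𝒰 D B) n) (g : Fin n → D) :
    (((shComplex 𝒰 D B).f n).hom f : cochains (𝒰.restrict D) B n).1 g =
      iFn (f.1 fun i => (g i : G)) 1 := rfl

/-- Elementwise description of the Shapiro map. -/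
lemma sh_Hπ (n : ℕ) (z : cocyclesLC 𝒰 (sInd 𝒰 D B) n) :
    ∃ hz : ((shComplex 𝒰 D B).f n).hom z.1 ∈ cocyclesLC (𝒰.restrict D) B n,
      sh 𝒰 D B n (Hπ 𝒰 (sInd 𝒰 D B) n z) = Hπ (𝒰.restrict D) B n ⟨_, hz⟩ :=
  ⟨cochainsMapLC_mem_cocycles (A := sInd 𝒰 D B) (B := B)
    (Levels.continuous_comap D.subtype 𝒰) (sIndEv 𝒰 D B) n z,
   map_Hπ (A := sInd 𝒰 D B) (B := B) (Levels.continuous_comap D.subtype 𝒰) (sIndEv 𝒰 D B) n z⟩

variable {B} in
lemma shComplex_naturality {B' : Rep.{u} k D} (ψ : B ⟶ B') :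
    (lcFunctor 𝒰).map (sIndMap 𝒰 D ψ) ≫ shComplex 𝒰 D B' =
      shComplex 𝒰 D B ≫ (lcFunctor (𝒰.restrict D)).map ψ := by
  ext n f : 3
  apply Subtype.ext
  rfl

variable {B} in
/-- The Shapiro map is natural in the coefficients. -/
lemma sh_naturality {B' : Rep.{u} k D} (ψ : B ⟶ B') (n : ℕ) :
    mapId (sIndMap 𝒰 D ψ) n ≫ sh 𝒰 D B' n = sh 𝒰 D B n ≫ mapId ψ n :=
  (HomologicalComplex.homologyMap_comp _ _ n).symm.trans
    ((congrArg (fun f => HomologicalComplex.homologyMap f n)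
      (shComplex_naturality 𝒰 D ψ)).trans (HomologicalComplex.homologyMap_comp _ _ n))

/-- The morphism of short complexes of complexes given by the Shapiro map. -/
noncomputable def shShortComplex (X : ShortComplex (Rep.{u} k D)) :
    (X.map (sIndFunctor k 𝒰 D)).map (lcFunctor 𝒰) ⟶ X.map (lcFunctor (𝒰.restrict D)) where
  τ₁ := shComplex 𝒰 D X.X₁
  τ₂ := shComplex 𝒰 D X.X₂
  τ₃ := shComplex 𝒰 D X.X₃
  comm₁₂ := (shComplex_naturality 𝒰 D X.f).symm
  comm₂₃ := (shComplex_naturality 𝒰 D X.g).symm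

/-- The Shapiro map commutes with connecting homomorphisms. -/
lemma lcδ_sh [𝒰.IsFin] {X : ShortComplex (Rep.{u} k D)} (hX : X.ShortExact)
    (hsm : IsSmooth (𝒰.restrict D) X.X₂) (i j : ℕ) (hij : i + 1 = j) :
    lcδ (X := X.map (sIndFunctor k 𝒰 D)) (map_sIndFunctor_shortExact 𝒰 D hX hsm)
        (isSmooth_sInd 𝒰 D X.X₂) i j hij ≫ sh 𝒰 D X.X₁ j =
      sh 𝒰 D X.X₃ i ≫ lcδ hX hsm i j hij :=
  HomologicalComplex.HomologySequence.δ_naturality (shShortComplex 𝒰 D X)
    (map_lcFunctor_shortExact (X := X.map (sIndFunctor k 𝒰 D))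
      (map_sIndFunctor_shortExact 𝒰 D hX hsm) (isSmooth_sInd 𝒰 D X.X₂))
    (map_lcFunctor_shortExact hX hsm) i j hij

end Map

section MapId

variable {𝒰 : Levels G}

lemma mapId_comp {A B C : Rep.{u} k G} (ψ : A ⟶ B) (χ : B ⟶ C) (n : ℕ) :
    mapId (𝒰 := 𝒰) (ψ ≫ χ) n = mapId ψ n ≫ mapId χ n :=
  (congrArg (fun f => HomologicalComplex.homologyMap f n) ((lcFunctor 𝒰).map_comp ψ χ)).trans
    (HomologicalComplex.homologyMap_comp _ _ n)

lemma mapId_id (A : Rep.{u} k G) (n : ℕ) : mapId (𝒰 := 𝒰) (𝟙 A) n = 𝟙 (H 𝒰 A n) :=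
  (congrArg (fun f => HomologicalComplex.homologyMap f n) ((lcFunctor 𝒰).map_id A)).trans
    (HomologicalComplex.homologyMap_id _ n)

/-- A retract of a representation with vanishing level-constant cohomology has vanishing
level-constant cohomology. -/
lemma isZero_H_of_retract {A B : Rep.{u} k G} (α : A ⟶ B) (β : B ⟶ A) (h : α ≫ β = 𝟙 A) (n : ℕ)
    (hB : IsZero (H 𝒰 B n)) : IsZero (H 𝒰 A n) := by
  rw [IsZero.iff_id_eq_zero, ← mapId_id, ← h, mapId_comp, hB.eq_of_tgt (mapId α n) 0, zero_comp]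

end MapId

section Acyclic

variable (𝒰 : Levels G) (D : Subgroup G) (B : Rep.{u} k D)

/-- `Φ ↦ (x ↦ Φ(x)(1))`, from `sInd_D^G (smoothCoind_1^D B)` to `smoothCoind_1^G B`. -/
noncomputable def sIndToCoind :
    sInd 𝒰 D (smoothCoind (𝒰.restrict D) B) ⟶ smoothCoind 𝒰 (Rep.trivial k G B) :=
  ConcreteCategory.ofHom (C := Rep.{u} k G)
    (LinearMap.intertwiningMap_of_isIntertwiningMap
      (ρ := (sInd 𝒰 D (smoothCoind (𝒰.restrict D) B)).ρ)
      (σ := (smoothCoind 𝒰 (Rep.trivial k G B)).ρ)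
      (f := { toFun := fun (Φ : sInd 𝒰 D (smoothCoind (𝒰.restrict D) B)) =>
                sMk (𝒰 := 𝒰) (A := Rep.trivial k G B)
                  (fun x => sfn (𝒰 := 𝒰.restrict D) (A := B) (iFn Φ x) 1) (by
                obtain ⟨U, hU, h⟩ := iFn_exists_level Φ
                exact ⟨U, hU, fun x s hs => by rw [h x s hs]⟩)
              map_add' := fun _ _ => rfl
              map_smul' := fun _ _ => rfl })
      (fun g Φ => by
        refine sfn_ext fun x => ?_
        rfl))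

/-- `Ψ ↦ (x ↦ (y ↦ Ψ(y x)))`, from `smoothCoind_1^G B` to `sInd_D^G (smoothCoind_1^D B)`. -/
noncomputable def coindToSInd :
    smoothCoind 𝒰 (Rep.trivial k G B) ⟶ sInd 𝒰 D (smoothCoind (𝒰.restrict D) B) :=
  ConcreteCategory.ofHom (C := Rep.{u} k G)
    (LinearMap.intertwiningMap_of_isIntertwiningMap
      (ρ := (smoothCoind 𝒰 (Rep.trivial k G B)).ρ)
      (σ := (sInd 𝒰 D (smoothCoind (𝒰.restrict D) B)).ρ)
      (f := { toFun := fun (Ψ : smoothCoind 𝒰 (Rep.trivial k G B)) =>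
                iMk (𝒰 := 𝒰) (D := D) (B := smoothCoind (𝒰.restrict D) B)
                (fun x => sMk (𝒰 := 𝒰.restrict D) (A := B) (fun y : D => sfn (𝒰 := 𝒰) (A := Rep.trivial k G B) Ψ ((y : G) * x)) (by
                  obtain ⟨U, hU, h⟩ := sfn_exists_level Ψ
                  have := 𝒰.normal U hU
                  refine ⟨U.comap D.subtype, Levels.mem_comap_sets hU, fun y s hs => ?_⟩
                  have hs' : (s : G) ∈ U := hs
                  have hconj : x⁻¹ * (s : G) * x ∈ U := by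
                    have := Subgroup.Normal.conj_mem (inferInstance : U.Normal) _ hs' x⁻¹
                    simpa using this
                  have e : ((y * s : D) : G) * x = (y : G) * x * (x⁻¹ * (s : G) * x) := by
                    rw [Subgroup.coe_mul]; group
                  rw [e, h _ _ hconj]))
                (fun d x => by
                  refine sfn_ext fun y => ?_
                  change sfn (𝒰 := 𝒰) (A := Rep.trivial k G B) Ψ ((y : G) * ((d : G) * x)) =
                    sfn (𝒰 := 𝒰) (A := Rep.trivial k G B) Ψ (((y * d : D) : G) * x)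
                  rw [Subgroup.coe_mul, mul_assoc])
                (by
                  obtain ⟨U, hU, h⟩ := sfn_exists_level Ψ
                  refine ⟨U, hU, fun x s hs => ?_⟩
                  refine sfn_ext fun y => ?_
                  change sfn (𝒰 := 𝒰) (A := Rep.trivial k G B) Ψ ((y : G) * (x * s)) =
                    sfn (𝒰 := 𝒰) (A := Rep.trivial k G B) Ψ ((y : G) * x)
                  rw [← mul_assoc, h _ _ hs])
              map_add' := fun _ _ => rfl
              map_smul' := fun _ _ => rfl })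
      (fun g Ψ => by
        refine iFn_ext fun x => ?_
        refine sfn_ext fun y => ?_
        change sfn (𝒰 := 𝒰) (A := Rep.trivial k G B) Ψ ((y : G) * x * g) =
          sfn (𝒰 := 𝒰) (A := Rep.trivial k G B) Ψ ((y : G) * (x * g))
        rw [mul_assoc]))

lemma sIndToCoind_comp_coindToSInd :
    sIndToCoind 𝒰 D B ≫ coindToSInd 𝒰 D B = 𝟙 _ := by
  ext Φ
  refine iFn_ext fun x => ?_
  refine sfn_ext fun y => ?_
  have e : sfn (iFn ((sIndToCoind 𝒰 D B ≫ coindToSInd 𝒰 D B).hom Φ) x) y =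
      sfn (iFn Φ ((y : G) * x)) 1 := rfl
  refine e.trans ?_
  rw [iFn_equivariant, sfn_ρ, one_mul]
  rfl

/-- The level-constant cohomology of `sInd_D^G (smoothCoind_1^D B)` vanishes in positive
degrees. -/
lemma isZero_H_sInd_smoothCoind (n : ℕ) :
    IsZero (H 𝒰 (sInd 𝒰 D (smoothCoind (𝒰.restrict D) B)) (n + 1)) :=
  isZero_H_of_retract (sIndToCoind 𝒰 D B) (coindToSInd 𝒰 D B)
    (sIndToCoind_comp_coindToSInd 𝒰 D B) (n + 1) (isZero_H_smoothCoind 𝒰 _ n)

end Acyclic

section DegreeZero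

variable {𝒰 : Levels G} {A : Rep.{u} k G}

lemma d_zero_const (a : A) (ha : ∀ g, A.ρ g a = a) :
    (inhomogeneousCochains.d A 0).hom (fun _ => a) = 0 := by
  funext g
  rw [inhomogeneousCochains.d_hom_apply]
  simp [ha]
  rfl

/-- The level-constant `0`-cocycle attached to an invariant vector. -/
def cocycleOfInvariant (𝒰 : Levels G) (a : A) (ha : ∀ g, A.ρ g a = a) : cocyclesLC 𝒰 A 0 :=
  ⟨⟨fun _ => a, by
      obtain ⟨U, hU⟩ := 𝒰.nonempty
      exact ⟨U, hU, fun _ _ _ => rfl, fun _ s _ => ha s⟩⟩,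
    (mem_cocyclesLC_iff 𝒰 A _).2 (d_zero_const a ha)⟩

@[simp] lemma cocycleOfInvariant_apply (a : A) (ha : ∀ g, A.ρ g a = a) (x : Fin 0 → G) :
    (cocycleOfInvariant 𝒰 a ha).1.1 x = a := rfl

end DegreeZero

section Iso

variable (𝒰 : Levels G) (D : Subgroup G)

/-- The Shapiro map is bijective in degree `0`. -/
lemma sh_zero_bijective (B : Rep.{u} k D) : Function.Bijective (sh 𝒰 D B 0) := by
  constructor
  · rw [injective_iff_map_eq_zero]
    intro x hx
    induction x using H_induction_on with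
    | h z =>
      obtain ⟨hz, h1⟩ := sh_Hπ 𝒰 D B 0 z
      rw [h1, Hπ_eq_zero_iff_zero] at hx
      have hx' : ∀ g : Fin 0 → D, iFn (z.1.1 fun i => (g i : G)) 1 = 0 := fun g =>
        congrFun (congrArg (fun w => w.1.1) hx) g
      have hz0 : z = 0 := by
        apply Subtype.ext
        apply Subtype.ext
        funext y
        refine iFn_ext fun x => ?_
        have hinv := cocyclesLC_zero_invariant z x y
        have e : iFn (z.1.1 y) x = iFn ((sInd 𝒰 D B).ρ x (z.1.1 y)) 1 := by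
          rw [iFn_ρ, one_mul]
        rw [e, hinv]
        have ey : y = fun i => ((default : Fin 0 → D) i : G) := Subsingleton.elim _ _
        rw [ey]
        exact hx' default
      rw [hz0, map_zero]
  · intro w
    induction w using H_induction_on with
    | h zw =>
      obtain ⟨U, hU⟩ := 𝒰.nonempty
      have hb : ∀ d : D, B.ρ d (zw.1.1 default) = zw.1.1 default := fun d =>
        cocyclesLC_zero_invariant zw d default
      let φ : sInd 𝒰 D B := iMk (fun _ => zw.1.1 default) (fun d _ => (hb d).symm)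
        ⟨U, hU, fun _ _ _ => rfl⟩
      have hφ : ∀ g, (sInd 𝒰 D B).ρ g φ = φ := fun g => iFn_ext fun x => rfl
      refine ⟨Hπ 𝒰 (sInd 𝒰 D B) 0 (cocycleOfInvariant 𝒰 φ hφ), ?_⟩
      obtain ⟨hz, h1⟩ := sh_Hπ 𝒰 D B 0 (cocycleOfInvariant 𝒰 φ hφ)
      rw [h1]
      congr 1
      apply Subtype.ext
      apply Subtype.ext
      funext g
      have eg : g = default := Subsingleton.elim _ _
      rw [eg]
      rfl

/-- **Shapiro's lemma for level-constant cohomology**: for an arbitrary subgroup `D` and a smooth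
representation `B` of `D`, the Shapiro map `Hⁿ_LC(G, sInd_D^G B) ⟶ Hⁿ_LC(D, B)` is bijective. -/
theorem sh_bijective [𝒰.IsFin] :
    ∀ (n : ℕ) (B : Rep.{u} k D), IsSmooth (𝒰.restrict D) B → Function.Bijective (sh 𝒰 D B n) := by
  intro n
  induction n with
  | zero => exact fun B _ => sh_zero_bijective 𝒰 D B
  | succ n ih =>
    intro B hB
    have hX := shiftSeq_shortExact hB
    have hsm := isSmooth_shiftSeq_X₂ hB
    have hsm3 := isSmooth_shiftSeq_X₃ hB
    have hY := map_sIndFunctor_shortExact 𝒰 D hX hsm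
    have hYsm : IsSmooth 𝒰 ((shiftSeq hB).map (sIndFunctor k 𝒰 D)).X₂ :=
      isSmooth_sInd 𝒰 D (shiftSeq hB).X₂
    have hJ0 : IsZero (H (𝒰.restrict D) (shiftSeq hB).X₂ (n + 1)) :=
      isZero_H_smoothCoind (𝒰.restrict D) B n
    have hIJ0 : IsZero (H 𝒰 ((shiftSeq hB).map (sIndFunctor k 𝒰 D)).X₂ (n + 1)) :=
      isZero_H_sInd_smoothCoind 𝒰 D B n
    have hJ0' := ModuleCat.isZero_iff_subsingleton.mp hJ0
    have hIJ0' := ModuleCat.isZero_iff_subsingleton.mp hIJ0
    have hδ := lcδ_sh 𝒰 D hX hsm n (n + 1) rfl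
    have hnatg := sh_naturality 𝒰 D (shiftSeq hB).g n
    have hδ' : ∀ y, sh 𝒰 D (shiftSeq hB).X₁ (n + 1) (lcδ hY hYsm n (n + 1) rfl y) =
        lcδ hX hsm n (n + 1) rfl (sh 𝒰 D (shiftSeq hB).X₃ n y) := fun y => by
      exact ConcreteCategory.congr_hom hδ y
    have hnatg' : ∀ w, sh 𝒰 D (shiftSeq hB).X₃ n
        (mapId ((shiftSeq hB).map (sIndFunctor k 𝒰 D)).g n w) =
        mapId (shiftSeq hB).g n (sh 𝒰 D (shiftSeq hB).X₂ n w) := fun w => by
      exact ConcreteCategory.congr_hom hnatg w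
    have hexY1 := (ShortComplex.moduleCat_exact_iff _).1 (exact₁ hY hYsm n (n + 1) rfl)
    have hexX1 := (ShortComplex.moduleCat_exact_iff _).1 (exact₁ hX hsm n (n + 1) rfl)
    have hexX3 := (ShortComplex.moduleCat_exact_iff _).1 (exact₃ hX hsm n (n + 1) rfl)
    have hcompδ : ∀ w, lcδ hY hYsm n (n + 1) rfl
        (mapId ((shiftSeq hB).map (sIndFunctor k 𝒰 D)).g n w) = 0 := fun w => by
      exact ConcreteCategory.congr_hom
        ((map_lcFunctor_shortExact hY hYsm).comp_δ n (n + 1) rfl) w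
    constructor
    · rw [injective_iff_map_eq_zero]
      intro x hx
      obtain ⟨y, rfl⟩ := hexY1 x (Subsingleton.elim _ _)
      have h1 : lcδ hX hsm n (n + 1) rfl (sh 𝒰 D (shiftSeq hB).X₃ n y) = 0 := by
        rw [← hδ']; exact hx
      obtain ⟨w, hw⟩ := hexX3 _ h1
      obtain ⟨w', rfl⟩ := (ih _ hsm).2 w
      have h3 : y = mapId ((shiftSeq hB).map (sIndFunctor k 𝒰 D)).g n w' :=
        (ih _ hsm3).1 (hw.symm.trans (hnatg' w').symm)
      rw [h3]
      exact hcompδ w'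
    · intro z
      obtain ⟨y, rfl⟩ := hexX1 z (Subsingleton.elim _ _)
      obtain ⟨y', rfl⟩ := (ih _ hsm3).2 y
      exact ⟨lcδ hY hYsm n (n + 1) rfl y', hδ' y'⟩

instance isIso_sh [𝒰.IsFin] (n : ℕ) (B : Rep.{u} k D) [hB : Fact (IsSmooth (𝒰.restrict D) B)] :
    IsIso (sh 𝒰 D B n) :=
  (ConcreteCategory.isIso_iff_bijective _).2 (sh_bijective 𝒰 D n B hB.out)

/-- Shapiro's lemma as an isomorphism. -/
noncomputable def shIso [𝒰.IsFin] (n : ℕ) (B : Rep.{u} k D) (hB : IsSmooth (𝒰.restrict D) B) :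
    H 𝒰 (sInd 𝒰 D B) n ≅ H (𝒰.restrict D) B n :=
  haveI : Fact (IsSmooth (𝒰.restrict D) B) := ⟨hB⟩
  asIso (sh 𝒰 D B n)

@[simp] lemma shIso_hom [𝒰.IsFin] (n : ℕ) (B : Rep.{u} k D) (hB : IsSmooth (𝒰.restrict D) B) :
    (shIso 𝒰 D n B hB).hom = sh 𝒰 D B n := rfl

end Iso

end Fermat.Agent.CFT.LC
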