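/-
Level-constant cohomology (helper28): vanishing of `H¹_LC(V, A)` for open subgroups `V` from the
vanishing of `H¹` on all subgroups of the finite layers.

* `isZero_H1_restrict_of_layers`: if `H¹(Hs, A^U) = 0` for every level `U` and every subgroup
  `Hs ≤ G ⧸ U`, then `H¹_LC(V, A) = 0` for every open subgroup `V` of `G`.
  (Generalisation of helper24's `ClassFormation.isZero_H1_restrict`, same elementwise proof: a
  level-constant 1-cocycle of `V` descends to a 1-cocycle of `V/U ≤ G ⧸ U`.)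
  This is the "Hilbert 90" input `(h2)` of THEOREM I for the idele module `J`.
* `eq_zero_of_H1_restrict_of_layers`: elementwise form.
* `isZero_H_of_layers`: in any degree `n`, `Hⁿ_LC(G, A) = 0` as soon as `Hⁿ(G ⧸ U, A^U) = 0` for
  cofinally many levels `U` (every class is inflated from a level).
-/
import Fermat.Agent.CFT.LC.LowDegree
import Fermat.Agent.CFT.LC.Restrict
import Fermat.Agent.CFT.LC.Inflation

set_option autoImplicit false

universe u

noncomputable section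

namespace Fermat.Agent.CFT.LC

open CategoryTheory groupCohomology

variable {k G : Type u} [CommRing k] [Group G] {𝒰 : Levels G} (A : Rep.{u} k G)

/-- **Hilbert 90 in the limit**: `H¹_LC(V, A) = 0` for every open subgroup `V`, provided `H¹`
vanishes for every subgroup of every finite layer `(G ⧸ U, A^U)`. -/
theorem isZero_H1_restrict_of_layers
    (h : ∀ (U : Subgroup G) [U.Normal], U ∈ 𝒰.sets → ∀ Hs : Subgroup (G ⧸ U),
      Limits.IsZero (groupCohomology (Rep.res Hs.subtype (A.quotientToInvariants U)) 1))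
    (V : Subgroup G) (hV : 𝒰.IsOpen V) :
    Limits.IsZero (H (𝒰.restrict V) (Rep.res V.subtype A) 1) := by
  rw [ModuleCat.isZero_iff_subsingleton]
  refine ⟨fun x x' => ?_⟩
  suffices h : ∀ x : H (𝒰.restrict V) (Rep.res V.subtype A) 1, x = 0 from (h x).trans (h x').symm
  intro x
  obtain ⟨f, rfl⟩ := H1π'_surjective (𝒰.restrict V) (Rep.res V.subtype A) x
  rw [H1π'_eq_zero_iff, mem_B₁_iff]
  obtain ⟨hfc, U', hU', hfU'⟩ := (mem_Z₁_iff f.1).1 f.2
  obtain ⟨U₁, hU₁, rfl⟩ := hU'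
  obtain ⟨U, hU, hUU₁, hUV⟩ := hV.exists_le hU₁
  have hUn := 𝒰.normal U hU
  rw [mem_cocycles₁_iff] at hfc
  have hf1 : ∀ (v u : V), (u : G) ∈ U → f.1 (v * u) = f.1 v := fun v u hu =>
    hfU'.1 v u (Subgroup.mem_comap.2 (hUU₁ hu))
  have hf2 : ∀ (v u : V), (u : G) ∈ U → A.ρ (u : G) (f.1 v) = f.1 v := fun v u hu =>
    hfU'.2 v u (Subgroup.mem_comap.2 (hUU₁ hu))
  have hinv : ∀ (v : V) (u : U), A.ρ (u : G) (f.1 v) = f.1 v := fun v u =>
    hf2 v ⟨u.1, hUV u.2⟩ u.2
  let Hs : Subgroup (G ⧸ U) := V.map (QuotientGroup.mk' U)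
  have hlift : ∀ h : Hs, ∃ v : V, ((v : G) : G ⧸ U) = h.1 := fun h => by
    obtain ⟨g, hg, hgh⟩ := h.2
    exact ⟨⟨g, hg⟩, hgh⟩
  choose s hs using hlift
  let fbar : Hs → A.quotientToInvariants U := fun h => ⟨f.1 (s h), fun u => hinv (s h) u⟩
  have hwd : ∀ (v : V) (h : Hs), ((v : G) : G ⧸ U) = h.1 → f.1 v = f.1 (s h) := by
    intro v h hvh
    have hmem : ((s h : G))⁻¹ * (v : G) ∈ U := by
      rw [← QuotientGroup.eq, hs h, hvh]
    have h1 := hf1 (s h) ((s h)⁻¹ * v) (by simpa using hmem)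
    rw [mul_inv_cancel_left] at h1
    exact h1
  have hcoc : fbar ∈ cocycles₁ (Rep.res Hs.subtype (A.quotientToInvariants U)) := by
    rw [mem_cocycles₁_iff]
    intro h h'
    apply Subtype.ext
    have e1 : f.1 (s (h * h')) = f.1 (s h * s h') := by
      refine (hwd (s h * s h') (h * h') ?_).symm
      have : (((s h * s h' : V) : G) : G ⧸ U) = ((s h : G) : G ⧸ U) * ((s h' : G) : G ⧸ U) := rfl
      rw [this, hs h, hs h']
      rfl
    have e2 : (((Rep.res Hs.subtype (A.quotientToInvariants U)).ρ h (fbar h')).1 : A) =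
        A.ρ (s h : G) (f.1 (s h')) := by
      have : (h : G ⧸ U) = ((s h : G) : G ⧸ U) := (hs h).symm
      change (((A.quotientToInvariants U).ρ (h : G ⧸ U) (fbar h')).1 : A) = _
      rw [this]
      rfl
    change f.1 (s (h * h')) = ((Rep.res Hs.subtype (A.quotientToInvariants U)).ρ h (fbar h')).1 +
      f.1 (s h)
    rw [e1, e2, hfc]
    rfl
  have hz := h U hU Hs
  have h0 : H1π (Rep.res Hs.subtype (A.quotientToInvariants U)) ⟨fbar, hcoc⟩ = 0 := by
    have := (ModuleCat.isZero_iff_subsingleton.1 hz)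
    exact Subsingleton.elim _ _
  rw [H1π_eq_zero_iff] at h0
  obtain ⟨c, hc⟩ := h0
  refine ⟨(c.1 : A), ⟨U.subgroupOf V, Levels.subgroupOf_mem_restrict hU V, ?_⟩, ?_⟩
  · intro u hu
    exact c.2 ⟨u.1, hu⟩
  · funext v
    have hvH : ((v : G) : G ⧸ U) ∈ Hs := ⟨v.1, v.2, rfl⟩
    have h1 := congrFun hc ⟨((v : G) : G ⧸ U), hvH⟩
    have h2 : f.1 v = f.1 (s ⟨((v : G) : G ⧸ U), hvH⟩) := hwd v ⟨_, hvH⟩ rfl
    have h3 := congrArg Subtype.val h1
    rw [d₀₁_hom_apply]
    rw [h2]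
    refine Eq.trans ?_ h3
    rfl

/-- Elementwise form of `isZero_H1_restrict_of_layers`. -/
theorem eq_zero_of_H1_restrict_of_layers
    (h : ∀ (U : Subgroup G) [U.Normal], U ∈ 𝒰.sets → ∀ Hs : Subgroup (G ⧸ U),
      Limits.IsZero (groupCohomology (Rep.res Hs.subtype (A.quotientToInvariants U)) 1))
    (V : Subgroup G) (hV : 𝒰.IsOpen V) (x : H (𝒰.restrict V) (Rep.res V.subtype A) 1) : x = 0 :=
  (ModuleCat.isZero_iff_subsingleton.1 (isZero_H1_restrict_of_layers A h V hV)).elim x 0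

/-- In any degree, `Hⁿ_LC(G, A) = 0` as soon as `Hⁿ(G ⧸ U, A^U) = 0` for cofinally many levels
(`P U` is any property of levels such that every level contains a level with `P`). -/
theorem isZero_H_of_layers (n : ℕ) (P : Subgroup G → Prop)
    (hP : ∀ U ∈ 𝒰.sets, ∃ W ∈ 𝒰.sets, W ≤ U ∧ P W)
    (h : ∀ (U : Subgroup G) [U.Normal], U ∈ 𝒰.sets → P U →
      Limits.IsZero (groupCohomology (A.quotientToInvariants U) n)) :
    Limits.IsZero (H 𝒰 A n) := by
  rw [ModuleCat.isZero_iff_subsingleton]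
  refine ⟨fun x x' => ?_⟩
  suffices h : ∀ x : H 𝒰 A n, x = 0 from (h x).trans (h x').symm
  intro x
  obtain ⟨U, hUn, hU, y, rfl⟩ := exists_infl_eq 𝒰 A x
  obtain ⟨W, hW, hWU, hPW⟩ := hP U hU
  have hWn := 𝒰.normal W hW
  have hz := h W hW hPW
  have h0 : inflFin A U W hWU n y = 0 :=
    (ModuleCat.isZero_iff_subsingleton.1 hz).elim _ _
  exact (inflFin_infl_apply A 𝒰 U W hWU hU hW n y).symm.trans
    ((congrArg _ h0).trans (map_zero _))

end Fermat.Agent.CFT.LC
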